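/-
X0N project, package (G) (helper7): a place from a `ℤ`-valued valuation function.
-/
import Mathlib
import Fermat.Prelude.Def_AlgebraicCurve_DivisorClassGroup

set_option autoImplicit false

open AlgebraicCurve

namespace Fermat.Agent.FF.Gal

variable {K F : Type*} [Field K] [Field F] [Algebra K F]

/-- A `ℤ`-valued (additive, normalised or not) nontrivial valuation on `F`, trivial on `K`. The
value at `0` is irrelevant. -/
structure IsOrdFun (K : Type*) {F : Type*} [Field K] [Field F] [Algebra K F] (ν : F → ℤ) :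
    Prop where
  map_mul : ∀ x y : F, x ≠ 0 → y ≠ 0 → ν (x * y) = ν x + ν y
  map_add : ∀ x y : F, x ≠ 0 → y ≠ 0 → x + y ≠ 0 → min (ν x) (ν y) ≤ ν (x + y)
  map_algebraMap : ∀ a : K, a ≠ 0 → ν (algebraMap K F a) = 0
  nontrivial : ∃ x : F, x ≠ 0 ∧ ν x ≠ 0

namespace IsOrdFun

variable {ν : F → ℤ} (hν : IsOrdFun K ν)
include hν

theorem map_one : ν 1 = 0 := by
  have := hν.map_mul 1 1 one_ne_zero one_ne_zero
  rw [mul_one] at this
  linarith

theorem map_neg_one : ν (-1) = 0 := by
  have := hν.map_mul (-1) (-1) (neg_ne_zero.mpr one_ne_zero) (neg_ne_zero.mpr one_ne_zero)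
  rw [neg_mul_neg, mul_one, hν.map_one] at this
  linarith

theorem map_neg {x : F} (hx : x ≠ 0) : ν (-x) = ν x := by
  have := hν.map_mul (-1) x (neg_ne_zero.mpr one_ne_zero) hx
  rw [neg_one_mul, hν.map_neg_one, zero_add] at this
  exact this

theorem map_inv {x : F} (hx : x ≠ 0) : ν x⁻¹ = -ν x := by
  have := hν.map_mul x x⁻¹ hx (inv_ne_zero hx)
  rw [mul_inv_cancel₀ hx, hν.map_one] at this
  linarith

theorem map_div {x y : F} (hx : x ≠ 0) (hy : y ≠ 0) : ν (x / y) = ν x - ν y := by
  rw [div_eq_mul_inv, hν.map_mul x y⁻¹ hx (inv_ne_zero hy), hν.map_inv hy]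
  ring

/-- the valuation subring of an order function -/
def valuationSubring : ValuationSubring F where
  carrier := {x | x = 0 ∨ 0 ≤ ν x}
  mul_mem' := by
    rintro x y (rfl | hx) (rfl | hy)
    · left; simp
    · left; simp
    · left; simp
    · by_cases hx0 : x = 0
      · left; simp [hx0]
      by_cases hy0 : y = 0
      · left; simp [hy0]
      right
      rw [hν.map_mul x y hx0 hy0]
      positivity
  one_mem' := Or.inr (by rw [hν.map_one])
  add_mem' := by
    rintro x y (rfl | hx) (rfl | hy)
    · left; simp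
    · right; simpa using hy
    · right; simpa using hx
    · by_cases hx0 : x = 0
      · right; simpa [hx0] using hy
      by_cases hy0 : y = 0
      · right; simpa [hy0] using hx
      by_cases hxy : x + y = 0
      · left; exact hxy
      right
      exact le_trans (le_min hx hy) (hν.map_add x y hx0 hy0 hxy)
  zero_mem' := Or.inl rfl
  neg_mem' := by
    rintro x (rfl | hx)
    · left; simp
    · by_cases hx0 : x = 0
      · left; simp [hx0]
      right
      rw [hν.map_neg hx0]; exact hx
  mem_or_inv_mem' := by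
    intro x
    by_cases hx0 : x = 0
    · left; left; exact hx0
    rcases le_total 0 (ν x) with h | h
    · left; right; exact h
    · right; right
      rw [hν.map_inv hx0]
      linarith

theorem mem_valuationSubring_iff {x : F} :
    x ∈ hν.valuationSubring ↔ x = 0 ∨ 0 ≤ ν x := Iff.rfl

theorem mem_valuationSubring_of_ne_zero {x : F} (hx : x ≠ 0) :
    x ∈ hν.valuationSubring ↔ 0 ≤ ν x := by
  rw [mem_valuationSubring_iff]
  exact ⟨fun h => h.resolve_left hx, Or.inr⟩

theorem valuationSubring_ne_top : hν.valuationSubring ≠ ⊤ := by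
  obtain ⟨x, hx0, hx⟩ := hν.nontrivial
  intro htop
  have h1 : x ∈ hν.valuationSubring := htop ▸ ValuationSubring.mem_top x
  have h2 : x⁻¹ ∈ hν.valuationSubring := htop ▸ ValuationSubring.mem_top x⁻¹
  rw [hν.mem_valuationSubring_of_ne_zero hx0] at h1
  rw [hν.mem_valuationSubring_of_ne_zero (inv_ne_zero hx0), hν.map_inv hx0] at h2
  exact hx (le_antisymm (by linarith) h1)

theorem isPrincipalIdealRing_valuationSubring : IsPrincipalIdealRing hν.valuationSubring := by
  constructor
  intro I
  by_cases hI : I = ⊥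
  · rw [hI]; exact bot_isPrincipal
  -- the set of values of nonzero elements of `I`
  obtain ⟨y, hyI, hy0⟩ : ∃ y ∈ I, y ≠ 0 := Submodule.exists_mem_ne_zero_of_ne_bot hI
  let S : Set ℕ := {n | ∃ x ∈ I, x ≠ 0 ∧ ν (x : F) = n}
  have hyF : (y : F) ≠ 0 := fun h => hy0 (Subtype.ext h)
  have hynn : 0 ≤ ν (y : F) := (hν.mem_valuationSubring_of_ne_zero hyF).mp y.2
  have hS : S.Nonempty := ⟨(ν (y : F)).toNat, y, hyI, hy0, (Int.toNat_of_nonneg hynn).symm⟩
  classical
  obtain ⟨x, hxI, hx0, hxn⟩ := Nat.find_spec hS
  have hxF : (x : F) ≠ 0 := fun h => hx0 (Subtype.ext h)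
  refine ⟨⟨x, ?_⟩⟩
  apply le_antisymm
  · intro z hz
    by_cases hz0 : z = 0
    · rw [hz0]; exact Submodule.zero_mem _
    have hzF : (z : F) ≠ 0 := fun h => hz0 (Subtype.ext h)
    have hznn : 0 ≤ ν (z : F) := (hν.mem_valuationSubring_of_ne_zero hzF).mp z.2
    have hmin : Nat.find hS ≤ (ν (z : F)).toNat :=
      Nat.find_min' hS ⟨z, hz, hz0, (Int.toNat_of_nonneg hznn).symm⟩
    have hle : ν (x : F) ≤ ν (z : F) := by
      rw [hxn, ← Int.toNat_of_nonneg hznn]
      exact_mod_cast hmin
    have hq : (z : F) / (x : F) ∈ hν.valuationSubring := by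
      rw [hν.mem_valuationSubring_of_ne_zero (div_ne_zero hzF hxF), hν.map_div hzF hxF]
      linarith
    rw [Submodule.mem_span_singleton]
    refine ⟨⟨_, hq⟩, Subtype.ext ?_⟩
    show (z : F) / (x : F) * (x : F) = z
    field_simp
  · rw [Submodule.span_singleton_le_iff_mem]
    exact hxI

/-- The place attached to an order function. -/
def place : Place K F where
  toValuationSubring := hν.valuationSubring
  algebraMap_mem' a := by
    by_cases ha : a = 0
    · left; simp [ha]
    · right; rw [hν.map_algebraMap a ha]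
  ne_top' := hν.valuationSubring_ne_top
  isPrincipalIdealRing' := hν.isPrincipalIdealRing_valuationSubring

@[simp]
theorem place_toValuationSubring : hν.place.toValuationSubring = hν.valuationSubring := rfl

theorem mem_place_iff {x : F} (hx : x ≠ 0) : x ∈ hν.place.toValuationSubring ↔ 0 ≤ ν x :=
  hν.mem_valuationSubring_of_ne_zero hx

/-- `ν` is a positive multiple of the normalised order of the place attached to `ν`. -/
theorem exists_ord_eq : ∃ (e : ℤ) (π : F), 0 < e ∧ π ≠ 0 ∧ ν π = e ∧ hν.place.ord π = 1 ∧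
    ∀ x : F, x ≠ 0 → ν x = e * hν.place.ord x := by
  obtain ⟨π, hπ⟩ := IsDiscreteValuationRing.exists_irreducible hν.place.toValuationSubring
  have hπF : (π : F) ≠ 0 := by
    simpa [ne_eq, ZeroMemClass.coe_eq_zero] using hπ.ne_zero
  have hunit : ∀ u : hν.place.toValuationSubringˣ, ν ((u : hν.place.toValuationSubring) : F) = 0 := by
    intro u
    have hu0 : ((u : hν.place.toValuationSubring) : F) ≠ 0 := fun h =>
      u.ne_zero (Subtype.ext h)
    have h1 := (hν.mem_place_iff hu0).mp (u : hν.place.toValuationSubring).2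
    have h2 := (hν.mem_place_iff (inv_ne_zero hu0)).mp (by
      have : (((u⁻¹ : hν.place.toValuationSubringˣ) : hν.place.toValuationSubring) : F)
          = ((u : hν.place.toValuationSubring) : F)⁻¹ := by
        have h := congrArg (Subtype.val) (u.mul_inv)
        simp only [Subring.coe_one] at h
        exact (eq_inv_of_mul_eq_one_right h)
      rw [← this]
      exact ((u⁻¹ : hν.place.toValuationSubringˣ) : hν.place.toValuationSubring).2)
    rw [hν.map_inv hu0] at h2
    linarith
  have hzpow : ∀ n : ℤ, ν ((π : F) ^ n) = n * ν (π : F) := by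
    have hnat : ∀ n : ℕ, ν ((π : F) ^ n) = n * ν (π : F) := by
      intro n
      induction n with
      | zero => simp [hν.map_one]
      | succ k ih =>
        rw [pow_succ, hν.map_mul _ _ (pow_ne_zero k hπF) hπF, ih]
        push_cast; ring
    intro n
    obtain ⟨k, rfl | rfl⟩ := Int.eq_nat_or_neg n
    · simpa using hnat k
    · rw [zpow_neg, hν.map_inv (zpow_ne_zero _ hπF), zpow_natCast, hnat k]
      ring
  have hπnn : 0 ≤ ν (π : F) := (hν.mem_place_iff hπF).mp π.2
  have hπpos : 0 < ν (π : F) := by
    rcases hπnn.lt_or_eq with h | h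
    · exact h
    · exfalso
      have hinv : (π : F)⁻¹ ∈ hν.place.toValuationSubring := by
        rw [hν.mem_place_iff (inv_ne_zero hπF), hν.map_inv hπF, ← h, neg_zero]
      apply hπ.not_isUnit
      refine ⟨⟨π, ⟨_, hinv⟩, Subtype.ext ?_, Subtype.ext ?_⟩, rfl⟩
      · show (π : F) * (π : F)⁻¹ = 1
        exact mul_inv_cancel₀ hπF
      · show (π : F)⁻¹ * (π : F) = 1
        exact inv_mul_cancel₀ hπF
  refine ⟨ν (π : F), π, hπpos, hπF, rfl, hν.place.ord_coe_irreducible hπ, ?_⟩
  intro x hx
  obtain ⟨u, hu⟩ := hν.place.exists_unit_mul_zpow hx hπ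
  have hu0 : ((u : hν.place.toValuationSubring) : F) ≠ 0 := fun h =>
    u.ne_zero (Subtype.ext h)
  conv_lhs => rw [hu]
  rw [hν.map_mul _ _ hu0 (zpow_ne_zero _ hπF), hunit u, zero_add, hzpow]
  ring

end IsOrdFun

end Fermat.Agent.FF.Gal

namespace Fermat.Agent.FF.Gal

variable {K F : Type*} [Field K] [Field F] [Algebra K F]

/-- If the order function takes the value `1`, it is the normalised order of its place. -/
theorem IsOrdFun.place_ord_eq {ν : F → ℤ} (hν : IsOrdFun K ν) (h1 : ∃ y : F, y ≠ 0 ∧ ν y = 1)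
    {x : F} (hx : x ≠ 0) : hν.place.ord x = ν x := by
  obtain ⟨e, π, he, -, -, -, hord⟩ := hν.exists_ord_eq
  obtain ⟨y, hy0, hy⟩ := h1
  have h2 := hord y hy0
  rw [hy] at h2
  have he1 : e = 1 := Int.eq_one_of_mul_eq_one_right he.le h2.symm
  rw [hord x hx, he1, one_mul]

open IsDedekindDomain in
/-- The order function of a height one prime of a Dedekind domain with fraction field `F`. -/
theorem isOrdFun_valuation {R : Type*} [CommRing R] [IsDedekindDomain R] [Algebra R F]
    [IsFractionRing R F] (P : HeightOneSpectrum R)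
    (hK : ∀ a : K, algebraMap K F a ∈ (P.valuation F).valuationSubring) :
    IsOrdFun K (fun x : F => -(WithZero.log (P.valuation F x))) where
  map_mul x y hx hy := by
    show -(WithZero.log (P.valuation F (x * y))) = _
    rw [map_mul, WithZero.log_mul ((Valuation.ne_zero_iff _).mpr hx)
      ((Valuation.ne_zero_iff _).mpr hy)]
    ring
  map_add x y hx hy hxy := by
    have hx' := (Valuation.ne_zero_iff (P.valuation F)).mpr hx
    have hy' := (Valuation.ne_zero_iff (P.valuation F)).mpr hy
    have hxy' := (Valuation.ne_zero_iff (P.valuation F)).mpr hxy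
    show min (-(WithZero.log (P.valuation F x))) (-(WithZero.log (P.valuation F y)))
      ≤ -(WithZero.log (P.valuation F (x + y)))
    rcases le_max_iff.mp (Valuation.map_add (P.valuation F) x y) with h | h
    · have := (WithZero.log_le_log hxy' hx').mpr h
      exact le_trans (min_le_left _ _) (by linarith)
    · have := (WithZero.log_le_log hxy' hy').mpr h
      exact le_trans (min_le_right _ _) (by linarith)
  map_algebraMap a ha := by
    have h0 : algebraMap K F a ≠ 0 := (map_ne_zero _).mpr ha
    have h0' := (Valuation.ne_zero_iff (P.valuation F)).mpr h0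
    have h1 : P.valuation F (algebraMap K F a) ≤ 1 := hK a
    have h2 : P.valuation F (algebraMap K F a⁻¹) ≤ 1 := hK a⁻¹
    rw [map_inv₀, map_inv₀] at h2
    have h3 : 1 ≤ P.valuation F (algebraMap K F a) := by
      rwa [inv_le_one₀ (zero_lt_iff.mpr h0')] at h2
    have h4 : P.valuation F (algebraMap K F a) = 1 := le_antisymm h1 h3
    show -(WithZero.log (P.valuation F (algebraMap K F a))) = 0
    rw [h4]; simp
  nontrivial := by
    obtain ⟨π, hπ⟩ := P.valuation_exists_uniformizer F
    refine ⟨π, ?_, ?_⟩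
    · intro h0
      rw [h0, map_zero] at hπ
      exact WithZero.zero_ne_coe hπ
    · show -(WithZero.log (P.valuation F π)) ≠ 0
      rw [hπ]; simp

end Fermat.Agent.FF.Gal
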