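import Mathlib
import Fermat.Prelude.Def_AlgebraicCurve_IsCurveOver
import Fermat.Prelude.Def_AlgebraicCurve_CanonicalDivisor
import Fermat.Prelude.Def_AlgebraicCurve_Repartitions

set_option autoImplicit false

open AlgebraicCurve IsDedekindDomain WithZero

namespace Fermat.Agent.FF

variable {k F : Type*} [Field k] [Field F] [Algebra k F]

namespace PlaceAux

variable (v : Place k F)

theorem mem_iff_adicValuation_le_one {f : F} :
    f ∈ v.toValuationSubring ↔ v.adicValuation f ≤ 1 := by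
  refine ⟨v.adicValuation_le_one_of_mem, fun h => ?_⟩
  by_contra hf
  have hf0 : f ≠ 0 := fun h0 => hf (h0 ▸ v.toValuationSubring.zero_mem)
  have hinv : f⁻¹ ∈ v.toValuationSubring := (v.toValuationSubring.mem_or_inv_mem f).resolve_left hf
  have hnu : ¬ IsUnit (⟨f⁻¹, hinv⟩ : v.toValuationSubring) := by
    intro hu
    obtain ⟨u, hu⟩ := hu
    have : ((u⁻¹ : (v.toValuationSubring)ˣ) : v.toValuationSubring).1 = f := by
      have h1 : (u : v.toValuationSubring).1 = f⁻¹ := by rw [hu]
      have h2 : ((u : v.toValuationSubring) * ((u⁻¹ : (v.toValuationSubring)ˣ) : v.toValuationSubring)).1 = 1 := by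
        rw [Units.mul_inv]; rfl
      rw [MulMemClass.coe_mul, h1] at h2
      field_simp at h2
      exact h2
    exact hf (this ▸ Subtype.coe_prop _)
  have h1 : v.adicValuation f⁻¹ ≤ 1 := v.adicValuation_le_one_of_mem hinv
  have h2 : v.adicValuation f⁻¹ ≠ 1 := by
    intro h2
    exact hnu ((v.adicValuation_coe_eq_one_iff ⟨f⁻¹, hinv⟩).mp h2)
  have h3 : v.adicValuation f⁻¹ < 1 := lt_of_le_of_ne h1 h2
  rw [map_inv₀] at h3
  have h4 : v.adicValuation f ≠ 0 := v.adicValuation_ne_zero hf0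
  have : 1 < v.adicValuation f := by
    rwa [inv_lt_one₀ (zero_lt_iff.mpr h4)] at h3
  exact absurd h (not_le.mpr this)

theorem mem_iff_ord_nonneg {f : F} :
    f ∈ v.toValuationSubring ↔ f = 0 ∨ 0 ≤ v.ord f := by
  rw [mem_iff_adicValuation_le_one, v.adicValuation_le_one_iff]

theorem mem_iff_ord_nonneg' {f : F} (hf : f ≠ 0) :
    f ∈ v.toValuationSubring ↔ 0 ≤ v.ord f := by
  rw [mem_iff_ord_nonneg, or_iff_right hf]


theorem ord_nonneg_of_mem {f : F} (hf : f ∈ v.toValuationSubring) : 0 ≤ v.ord f := by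
  rcases eq_or_ne f 0 with rfl | h0
  · simp
  · exact (mem_iff_ord_nonneg' v h0).mp hf

theorem ord_algebraMap (a : k) : v.ord (algebraMap k F a) = 0 := by
  rcases eq_or_ne a 0 with rfl | ha
  · simp
  have h1 : 0 ≤ v.ord (algebraMap k F a) := ord_nonneg_of_mem v (v.algebraMap_mem' a)
  have h2 : 0 ≤ v.ord (algebraMap k F a⁻¹) := ord_nonneg_of_mem v (v.algebraMap_mem' a⁻¹)
  rw [map_inv₀, v.ord_inv] at h2
  omega

theorem ord_add_ge {f g : F} (hfg : f + g ≠ 0) {n : ℤ} (hf : f = 0 ∨ n ≤ v.ord f)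
    (hg : g = 0 ∨ n ≤ v.ord g) : n ≤ v.ord (f + g) := by
  have h1 : v.adicValuation f ≤ exp (-n) := by
    rw [v.adicValuation_le_exp_iff, neg_neg]; exact hf
  have h2 : v.adicValuation g ≤ exp (-n) := by
    rw [v.adicValuation_le_exp_iff, neg_neg]; exact hg
  have h3 : v.adicValuation (f + g) ≤ exp (-n) :=
    (Valuation.map_add _ _ _).trans (max_le h1 h2)
  rw [v.adicValuation_le_exp_iff, neg_neg] at h3
  exact h3.resolve_left hfg

theorem ord_add_eq_of_lt {f g : F} (hf : f ≠ 0) (hg : g ≠ 0) (h : v.ord f < v.ord g) :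
    v.ord (f + g) = v.ord f := by
  have h1 : v.adicValuation g < v.adicValuation f := by
    rw [v.adicValuation_eq_exp_neg_ord hf, v.adicValuation_eq_exp_neg_ord hg, exp_lt_exp]
    omega
  have h2 : v.adicValuation (f + g) = v.adicValuation f := by
    rw [add_comm]
    exact Valuation.map_add_eq_of_lt_right _ h1
  have hfg : f + g ≠ 0 := by
    intro h0
    rw [h0, map_zero] at h2
    exact v.adicValuation_ne_zero hf h2.symm
  rw [v.adicValuation_eq_exp_neg_ord hf, v.adicValuation_eq_exp_neg_ord hfg, exp_inj] at h2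
  omega

theorem ord_pow (f : F) (n : ℕ) : v.ord (f ^ n) = n * v.ord f := by
  have := v.ord_zpow f n
  simpa using this

theorem ord_div {f g : F} (hf : f ≠ 0) (hg : g ≠ 0) : v.ord (f / g) = v.ord f - v.ord g := by
  rw [div_eq_mul_inv, v.ord_mul hf (inv_ne_zero hg), v.ord_inv]; ring

/-- Characterisation of `ord` through any normalised valuation with the right valuation ring. -/
theorem ord_eq_of_valuation (ν : Valuation F ℤᵐ⁰) (hν : ν.valuationSubring = v.toValuationSubring)
    {π : F} (hπ : ν π = exp (-1 : ℤ)) {f : F} (hf : f ≠ 0) : v.ord f = -log (ν f) := by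
  have hπ0 : π ≠ 0 := by
    intro h0; rw [h0, map_zero] at hπ; exact absurd hπ.symm (by simp)
  have hmem : ∀ g : F, g ∈ v.toValuationSubring ↔ ν g ≤ 1 := by
    intro g; rw [← hν]; exact Valuation.mem_valuationSubring_iff _ _
  -- `π` has `ord = 1`
  have key : ∀ g : F, g ≠ 0 → ν g = 1 → v.ord g = 0 := by
    intro g hg h1
    have h2 : ν g⁻¹ = 1 := by rw [map_inv₀, h1, inv_one]
    have h3 := ord_nonneg_of_mem v ((hmem g).mpr h1.le)
    have h4 := ord_nonneg_of_mem v ((hmem g⁻¹).mpr h2.le)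
    rw [v.ord_inv] at h4
    omega
  have stepA : ∀ g : F, g ≠ 0 → v.ord g = (-log (ν g)) * v.ord π := by
    intro g hg
    have hνg : ν g ≠ 0 := (Valuation.ne_zero_iff _).mpr hg
    set n : ℤ := -log (ν g) with hn
    have h1 : ν (g * π ^ (-n)) = 1 := by
      rw [map_mul, map_zpow₀, hπ, ← exp_zsmul, smul_eq_mul]
      have : ν g = exp (-n) := by rw [hn, neg_neg, exp_log hνg]
      rw [this, ← exp_add]
      simp
    have h2 := key _ (mul_ne_zero hg (zpow_ne_zero _ hπ0)) h1
    rw [v.ord_mul hg (zpow_ne_zero _ hπ0), v.ord_zpow] at h2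
    linarith
  obtain ⟨t, ht⟩ := IsDiscreteValuationRing.exists_irreducible v.toValuationSubring
  have ht1 : v.ord (t : F) = 1 := v.ord_coe_irreducible ht
  have ht0 : (t : F) ≠ 0 := by
    intro h0; rw [h0, v.ord_zero] at ht1; exact absurd ht1 (by norm_num)
  have hB := stepA (t : F) ht0
  rw [ht1] at hB
  have hπ1 : v.ord π = 1 := by
    have hpos : 0 ≤ v.ord π := by
      apply ord_nonneg_of_mem
      rw [hmem, hπ, ← exp_zero, exp_le_exp]
      norm_num
    rcases Int.eq_one_or_neg_one_of_mul_eq_one' hB.symm with ⟨_, h⟩ | ⟨_, h⟩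
    · exact h
    · omega
  rw [stepA f hf, hπ1, mul_one]

end PlaceAux

end Fermat.Agent.FF
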