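import Mathlib
import Fermat.Agent.FF.PlaceBasic

set_option autoImplicit false

open AlgebraicCurve IsDedekindDomain WithZero

namespace Fermat.Agent.FF

variable {k F : Type*} [Field k] [Field F] [Algebra k F]
variable {R : Type*} [CommRing R] [IsDedekindDomain R] [Algebra R F] [IsFractionRing R F]
  [Algebra k R] [IsScalarTower k R F]

/-- The place attached to a nonzero prime of a Dedekind domain with fraction field `F`. -/
noncomputable abbrev placeOf (w : HeightOneSpectrum R) : Place k F :=
  Place.ofHeightOneSpectrum (K := k) w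

theorem ord_placeOf (w : HeightOneSpectrum R) {f : F} (hf : f ≠ 0) :
    (placeOf (k := k) w).ord f = -log (w.valuation F f) := by
  obtain ⟨π, hπ⟩ := w.valuation_exists_uniformizer F
  exact PlaceAux.ord_eq_of_valuation _ (w.valuation F) rfl hπ hf

theorem mem_placeOf_iff (w : HeightOneSpectrum R) (f : F) :
    f ∈ (placeOf (k := k) w).toValuationSubring ↔ w.valuation F f ≤ 1 :=
  Valuation.mem_valuationSubring_iff _ _

theorem algebraMap_mem_placeOf (w : HeightOneSpectrum R) (r : R) :
    algebraMap R F r ∈ (placeOf (k := k) w).toValuationSubring :=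
  (mem_placeOf_iff w _).mpr (w.valuation_le_one r)

theorem ord_placeOf_algebraMap_pos_iff (w : HeightOneSpectrum R) (r : R) (hr : r ≠ 0) :
    0 < (placeOf (k := k) w).ord (algebraMap R F r) ↔ r ∈ w.asIdeal := by
  have hr' : algebraMap R F r ≠ 0 := by
    simpa using (IsFractionRing.injective R F).ne hr
  rw [ord_placeOf w hr', ← w.valuation_lt_one_iff_mem (K := F)]
  have hne : w.valuation F (algebraMap R F r) ≠ 0 := (Valuation.ne_zero_iff _).mpr hr'
  rw [neg_pos, ← log_one (M := ℤ), log_lt_log hne one_ne_zero]

theorem placeOf_injective : Function.Injective (placeOf (k := k) (F := F) (R := R)) := by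
  intro w w' h
  apply HeightOneSpectrum.ext
  ext r
  rcases eq_or_ne r 0 with rfl | hr
  · simp
  rw [← ord_placeOf_algebraMap_pos_iff (k := k) (F := F) w r hr,
    ← ord_placeOf_algebraMap_pos_iff (k := k) (F := F) w' r hr, h]

omit [Algebra k F] in
theorem inv_mem_of_isUnit (A : ValuationSubring F) {y : A} (hy : IsUnit y) : (y : F)⁻¹ ∈ A := by
  obtain ⟨u, rfl⟩ := hy
  have h2 : ((u : A) * ((u⁻¹ : Aˣ) : A)).1 = 1 := by
    rw [Units.mul_inv]; rfl
  rw [MulMemClass.coe_mul] at h2
  have : ((u : A) : F)⁻¹ = ((u⁻¹ : Aˣ) : A).1 := by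
    have hne : ((u : A) : F) ≠ 0 := by
      intro h0; rw [h0, zero_mul] at h2; exact zero_ne_one h2
    field_simp
    rw [h2.symm, mul_comm]
  rw [this]
  exact Subtype.coe_prop _

/-- A place whose valuation ring contains `R` comes from a nonzero prime of `R`. -/
theorem exists_placeOf_eq (v : Place k F)
    (hv : ∀ r : R, algebraMap R F r ∈ v.toValuationSubring) :
    ∃ w : HeightOneSpectrum R, placeOf (k := k) w = v := by
  -- the ring hom `R → O_v`
  let φ : R →+* v.toValuationSubring :=
    (algebraMap R F).codRestrict v.toValuationSubring.toSubring hv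
  let P : Ideal R := (IsLocalRing.maximalIdeal v.toValuationSubring).comap φ
  have hPprime : P.IsPrime := Ideal.comap_isPrime φ _
  have hPne : P ≠ ⊥ := by
    intro hbot
    apply v.ne_top'
    -- every nonzero `r` is a unit in `O_v`, so `F ⊆ O_v`
    have hunit : ∀ r : R, r ≠ 0 → IsUnit (φ r) := by
      intro r hr
      by_contra hnu
      have : r ∈ P := by
        show φ r ∈ IsLocalRing.maximalIdeal _
        exact (IsLocalRing.mem_maximalIdeal _).mpr hnu
      rw [hbot] at this
      exact hr this
    refine SetLike.ext fun f => ⟨fun _ => ValuationSubring.mem_top f, fun _ => ?_⟩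
    obtain ⟨a, s, hs, rfl⟩ := IsFractionRing.div_surjective (A := R) f
    have hs0 : s ≠ 0 := nonZeroDivisors.ne_zero hs
    have h1 := inv_mem_of_isUnit v.toValuationSubring (hunit s hs0)
    rw [div_eq_mul_inv]
    exact v.toValuationSubring.mul_mem _ _ (hv a) h1
  let w : HeightOneSpectrum R := ⟨P, hPprime, hPne⟩
  refine ⟨w, ?_⟩
  apply Place.ext
  show (w.valuation F).valuationSubring = v.toValuationSubring
  rw [← HeightOneSpectrum.valuationSubringAtPrime_eq_valuationSubring]
  apply ValuationSubring.eq_of_le_of_ne_top _ _ v.ne_top'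
  intro f hf
  -- `f = a / s` with `s ∉ P`
  have hf' : w.valuation F f ≤ 1 := by
    have := HeightOneSpectrum.valuationSubringAtPrime_le_valuation (K := F) w hf
    exact (Valuation.mem_valuationSubring_iff _ _).mp this
  obtain ⟨n, d, hnd⟩ := w.exists_primeCompl_mul_eq_of_integer f hf'
  have hd : IsUnit (φ d) := by
    by_contra hnu
    exact d.2 ((IsLocalRing.mem_maximalIdeal _).mpr hnu)
  have hd0 : algebraMap R F d ≠ 0 := by
    intro h0
    have : φ d = 0 := Subtype.ext h0
    rw [this] at hd
    exact not_isUnit_zero hd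
  have h1 := inv_mem_of_isUnit v.toValuationSubring hd
  have : f = algebraMap R F n * (algebraMap R F d)⁻¹ := by
    field_simp; exact hnd
  rw [this]
  exact v.toValuationSubring.mul_mem _ _ (hv n) h1


/-- The `k`-algebra map `R → O_v`. -/
noncomputable def toPlaceRing (w : HeightOneSpectrum R) :
    R →ₐ[k] (placeOf (k := k) (F := F) w).toValuationSubring where
  toFun r := ⟨algebraMap R F r, algebraMap_mem_placeOf w r⟩
  map_one' := Subtype.ext (map_one _)
  map_mul' a b := Subtype.ext (map_mul _ a b)
  map_zero' := Subtype.ext (map_zero _)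
  map_add' a b := Subtype.ext (map_add _ a b)
  commutes' c := Subtype.ext (by
    show algebraMap R F (algebraMap k R c) = algebraMap k F c
    rw [← IsScalarTower.algebraMap_apply])

@[simp] theorem coe_toPlaceRing (w : HeightOneSpectrum R) (r : R) :
    ((toPlaceRing (k := k) (F := F) w r : (placeOf (k := k) (F := F) w).toValuationSubring) : F)
      = algebraMap R F r := rfl

/-- The `k`-algebra map `R → κ(v)`. -/
noncomputable def toResidue (w : HeightOneSpectrum R) :
    R →ₐ[k] (placeOf (k := k) (F := F) w).ResidueField :=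
  (IsScalarTower.toAlgHom k (placeOf (k := k) (F := F) w).toValuationSubring
    (placeOf (k := k) (F := F) w).ResidueField).comp (toPlaceRing w)

theorem toResidue_apply (w : HeightOneSpectrum R) (r : R) :
    toResidue (k := k) (F := F) w r
      = IsLocalRing.residue _ (toPlaceRing (k := k) (F := F) w r) := rfl

theorem isUnit_toPlaceRing_iff (w : HeightOneSpectrum R) (r : R) :
    IsUnit (toPlaceRing (k := k) (F := F) w r) ↔ r ∉ w.asIdeal := by
  rw [← w.valuation_lt_one_iff_mem (K := F), not_lt]
  constructor
  · intro hu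
    have h1 := inv_mem_of_isUnit _ hu
    rw [coe_toPlaceRing, mem_placeOf_iff, map_inv₀] at h1
    by_contra hlt
    rw [not_le] at hlt
    have hne : w.valuation F (algebraMap R F r) ≠ 0 := by
      intro h0
      rw [h0, inv_zero] at h1
      have hr0 : algebraMap R F r = 0 := (Valuation.zero_iff _).mp h0
      have : toPlaceRing (k := k) (F := F) w r = 0 := Subtype.ext hr0
      rw [this] at hu
      exact not_isUnit_zero hu
    have : 1 < (w.valuation F (algebraMap R F r))⁻¹ :=
      (one_lt_inv₀ (zero_lt_iff.mpr hne)).mpr hlt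
    exact absurd h1 (not_le.mpr this)
  · intro hle
    have h1 : w.valuation F (algebraMap R F r) = 1 := le_antisymm (w.valuation_le_one r) hle
    have hr0 : algebraMap R F r ≠ 0 := by
      intro h0; rw [h0, map_zero] at h1; exact zero_ne_one h1
    have hinv : (algebraMap R F r)⁻¹ ∈ (placeOf (k := k) w).toValuationSubring := by
      rw [mem_placeOf_iff, map_inv₀, h1, inv_one]
    refine ⟨⟨toPlaceRing w r, ⟨_, hinv⟩, ?_, ?_⟩, rfl⟩
    · apply Subtype.ext; show algebraMap R F r * (algebraMap R F r)⁻¹ = 1; field_simp
    · apply Subtype.ext; show (algebraMap R F r)⁻¹ * algebraMap R F r = 1; field_simp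

theorem toResidue_eq_zero_iff (w : HeightOneSpectrum R) (r : R) :
    toResidue (k := k) (F := F) w r = 0 ↔ r ∈ w.asIdeal := by
  rw [toResidue_apply, IsLocalRing.residue_eq_zero_iff, IsLocalRing.mem_maximalIdeal,
    mem_nonunits_iff, isUnit_toPlaceRing_iff, not_not]

theorem ker_toResidue (w : HeightOneSpectrum R) :
    RingHom.ker (toResidue (k := k) (F := F) w) = w.asIdeal := by
  ext r; rw [RingHom.mem_ker, toResidue_eq_zero_iff]

theorem toResidue_surjective (w : HeightOneSpectrum R) :
    Function.Surjective (toResidue (k := k) (F := F) w) := by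
  intro y
  obtain ⟨⟨f, hf⟩, rfl⟩ := IsLocalRing.residue_surjective y
  have hf' : w.valuation F f ≤ 1 := (mem_placeOf_iff w f).mp hf
  obtain ⟨n, d, hnd⟩ := w.exists_primeCompl_mul_eq_of_integer f hf'
  -- `d` is invertible modulo `w`
  have hd : (d : R) ∉ w.asIdeal := d.2
  have : w.asIdeal.IsMaximal := w.isMaximal
  obtain ⟨s, hs⟩ := Ideal.Quotient.exists_inv (I := w.asIdeal)
    (a := Ideal.Quotient.mk _ (d : R)) (by
      rw [Ne, Ideal.Quotient.eq_zero_iff_mem]; exact hd)
  obtain ⟨s, rfl⟩ := Ideal.Quotient.mk_surjective s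
  refine ⟨n * s, ?_⟩
  have h1 : toResidue (k := k) (F := F) w ((d : R) * s) = 1 := by
    have : (d : R) * s - 1 ∈ w.asIdeal := by
      rw [← Ideal.Quotient.eq_zero_iff_mem, map_sub, map_mul, hs, map_one, sub_self]
    rw [← toResidue_eq_zero_iff (k := k) (F := F), map_sub, map_one, sub_eq_zero] at this
    exact this
  have h2 : IsLocalRing.residue _ (⟨f, hf⟩ : (placeOf (k := k) w).toValuationSubring)
      * toResidue (k := k) (F := F) w d = toResidue (k := k) (F := F) w n := by
    rw [toResidue_apply, toResidue_apply, ← map_mul]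
    congr 1
    apply Subtype.ext
    exact hnd
  calc toResidue (k := k) (F := F) w (n * s)
      = toResidue (k := k) (F := F) w n * toResidue (k := k) (F := F) w s := map_mul _ _ _
    _ = IsLocalRing.residue _ (⟨f, hf⟩ : (placeOf (k := k) w).toValuationSubring)
        * (toResidue (k := k) (F := F) w d * toResidue (k := k) (F := F) w s) := by
          rw [← h2, mul_assoc]
    _ = _ := by rw [← map_mul, h1, mul_one]

/-- The residue field of `placeOf w` is `R ⧸ w`. -/
noncomputable def residueEquiv (w : HeightOneSpectrum R) :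
    (R ⧸ w.asIdeal) ≃ₐ[k] (placeOf (k := k) (F := F) w).ResidueField :=
  (Ideal.quotientEquivAlgOfEq k (ker_toResidue (k := k) (F := F) w).symm).trans
    (Ideal.quotientKerAlgEquivOfSurjective (toResidue_surjective (k := k) (F := F) w))

theorem deg_placeOf (w : HeightOneSpectrum R) :
    (placeOf (k := k) (F := F) w).deg = Module.finrank k (R ⧸ w.asIdeal) :=
  ((residueEquiv (k := k) (F := F) w).toLinearEquiv.finrank_eq).symm

end Fermat.Agent.FF
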