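import Mathlib
import Fermat.Agent.FF.Dedekind

set_option autoImplicit false
set_option linter.deprecated false
set_option linter.unusedSectionVars false

open Polynomial AlgebraicCurve IsDedekindDomain WithZero

namespace Fermat.Agent.FF

theorem mem_of_isIntegral_of_forall_mem {F : Type*} [Field F] {A : Type*} [CommRing A]
    [Algebra A F] (O : ValuationSubring F) (hA : ∀ a : A, algebraMap A F a ∈ O) {y : F}
    (hy : IsIntegral A y) : y ∈ O := by
  let φ : A →+* O := (algebraMap A F).codRestrict O.toSubring hA
  let _ : Algebra A O := φ.toAlgebra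
  have : IsScalarTower A O F := IsScalarTower.of_algebraMap_eq (fun _ => rfl)
  have h1 : IsIntegral O y := hy.tower_top
  obtain ⟨z, hz⟩ := IsIntegrallyClosed.isIntegral_iff.mp h1
  rw [← hz]
  exact z.2

section Zeros

variable (k F : Type*) [Field k] [Field F] [Algebra k F] [Algebra k[X] F] [Algebra (RatFunc k) F]
  [IsScalarTower k[X] (RatFunc k) F] [IsScalarTower k k[X] F] [FunctionField k F]
  [Algebra.IsSeparable (RatFunc k) F]

local notation "𝓞" => FunctionField.ringOfIntegers k F

/-- The prime `(X)` of `k[X]`. -/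
noncomputable abbrev pX : Ideal k[X] := (Polynomial.idealX k).asIdeal

/-- The coordinate function `x ∈ F`. -/
noncomputable def coord : F := algebraMap k[X] F X

theorem coord_eq_algebraMap_ratFunc : coord k F = algebraMap (RatFunc k) F RatFunc.X := by
  rw [coord, IsScalarTower.algebraMap_apply k[X] (RatFunc k) F, RatFunc.algebraMap_X]

theorem coord_eq_algebraMap_ringOfIntegers :
    coord k F = algebraMap 𝓞 F (algebraMap k[X] 𝓞 X) := by
  rw [coord, ← IsScalarTower.algebraMap_apply]

instance instTorsionFreeRingOfIntegers : Module.IsTorsionFree k[X] 𝓞 := by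
  have hinj : Function.Injective (algebraMap k[X] 𝓞) :=
    FunctionField.ringOfIntegers.algebraMap_injective k F
  exact Module.isTorsionFree_iff_algebraMap_injective.mpr hinj

theorem coord_ne_zero : coord k F ≠ 0 := by
  rw [coord]
  intro h
  have := FunctionField.algebraMap_injective k F (h.trans (map_zero _).symm)
  exact X_ne_zero this

variable {k F}

theorem ord_coord_placeOf (w : HeightOneSpectrum 𝓞) [w.asIdeal.LiesOver (pX k)] :
    (placeOf (k := k) (F := F) w).ord (coord k F) = ((pX k).ramificationIdx' w.asIdeal : ℤ) := by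
  rw [ord_placeOf w (coord_ne_zero k F), coord_eq_algebraMap_ratFunc,
    ← HeightOneSpectrum.valuation_liesOver F (Polynomial.idealX k) w RatFunc.X,
    Polynomial.valuation_X_eq_neg_one, ← exp_nsmul, log_exp]
  simp

theorem finrank_quotient_idealX : Module.finrank k (k[X] ⧸ (pX k)) = 1 := by
  show Module.finrank k (k[X] ⧸ Ideal.span {(X : k[X])}) = 1
  rw [finrank_quotient_span_eq_natDegree, natDegree_X]

instance : (pX k).IsMaximal := (Polynomial.idealX k).isMaximal

theorem deg_placeOf_eq_inertiaDeg (w : HeightOneSpectrum 𝓞) [w.asIdeal.LiesOver (pX k)] :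
    (placeOf (k := k) (F := F) w).deg = (pX k).inertiaDeg' w.asIdeal := by
  rw [deg_placeOf, Ideal.inertiaDeg'_algebraMap]
  let _ : Field (k[X] ⧸ (pX k)) := Ideal.Quotient.field _
  rw [← Module.finrank_mul_finrank k (k[X] ⧸ (pX k)) (𝓞 ⧸ w.asIdeal), finrank_quotient_idealX, one_mul]


theorem pX_ne_bot : pX k ≠ ⊥ := (Polynomial.idealX k).ne_bot

theorem mem_primesOverFinset_pX {P : Ideal 𝓞} :
    P ∈ IsDedekindDomain.primesOverFinset (pX k) 𝓞 ↔ P.IsPrime ∧ P.LiesOver (pX k) :=
  (IsDedekindDomain.mem_primesOverFinset_iff (pX_ne_bot (k := k)) 𝓞)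

variable (k F) in
/-- The height-one prime attached to a member of `primesOverFinset (X)`. -/
noncomputable def zeroPrime (P : {P // P ∈ IsDedekindDomain.primesOverFinset (pX k) 𝓞}) : HeightOneSpectrum 𝓞 :=
  ⟨P.1, (mem_primesOverFinset_pX.mp P.2).1,
    haveI := (mem_primesOverFinset_pX.mp P.2).2
    Ideal.ne_bot_of_liesOver_of_ne_bot (pX_ne_bot (k := k)) P.1⟩

instance (P : {P // P ∈ IsDedekindDomain.primesOverFinset (pX k) 𝓞}) :
    (zeroPrime k F P).asIdeal.LiesOver (pX k) := (mem_primesOverFinset_pX.mp P.2).2

theorem zeroPrime_injective : Function.Injective (zeroPrime k F) := by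
  intro P Q h
  apply Subtype.ext
  exact congrArg HeightOneSpectrum.asIdeal h

variable (k F) in
/-- The finite set of zeros of the coordinate function. -/
noncomputable def zerosOfCoord : Finset (Place k F) :=
  (IsDedekindDomain.primesOverFinset (pX k) 𝓞).attach.map
    ⟨fun P => placeOf (k := k) (F := F) (zeroPrime k F P),
      placeOf_injective.comp zeroPrime_injective⟩

theorem sum_zerosOfCoord :
    ∑ v ∈ zerosOfCoord k F, v.ord (coord k F) * (v.deg : ℤ)
      = Module.finrank (RatFunc k) F := by
  rw [zerosOfCoord, Finset.sum_map]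
  simp only [Function.Embedding.coeFn_mk]
  have h := Ideal.sum_ramification_inertia 𝓞 (RatFunc k) F (pX_ne_bot (k := k))
  rw [← Finset.sum_attach] at h
  rw [← h]
  push_cast
  refine Finset.sum_congr rfl fun P _ => ?_
  rw [ord_coord_placeOf, deg_placeOf_eq_inertiaDeg]
  rfl


/-- If the coordinate lies in the valuation ring of `v`, so does all of `k[X]`. -/
theorem algebraMap_poly_mem (v : Place k F) (hx : coord k F ∈ v.toValuationSubring) (p : k[X]) :
    algebraMap k[X] F p ∈ v.toValuationSubring := by
  induction p using Polynomial.induction_on with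
  | C a =>
    have : algebraMap k[X] F (C a) = algebraMap k F a := by
      rw [IsScalarTower.algebraMap_apply k k[X] F, Polynomial.algebraMap_apply]
      simp
    rw [this]
    exact v.algebraMap_mem' a
  | add p q hp hq => rw [map_add]; exact v.toValuationSubring.add_mem _ _ hp hq
  | monomial n a h =>
    rw [pow_succ, ← mul_assoc, map_mul]
    exact v.toValuationSubring.mul_mem _ _ h hx

theorem ringOfIntegers_mem (v : Place k F) (hx : coord k F ∈ v.toValuationSubring) (r : 𝓞) :
    algebraMap 𝓞 F r ∈ v.toValuationSubring :=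
  mem_of_isIntegral_of_forall_mem v.toValuationSubring (algebraMap_poly_mem v hx) r.2

theorem mem_zerosOfCoord_iff (v : Place k F) :
    v ∈ zerosOfCoord k F ↔ 0 < v.ord (coord k F) := by
  constructor
  · intro hv
    rw [zerosOfCoord, Finset.mem_map] at hv
    obtain ⟨P, _, rfl⟩ := hv
    simp only [Function.Embedding.coeFn_mk]
    rw [ord_coord_placeOf]
    have := Ideal.IsDedekindDomain.ramificationIdx'_ne_zero_of_liesOver
      (zeroPrime k F P).asIdeal (pX_ne_bot (k := k))
    exact_mod_cast Nat.pos_of_ne_zero this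
  · intro hv
    have hx : coord k F ∈ v.toValuationSubring :=
      (PlaceAux.mem_iff_ord_nonneg' v (coord_ne_zero k F)).mpr hv.le
    obtain ⟨w, rfl⟩ := exists_placeOf_eq v (ringOfIntegers_mem v hx)
    have hX0 : algebraMap k[X] 𝓞 X ≠ 0 := by
      intro h0
      exact X_ne_zero (FunctionField.ringOfIntegers.algebraMap_injective k F
        (h0.trans (map_zero _).symm))
    rw [coord_eq_algebraMap_ringOfIntegers, ord_placeOf_algebraMap_pos_iff w _ hX0] at hv
    -- `w` lies over `(X)`
    have hle : pX k ≤ w.asIdeal.comap (algebraMap k[X] 𝓞) := by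
      show Ideal.span {(X : k[X])} ≤ _
      rw [Ideal.span_le, Set.singleton_subset_iff]
      exact hv
    have hlies : w.asIdeal.LiesOver (pX k) := by
      constructor
      have hne : w.asIdeal.comap (algebraMap k[X] 𝓞) ≠ ⊤ :=
        (Ideal.comap_isPrime _ _).ne_top
      exact (Ideal.IsMaximal.eq_of_le inferInstance hne hle)
    have hmem : w.asIdeal ∈ IsDedekindDomain.primesOverFinset (pX k) 𝓞 :=
      mem_primesOverFinset_pX.mpr ⟨w.isPrime, hlies⟩
    rw [zerosOfCoord, Finset.mem_map]
    refine ⟨⟨w.asIdeal, hmem⟩, Finset.mem_attach _ _, ?_⟩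
    simp only [Function.Embedding.coeFn_mk]
    congr 1

end Zeros

end Fermat.Agent.FF
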