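import Mathlib
import Fermat.Agent.FF.Zeros

set_option autoImplicit false
set_option linter.unusedSectionVars false
set_option linter.style.haveILetI false

open Polynomial AlgebraicCurve IsDedekindDomain WithZero IntermediateField

namespace Fermat.Agent.FF

variable (k F : Type*) [Field k] [Field F] [Algebra k F]

/-- A coordinate on the function field `F/k`: a transcendental element over whose rational
function field `F` is finite. -/
structure Coord where
  x : F
  trans : Transcendental k x
  fin : FiniteDimensional k⟮x⟯ F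

namespace Coord

variable {k F} (c : Coord k F)

/-- `k[X]`-algebra structure on `F` given by the coordinate. -/
@[reducible] noncomputable def algPoly : Algebra k[X] F := (aeval c.x).toRingHom.toAlgebra

/-- The embedding `k(X) → F`. -/
noncomputable def ratEmb : RatFunc k →ₐ[k] F :=
  (IntermediateField.val k⟮c.x⟯).comp (RatFunc.algEquivOfTranscendental c.x c.trans).toAlgHom

/-- `k(X)`-algebra structure on `F` given by the coordinate. -/
@[reducible] noncomputable def algRat : Algebra (RatFunc k) F := c.ratEmb.toRingHom.toAlgebra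

theorem ratEmb_algebraMap (p : k[X]) : c.ratEmb (algebraMap k[X] (RatFunc k) p) = aeval c.x p := by
  simp [ratEmb, RatFunc.algEquivOfTranscendental_algebraMap]

theorem tower1 : @IsScalarTower k[X] (RatFunc k) F _ c.algRat.toSMul c.algPoly.toSMul := by
  letI := c.algPoly
  letI := c.algRat
  exact IsScalarTower.of_algebraMap_eq (fun p => (c.ratEmb_algebraMap p).symm)

theorem tower2 : @IsScalarTower k k[X] F _ c.algPoly.toSMul _ := by
  letI := c.algPoly
  exact IsScalarTower.of_algebraMap_eq (fun a => by
    show algebraMap k F a = aeval c.x (algebraMap k k[X] a)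
    rw [Polynomial.algebraMap_apply, aeval_C]; simp)

theorem tower3 : @IsScalarTower k (RatFunc k) F _ c.algRat.toSMul _ := by
  letI := c.algRat
  exact IsScalarTower.of_algebraMap_eq (fun a => (c.ratEmb.commutes a).symm)


theorem ratEmb_apply_mem (f : RatFunc k) : c.ratEmb f ∈ k⟮c.x⟯ := by
  simp [ratEmb]

/-- The ring isomorphism `k(X) ≃ k⟮x⟯`. -/
noncomputable def ratEquiv : RatFunc k ≃+* k⟮c.x⟯ :=
  (RatFunc.algEquivOfTranscendental c.x c.trans).toRingEquiv

theorem functionField : @FunctionField k F _ _ c.algRat := by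
  letI := c.algRat
  haveI := c.fin
  exact Module.Finite.of_equiv_equiv c.ratEquiv.symm (RingEquiv.refl F) (by
    ext f
    simp only [RingHom.coe_comp, Function.comp_apply, RingEquiv.coe_toRingHom, RingEquiv.refl_apply]
    show c.ratEmb (c.ratEquiv.symm f) = (f : F)
    simp [ratEmb, ratEquiv])

theorem finrank_eq : @Module.finrank (RatFunc k) F _ _ c.algRat.toModule
    = Module.finrank k⟮c.x⟯ F := by
  letI := c.algRat
  exact Algebra.finrank_eq_of_equiv_equiv c.ratEquiv (RingEquiv.refl F) (by
    ext f
    simp only [RingHom.coe_comp, Function.comp_apply, RingEquiv.coe_toRingHom, RingEquiv.refl_apply]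
    show c.ratEmb f = ((c.ratEquiv f : k⟮c.x⟯) : F)
    simp [ratEmb, ratEquiv])


theorem coord_eq : @coord k F _ _ c.algPoly = c.x := by
  letI := c.algPoly
  show aeval c.x (X : k[X]) = c.x
  simp

/-- **Zeros of a coordinate**: the places where `x` vanishes form a finite set and the orders
of vanishing weighted by degrees add up to `[F : k(x)]`. -/
theorem exists_zeros [CharZero k] :
    ∃ S : Finset (Place k F), (∀ v, v ∈ S ↔ 0 < v.ord c.x) ∧
      ∑ v ∈ S, v.ord c.x * (v.deg : ℤ) = Module.finrank k⟮c.x⟯ F := by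
  letI := c.algPoly
  letI := c.algRat
  haveI := c.tower1
  haveI := c.tower2
  haveI := c.tower3
  haveI : FunctionField k F := c.functionField
  haveI : CharZero (RatFunc k) := charZero_of_injective_algebraMap (algebraMap k (RatFunc k)).injective
  haveI : Algebra.IsSeparable (RatFunc k) F := inferInstance
  refine ⟨zerosOfCoord k F, fun v => ?_, ?_⟩
  · rw [mem_zerosOfCoord_iff, c.coord_eq]
  · rw [← c.finrank_eq, ← sum_zerosOfCoord, c.coord_eq]


omit c in
theorem finite_of_adjoin_eq {y z : F} (h : k⟮y⟯ = k⟮z⟯) (hy : FiniteDimensional k⟮y⟯ F) :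
    FiniteDimensional k⟮z⟯ F := h ▸ hy

omit c in
theorem finrank_of_adjoin_eq {y z : F} (h : k⟮y⟯ = k⟮z⟯) :
    Module.finrank k⟮y⟯ F = Module.finrank k⟮z⟯ F := by rw [h]

omit c in
theorem adjoin_sub_algebraMap (y : F) (a : k) : k⟮y - algebraMap k F a⟯ = k⟮y⟯ := by
  apply le_antisymm
  · rw [adjoin_simple_le_iff]
    exact sub_mem (mem_adjoin_simple_self k y) (IntermediateField.algebraMap_mem _ a)
  · rw [adjoin_simple_le_iff]
    have h := add_mem (mem_adjoin_simple_self k (y - algebraMap k F a))
      (IntermediateField.algebraMap_mem k⟮y - algebraMap k F a⟯ a)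
    rwa [sub_add_cancel] at h

omit c in
theorem adjoin_inv (y : F) : k⟮y⁻¹⟯ = k⟮y⟯ := by
  apply le_antisymm
  · rw [adjoin_simple_le_iff]
    exact inv_mem (mem_adjoin_simple_self k y)
  · rw [adjoin_simple_le_iff]
    have h := inv_mem (mem_adjoin_simple_self k y⁻¹)
    rwa [inv_inv] at h

/-- The coordinate `x - a`. -/
noncomputable def shift (a : k) : Coord k F where
  x := c.x - algebraMap k F a
  trans := by
    intro halg
    apply c.trans
    have : c.x = (c.x - algebraMap k F a) + algebraMap k F a := by ring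
    rw [this]
    exact halg.add (isAlgebraic_algebraMap a)
  fin := finite_of_adjoin_eq (adjoin_sub_algebraMap c.x a).symm c.fin

@[simp] theorem shift_x (a : k) : (c.shift a).x = c.x - algebraMap k F a := rfl

theorem finrank_shift (a : k) :
    Module.finrank k⟮(c.shift a).x⟯ F = Module.finrank k⟮c.x⟯ F :=
  finrank_of_adjoin_eq (adjoin_sub_algebraMap c.x a)

/-- The coordinate `1 / x`. -/
noncomputable def inv : Coord k F where
  x := c.x⁻¹
  trans := by
    intro halg
    apply c.trans
    have : c.x = (c.x⁻¹)⁻¹ := (inv_inv _).symm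
    rw [this]
    exact halg.inv
  fin := finite_of_adjoin_eq (adjoin_inv c.x).symm c.fin

@[simp] theorem inv_x : c.inv.x = c.x⁻¹ := rfl

theorem finrank_inv : Module.finrank k⟮c.inv.x⟯ F = Module.finrank k⟮c.x⟯ F :=
  finrank_of_adjoin_eq (adjoin_inv c.x)

/-- The degree `[F : k(x)]` of a coordinate. -/
noncomputable def degree : ℕ := Module.finrank k⟮c.x⟯ F

theorem degree_pos : 0 < c.degree := by
  haveI := c.fin
  exact Module.finrank_pos

@[simp] theorem degree_shift (a : k) : (c.shift a).degree = c.degree := c.finrank_shift a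
@[simp] theorem degree_inv : c.inv.degree = c.degree := c.finrank_inv

/-- Zeros of `x - a`. -/
theorem exists_zeros_sub [CharZero k] (a : k) :
    ∃ S : Finset (Place k F), (∀ v, v ∈ S ↔ 0 < v.ord (c.x - algebraMap k F a)) ∧
      ∑ v ∈ S, v.ord (c.x - algebraMap k F a) * (v.deg : ℤ) = c.degree := by
  obtain ⟨S, h1, h2⟩ := (c.shift a).exists_zeros
  refine ⟨S, h1, ?_⟩
  rw [shift_x] at h2
  rw [h2]
  exact congrArg _ (c.finrank_shift a)

/-- Poles of `x`. -/
theorem exists_poles [CharZero k] :
    ∃ S : Finset (Place k F), (∀ v, v ∈ S ↔ v.ord c.x < 0) ∧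
      ∑ v ∈ S, (-v.ord c.x) * (v.deg : ℤ) = c.degree := by
  obtain ⟨S, h1, h2⟩ := c.inv.exists_zeros
  refine ⟨S, fun v => ?_, ?_⟩
  · rw [h1, inv_x, v.ord_inv]; omega
  · have h3 : (c.degree : ℤ) = (Module.finrank k⟮c.inv.x⟯ F : ℤ) := congrArg _ c.finrank_inv.symm
    rw [h3, ← h2]
    refine Finset.sum_congr rfl fun v _ => ?_
    rw [inv_x, v.ord_inv]

end Coord

end Fermat.Agent.FF
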