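import Mathlib
import Fermat.Agent.FF.Coord

set_option autoImplicit false
set_option linter.unusedSectionVars false
set_option linter.style.haveILetI false

open Polynomial AlgebraicCurve IsDedekindDomain WithZero IntermediateField KaehlerDifferential
open scoped TensorProduct

namespace Fermat.Agent.FF

section Kaehler

variable (k F : Type*) [Field k] [Field F] [Algebra k F] [Algebra k[X] F] [Algebra (RatFunc k) F]
  [IsScalarTower k[X] (RatFunc k) F] [IsScalarTower k k[X] F] [FunctionField k F]
  [Algebra.IsSeparable (RatFunc k) F]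

theorem formallyEtale_poly : Algebra.FormallyEtale k[X] F := by
  haveI : Algebra.FormallyEtale k[X] (RatFunc k) :=
    Algebra.FormallyEtale.of_isLocalization (nonZeroDivisors k[X])
  haveI : Algebra.FormallyEtale (RatFunc k) F := Algebra.FormallyEtale.of_isSeparable _ _
  exact Algebra.FormallyEtale.comp k[X] (RatFunc k) F

/-- `Ω[F/k] ≃ F`, sending `dx` to `1`. -/
noncomputable def kaehlerEquiv : Ω[F⁄k] ≃ₗ[F] F :=
  haveI := formallyEtale_poly k F
  (tensorKaehlerEquivOfFormallyEtale k k[X] F).symm ≪≫ₗ
    (LinearEquiv.baseChange k[X] F _ _ (polynomialEquiv k)) ≪≫ₗ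
    (TensorProduct.AlgebraTensorModule.rid k[X] F F)

theorem kaehlerEquiv_D_coord : kaehlerEquiv k F (D k F (coord k F)) = 1 := by
  haveI := formallyEtale_poly k F
  simp only [kaehlerEquiv, LinearEquiv.trans_apply, coord]
  rw [tensorKaehlerEquivOfFormallyEtale_symm_D_algebraMap]
  simp


theorem D_coord_ne_zero : D k F (coord k F) ≠ 0 := by
  intro h
  have := kaehlerEquiv_D_coord k F
  rw [h, map_zero] at this
  exact zero_ne_one this

theorem eq_smul_D_coord (ω : Ω[F⁄k]) : ω = kaehlerEquiv k F ω • D k F (coord k F) := by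
  apply (kaehlerEquiv k F).injective
  rw [map_smul, kaehlerEquiv_D_coord, smul_eq_mul, mul_one]

theorem span_D_coord : Submodule.span F {D k F (coord k F)} = ⊤ := by
  rw [eq_top_iff]
  intro ω _
  rw [Submodule.mem_span_singleton]
  exact ⟨kaehlerEquiv k F ω, (eq_smul_D_coord k F ω).symm⟩

theorem finrank_kaehler : Module.finrank F Ω[F⁄k] = 1 := by
  rw [(kaehlerEquiv k F).finrank_eq, Module.finrank_self]

end Kaehler

namespace Coord

variable {k F : Type*} [Field k] [Field F] [Algebra k F] [CharZero k] (c : Coord k F)

theorem D_x_ne_zero : D k F c.x ≠ 0 := by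
  letI := c.algPoly
  letI := c.algRat
  haveI := c.tower1
  haveI := c.tower2
  haveI := c.tower3
  haveI : FunctionField k F := c.functionField
  haveI : CharZero (RatFunc k) := charZero_of_injective_algebraMap (algebraMap k (RatFunc k)).injective
  haveI : Algebra.IsSeparable (RatFunc k) F := inferInstance
  have := D_coord_ne_zero k F
  rwa [c.coord_eq] at this

theorem exists_eq_smul_D_x (ω : Ω[F⁄k]) : ∃ g : F, ω = g • D k F c.x := by
  letI := c.algPoly
  letI := c.algRat
  haveI := c.tower1
  haveI := c.tower2
  haveI := c.tower3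
  haveI : FunctionField k F := c.functionField
  haveI : CharZero (RatFunc k) := charZero_of_injective_algebraMap (algebraMap k (RatFunc k)).injective
  haveI : Algebra.IsSeparable (RatFunc k) F := inferInstance
  have := eq_smul_D_coord k F ω
  rw [c.coord_eq] at this
  exact ⟨_, this⟩

theorem span_D_x : Submodule.span F {D k F c.x} = ⊤ := by
  rw [eq_top_iff]
  intro ω _
  rw [Submodule.mem_span_singleton]
  obtain ⟨g, hg⟩ := c.exists_eq_smul_D_x ω
  exact ⟨g, hg.symm⟩

include c in
theorem finrank_kaehler : Module.finrank F Ω[F⁄k] = 1 := by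
  letI := c.algPoly
  letI := c.algRat
  haveI := c.tower1
  haveI := c.tower2
  haveI := c.tower3
  haveI : FunctionField k F := c.functionField
  haveI : CharZero (RatFunc k) := charZero_of_injective_algebraMap (algebraMap k (RatFunc k)).injective
  haveI : Algebra.IsSeparable (RatFunc k) F := inferInstance
  exact Fermat.Agent.FF.finrank_kaehler k F

theorem smul_D_x_injective {g h : F} (e : g • D k F c.x = h • D k F c.x) : g = h := by
  have : (g - h) • D k F c.x = 0 := by rw [sub_smul, e, sub_self]
  rcases smul_eq_zero.mp this with h0 | h0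
  · exact sub_eq_zero.mp h0
  · exact absurd h0 c.D_x_ne_zero

end Coord

end Fermat.Agent.FF
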