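import Mathlib
import Fermat.Agent.FF.Kaehler

set_option autoImplicit false
set_option linter.unusedSectionVars false
set_option linter.style.haveILetI false

open Polynomial AlgebraicCurve IsDedekindDomain WithZero IntermediateField KaehlerDifferential

namespace Fermat.Agent.FF

namespace Coord

variable {k F : Type*} [Field k] [Field F] [Algebra k F] (c : Coord k F)

/-- Any transcendental element is a coordinate. -/
noncomputable def ofTranscendental (f : F) (hf : Transcendental k f) : Coord k F where
  x := f
  trans := hf
  fin := by
    letI := c.algRat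
    haveI := c.tower3
    haveI : FunctionField k F := c.functionField
    exact FunctionField.finiteDimensional_of_adjoin_transcendental hf

@[simp] theorem ofTranscendental_x (f : F) (hf : Transcendental k f) :
    (c.ofTranscendental f hf).x = f := rfl

end Coord

/-- Elements algebraic over `k` have order `0` at every place. -/
theorem ord_eq_zero_of_isAlgebraic {k F : Type*} [Field k] [Field F] [Algebra k F]
    (v : Place k F) {f : F} (hf : IsAlgebraic k f) : v.ord f = 0 := by
  rcases eq_or_ne f 0 with rfl | h0
  · simp
  have h1 : f ∈ v.toValuationSubring :=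
    mem_of_isIntegral_of_forall_mem v.toValuationSubring v.algebraMap_mem' hf.isIntegral
  have h2 : f⁻¹ ∈ v.toValuationSubring :=
    mem_of_isIntegral_of_forall_mem v.toValuationSubring v.algebraMap_mem' hf.inv.isIntegral
  have h3 := PlaceAux.ord_nonneg_of_mem v h1
  have h4 := PlaceAux.ord_nonneg_of_mem v h2
  rw [v.ord_inv] at h4
  omega


theorem degree_eq_sum_of_support_subset {k F : Type*} [Field k] [Field F] [Algebra k F]
    (D : Divisor k F) (S : Finset (Place k F)) (h : D.support ⊆ S) :
    Divisor.degree D = ∑ v ∈ S, D v * (v.deg : ℤ) := by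
  rw [Divisor.degree, Finsupp.liftAddHom_apply]
  exact Finsupp.sum_of_support_subset D h _ (fun v _ => by simp)

namespace Coord

variable {k F : Type*} [Field k] [Field F] [Algebra k F] [CharZero k] (c : Coord k F)

include c in
/-- Every nonzero function has a principal divisor, of degree zero. -/
theorem exists_principal_divisor (f : F) (_hf : f ≠ 0) :
    ∃ D : Divisor k F, (∀ v : Place k F, D v = v.ord f) ∧ Divisor.degree D = 0 := by
  classical
  by_cases halg : IsAlgebraic k f
  · refine ⟨0, fun v => ?_, map_zero _⟩
    rw [ord_eq_zero_of_isAlgebraic v halg]; rfl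
  · have htr : Transcendental k f := halg
    obtain ⟨Z, hZ, hZsum⟩ := (c.ofTranscendental f htr).exists_zeros
    obtain ⟨P, hP, hPsum⟩ := (c.ofTranscendental f htr).exists_poles
    simp only [ofTranscendental_x] at hZ hZsum hP hPsum
    have hdisj : Disjoint Z P := by
      rw [Finset.disjoint_left]
      intro v hvZ hvP
      have h1 := (hZ v).mp hvZ
      have h2 := (hP v).mp hvP
      omega
    let D : Divisor k F := Finsupp.onFinset (Z ∪ P) (fun v => v.ord f) (by
      intro v hv
      rw [Finset.mem_union, hZ, hP]
      omega)
    refine ⟨D, fun v => rfl, ?_⟩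
    rw [degree_eq_sum_of_support_subset D (Z ∪ P) Finsupp.support_onFinset_subset,
      Finset.sum_union hdisj]
    have h1 : ∑ v ∈ Z, D v * (v.deg : ℤ) = (c.ofTranscendental f htr).degree := hZsum
    have h2 : ∑ v ∈ P, D v * (v.deg : ℤ) = -((c.ofTranscendental f htr).degree : ℤ) := by
      rw [← hPsum, ← Finset.sum_neg_distrib]
      refine Finset.sum_congr rfl fun v _ => ?_
      show v.ord f * _ = _
      ring
    rw [h1, h2]; ring

include c in
theorem hasPrincipalDivisors : HasPrincipalDivisors k F :=
  ⟨fun f hf => c.exists_principal_divisor f hf⟩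

end Coord

end Fermat.Agent.FF
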