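import Mathlib
import Fermat.Agent.FF.Principal

set_option autoImplicit false
set_option linter.unusedSectionVars false
set_option linter.style.haveILetI false
set_option linter.deprecated false

open Polynomial AlgebraicCurve IsDedekindDomain WithZero IntermediateField KaehlerDifferential

namespace Fermat.Agent.FF

section Zeros

variable {k F : Type*} [Field k] [Field F] [Algebra k F] [Algebra k[X] F] [Algebra (RatFunc k) F]
  [IsScalarTower k[X] (RatFunc k) F] [IsScalarTower k k[X] F] [FunctionField k F]
  [Algebra.IsSeparable (RatFunc k) F]

theorem deg_pos_of_mem_zerosOfCoord {v : Place k F} (hv : v ∈ zerosOfCoord k F) : 0 < v.deg := by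
  rw [zerosOfCoord, Finset.mem_map] at hv
  obtain ⟨P, _, rfl⟩ := hv
  simp only [Function.Embedding.coeFn_mk]
  rw [deg_placeOf_eq_inertiaDeg]
  exact Ideal.inertiaDeg'_pos _ _

end Zeros

namespace Coord

variable {k F : Type*} [Field k] [Field F] [Algebra k F] [CharZero k] (c : Coord k F)

theorem deg_pos_of_ord_pos {v : Place k F} (h : 0 < v.ord c.x) : 0 < v.deg := by
  letI := c.algPoly
  letI := c.algRat
  haveI := c.tower1
  haveI := c.tower2
  haveI := c.tower3
  haveI : FunctionField k F := c.functionField
  haveI : CharZero (RatFunc k) := charZero_of_injective_algebraMap (algebraMap k (RatFunc k)).injective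
  haveI : Algebra.IsSeparable (RatFunc k) F := inferInstance
  apply deg_pos_of_mem_zerosOfCoord
  rw [mem_zerosOfCoord_iff, c.coord_eq]
  exact h

include c in
theorem deg_pos (v : Place k F) : 0 < v.deg := by
  obtain ⟨t, ht⟩ := IsDiscreteValuationRing.exists_irreducible v.toValuationSubring
  have ht1 : v.ord (t : F) = 1 := v.ord_coe_irreducible ht
  have htr : Transcendental k (t : F) := by
    intro halg
    rw [ord_eq_zero_of_isAlgebraic v halg] at ht1
    exact absurd ht1 (by norm_num)
  exact (c.ofTranscendental t htr).deg_pos_of_ord_pos (by rw [ofTranscendental_x, ht1]; norm_num)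

include c in
theorem finiteResidue (v : Place k F) : Module.Finite k v.ResidueField :=
  Module.finite_of_finrank_pos (c.deg_pos v)

include c in
theorem deg_eq_one [IsAlgClosed k] (v : Place k F) : v.deg = 1 :=
  haveI := c.finiteResidue v
  v.deg_eq_one_of_isAlgClosed_of_finite

include c in
theorem isCurveOver : IsCurveOver k F :=
  { c.hasPrincipalDivisors with
    finiteResidue := c.finiteResidue
    kaehler_free_rank_one := ⟨inferInstance, c.finrank_kaehler⟩ }

end Coord

end Fermat.Agent.FF
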