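import Mathlib
import Fermat.Agent.FF.Residue

set_option autoImplicit false
set_option linter.unusedSectionVars false
set_option linter.style.haveILetI false

open Polynomial AlgebraicCurve IsDedekindDomain WithZero IntermediateField KaehlerDifferential

namespace Fermat.Agent.FF

/-- If the residue field is `k`, every integral element is congruent to a constant. -/
theorem exists_const_sub_ordGE_one {k F : Type*} [Field k] [Field F] [Algebra k F]
    (v : Place k F) (hdeg : v.deg = 1) {g : F} (hg : g ∈ v.toValuationSubring) :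
    ∃ a : k, g - algebraMap k F a = 0 ∨ 1 ≤ v.ord (g - algebraMap k F a) := by
  have htop : (⊥ : Subalgebra k v.ResidueField) = ⊤ :=
    Subalgebra.bot_eq_top_of_finrank_eq_one hdeg
  have hmem : IsLocalRing.residue _ (⟨g, hg⟩ : v.toValuationSubring) ∈
      (⊥ : Subalgebra k v.ResidueField) := by rw [htop]; trivial
  obtain ⟨a, ha⟩ := Algebra.mem_bot.mp hmem
  refine ⟨a, ?_⟩
  set y : v.toValuationSubring := ⟨g, hg⟩ - algebraMap k v.toValuationSubring a with hy
  have hy0 : IsLocalRing.residue _ y = 0 := by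
    rw [hy, map_sub, ← ha]
    simp only [sub_eq_zero]
    rfl
  have hycoe : (y : F) = g - algebraMap k F a := rfl
  by_cases h0 : g - algebraMap k F a = 0
  · exact Or.inl h0
  right
  have hnu : ¬ IsUnit y := by
    rw [IsLocalRing.residue_eq_zero_iff, IsLocalRing.mem_maximalIdeal, mem_nonunits_iff] at hy0
    exact hy0
  have h1 : v.adicValuation (y : F) ≤ 1 := v.adicValuation_le_one_of_mem y.2
  have h2 : v.adicValuation (y : F) ≠ 1 := fun h => hnu ((v.adicValuation_coe_eq_one_iff y).mp h)
  have h3 : v.adicValuation (y : F) < 1 := lt_of_le_of_ne h1 h2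
  rw [hycoe, v.adicValuation_eq_exp_neg_ord h0, ← exp_zero, exp_lt_exp] at h3
  omega

section DerCoord

variable (k F : Type*) [Field k] [Field F] [Algebra k F] [Algebra k[X] F] [Algebra (RatFunc k) F]
  [IsScalarTower k[X] (RatFunc k) F] [IsScalarTower k k[X] F] [FunctionField k F]
  [Algebra.IsSeparable (RatFunc k) F]

local notation "𝓞" => FunctionField.ringOfIntegers k F

/-- The derivation `d/dx` of `F`. -/
noncomputable def derCoord : Derivation k F F := (kaehlerEquiv k F).compDer (D k F)

theorem derCoord_apply (g : F) : derCoord k F g = kaehlerEquiv k F (D k F g) := rfl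

theorem derCoord_coord : derCoord k F (coord k F) = 1 := kaehlerEquiv_D_coord k F

theorem D_eq_derCoord_smul (g : F) : D k F g = derCoord k F g • D k F (coord k F) :=
  eq_smul_D_coord k F (D k F g)

theorem algebraMap_poly_eq_aeval (p : k[X]) : algebraMap k[X] F p = aeval (coord k F) p := by
  have : (IsScalarTower.toAlgHom k k[X] F) = aeval (coord k F) := by
    apply Polynomial.algHom_ext
    simp [coord]
  exact congrArg (fun f : k[X] →ₐ[k] F => f p) this

theorem derCoord_algebraMap_poly (p : k[X]) :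
    derCoord k F (algebraMap k[X] F p) = algebraMap k[X] F (derivative p) := by
  rw [algebraMap_poly_eq_aeval, Derivation.map_aeval, derCoord_coord, algebraMap_poly_eq_aeval]
  simp


variable {k F}

/-- "ord ≥ n or zero" predicate. -/
def OrdGE (v : Place k F) (n : ℤ) (g : F) : Prop := g = 0 ∨ n ≤ v.ord g

omit [Algebra k[X] F] [Algebra (RatFunc k) F] [IsScalarTower k[X] (RatFunc k) F]
  [IsScalarTower k k[X] F] [FunctionField k F] [Algebra.IsSeparable (RatFunc k) F] in
theorem OrdGE.add {v : Place k F} {n : ℤ} {f g : F} (hf : OrdGE v n f) (hg : OrdGE v n g) :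
    OrdGE v n (f + g) := by
  by_cases h : f + g = 0
  · exact Or.inl h
  · exact Or.inr (PlaceAux.ord_add_ge v h hf hg)

omit [Algebra k[X] F] [Algebra (RatFunc k) F] [IsScalarTower k[X] (RatFunc k) F]
  [IsScalarTower k k[X] F] [FunctionField k F] [Algebra.IsSeparable (RatFunc k) F] in
theorem OrdGE.mul {v : Place k F} {n m : ℤ} {f g : F} (hf : OrdGE v n f) (hg : OrdGE v m g) :
    OrdGE v (n + m) (f * g) := by
  rcases hf with rfl | hf
  · left; simp
  rcases hg with rfl | hg
  · left; simp
  by_cases hf0 : f = 0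
  · left; simp [hf0]
  by_cases hg0 : g = 0
  · left; simp [hg0]
  right
  rw [v.ord_mul hf0 hg0]; omega

omit [Algebra k[X] F] [Algebra (RatFunc k) F] [IsScalarTower k[X] (RatFunc k) F]
  [IsScalarTower k k[X] F] [FunctionField k F] [Algebra.IsSeparable (RatFunc k) F] in
theorem OrdGE.neg {v : Place k F} {n : ℤ} {f : F} (hf : OrdGE v n f) : OrdGE v n (-f) := by
  rcases hf with rfl | hf
  · left; simp
  by_cases hf0 : f = 0
  · left; simp [hf0]
  right
  have : -f = (-1 : F) * f := by ring
  have h1 : v.ord (-1 : F) = 0 := by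
    have := PlaceAux.ord_algebraMap v (-1 : k)
    simpa using this
  rw [this, v.ord_mul (by norm_num) hf0, h1]; omega

omit [Algebra k[X] F] [Algebra (RatFunc k) F] [IsScalarTower k[X] (RatFunc k) F]
  [IsScalarTower k k[X] F] [FunctionField k F] [Algebra.IsSeparable (RatFunc k) F] in
theorem OrdGE.mono {v : Place k F} {n m : ℤ} {f : F} (hf : OrdGE v n f) (h : m ≤ n) :
    OrdGE v m f := hf.imp id (fun h' => h.trans h')

omit [Algebra k[X] F] [Algebra (RatFunc k) F] [IsScalarTower k[X] (RatFunc k) F]
  [IsScalarTower k k[X] F] [FunctionField k F] [Algebra.IsSeparable (RatFunc k) F] in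
theorem ordGE_zero_iff_mem {v : Place k F} {f : F} : OrdGE v 0 f ↔ f ∈ v.toValuationSubring :=
  (PlaceAux.mem_iff_ord_nonneg v).symm

/-- Bounded poles: on the integral closure of `k[x]` the derivative `d/dx` has bounded pole order
at a place where `x` is regular. -/
theorem exists_bound_derCoord_ringOfIntegers (v : Place k F)
    (hx : coord k F ∈ v.toValuationSubring) :
    ∃ m : ℤ, 0 ≤ m ∧ ∀ β : 𝓞, OrdGE v (-m) (derCoord k F (algebraMap 𝓞 F β)) := by
  classical
  obtain ⟨s, hs⟩ := (Module.Finite.fg_top : (⊤ : Submodule k[X] 𝓞).FG)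
  let m : ℤ := ∑ b ∈ s, |v.ord (derCoord k F (algebraMap 𝓞 F b))|
  have hm0 : 0 ≤ m := Finset.sum_nonneg fun b _ => abs_nonneg _
  refine ⟨m, hm0, fun β => ?_⟩
  have hβ : β ∈ Submodule.span k[X] (s : Set 𝓞) := by rw [hs]; trivial
  induction hβ using Submodule.span_induction with
  | mem b hb =>
    right
    have h1 : |v.ord (derCoord k F (algebraMap 𝓞 F b))| ≤ m :=
      Finset.single_le_sum (f := fun b => |v.ord (derCoord k F (algebraMap 𝓞 F b))|)
        (fun b _ => abs_nonneg _) hb
    have h2 := neg_abs_le (v.ord (derCoord k F (algebraMap 𝓞 F b)))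
    omega
  | zero => left; simp
  | add x y _ _ hx' hy' =>
    rw [map_add, map_add]
    exact hx'.add hy'
  | smul p x _ hx' =>
    have h1 : algebraMap 𝓞 F (p • x) = algebraMap k[X] F p * algebraMap 𝓞 F x := by
      rw [Algebra.smul_def, map_mul, ← IsScalarTower.algebraMap_apply]
    rw [h1, Derivation.leibniz, derCoord_algebraMap_poly, smul_eq_mul, smul_eq_mul]
    have hp : OrdGE v 0 (algebraMap k[X] F p) := ordGE_zero_iff_mem.mpr (algebraMap_poly_mem v hx p)
    have hp' : OrdGE v 0 (algebraMap k[X] F (derivative p)) :=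
      ordGE_zero_iff_mem.mpr (algebraMap_poly_mem v hx _)
    have hxm : OrdGE v 0 (algebraMap 𝓞 F x) := ordGE_zero_iff_mem.mpr (ringOfIntegers_mem v hx x)
    have t1 := hp.mul hx'
    have t2 := (hxm.mul hp').mono (show -m ≤ 0 + 0 by omega)
    rw [zero_add] at t1
    exact t1.add t2


/-- Bounded poles on the whole valuation ring. -/
theorem exists_bound_derCoord (v : Place k F) (hx : coord k F ∈ v.toValuationSubring) :
    ∃ m : ℤ, 0 ≤ m ∧ ∀ g ∈ v.toValuationSubring, OrdGE v (-m) (derCoord k F g) := by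
  obtain ⟨m, hm0, hm⟩ := exists_bound_derCoord_ringOfIntegers v hx
  refine ⟨m, hm0, fun g hg => ?_⟩
  obtain ⟨w, rfl⟩ := exists_placeOf_eq v (ringOfIntegers_mem v hx)
  have hg' : w.valuation F g ≤ 1 := (mem_placeOf_iff w g).mp hg
  obtain ⟨n, d, hnd⟩ := w.exists_primeCompl_mul_eq_of_integer g hg'
  have hd0 : (d : 𝓞) ≠ 0 := by
    intro h0
    exact d.2 (h0 ▸ w.asIdeal.zero_mem)
  have hdF : algebraMap 𝓞 F d ≠ 0 := by
    simpa using (IsFractionRing.injective 𝓞 F).ne hd0
  have hdord : (placeOf (k := k) w).ord (algebraMap 𝓞 F d) = 0 := by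
    have h1 : 0 ≤ (placeOf (k := k) w).ord (algebraMap 𝓞 F d) :=
      PlaceAux.ord_nonneg_of_mem _ (algebraMap_mem_placeOf w d)
    have h2 : ¬ 0 < (placeOf (k := k) w).ord (algebraMap 𝓞 F d) := by
      rw [ord_placeOf_algebraMap_pos_iff w _ hd0]
      exact d.2
    omega
  -- Leibniz on `g * d = n`
  have hleib := congrArg (derCoord k F) hnd
  rw [Derivation.leibniz, smul_eq_mul, smul_eq_mul] at hleib
  have hkey : derCoord k F g = (derCoord k F (algebraMap 𝓞 F n)
      - g * derCoord k F (algebraMap 𝓞 F d)) * (algebraMap 𝓞 F d)⁻¹ := by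
    field_simp
    linear_combination hleib
  rw [hkey]
  have h1 : OrdGE (placeOf (k := k) w) (-m) (derCoord k F (algebraMap 𝓞 F n)
      - g * derCoord k F (algebraMap 𝓞 F d)) := by
    rw [sub_eq_add_neg]
    refine (hm n).add (OrdGE.neg ?_)
    have := (ordGE_zero_iff_mem.mpr hg).mul (hm d)
    rwa [zero_add] at this
  have h2 : OrdGE (placeOf (k := k) w) 0 (algebraMap 𝓞 F d)⁻¹ := by
    right
    rw [(placeOf (k := k) w).ord_inv, hdord]; simp
  have := h1.mul h2
  rwa [add_zero] at this


/-- **Regularity of `d/dt`**: if the coordinate `t` is a uniformizer at `v` and the residue field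
is `k`, then `d/dt` preserves the valuation ring of `v`. -/
theorem derCoord_mem (v : Place k F) (ht : v.ord (coord k F) = 1) (hdeg : v.deg = 1)
    {g : F} (hg : g ∈ v.toValuationSubring) : derCoord k F g ∈ v.toValuationSubring := by
  have hx : coord k F ∈ v.toValuationSubring :=
    (PlaceAux.mem_iff_ord_nonneg' v (coord_ne_zero k F)).mpr (by rw [ht]; norm_num)
  obtain ⟨m, hm0, hm⟩ := exists_bound_derCoord v hx
  obtain ⟨m', rfl⟩ := Int.eq_ofNat_of_zero_le hm0
  rw [← ordGE_zero_iff_mem]
  -- descend the bound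
  have step : ∀ n : ℕ, (∀ g ∈ v.toValuationSubring, OrdGE v (-((n + 1 : ℕ) : ℤ)) (derCoord k F g)) →
      ∀ g ∈ v.toValuationSubring, OrdGE v (-(n : ℤ)) (derCoord k F g) := by
    intro n hn g hg
    obtain ⟨a, ha⟩ := exists_const_sub_ordGE_one v hdeg hg
    set h := g - algebraMap k F a with hh
    set t := coord k F with htdef
    have ht0 : t ≠ 0 := coord_ne_zero k F
    -- g₁ = h / t is integral
    have hg1 : h / t ∈ v.toValuationSubring := by
      rw [PlaceAux.mem_iff_ord_nonneg]
      rcases ha with h0 | h1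
      · left; rw [h0, zero_div]
      · by_cases h0 : h = 0
        · left; rw [h0, zero_div]
        · right; rw [PlaceAux.ord_div v h0 ht0, ht]; omega
    have hgeq : g = algebraMap k F a + t * (h / t) := by
      rw [hh]; field_simp; ring
    have hder : derCoord k F g = h / t + t * derCoord k F (h / t) := by
      conv_lhs => rw [hgeq]
      rw [map_add, Derivation.map_algebraMap, zero_add, Derivation.leibniz, derCoord_coord,
        smul_eq_mul, smul_eq_mul]
      ring
    rw [hder]
    refine ((ordGE_zero_iff_mem.mpr hg1).mono (by omega)).add ?_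
    have h1 : OrdGE v 1 t := Or.inr (by rw [ht])
    have := h1.mul (hn _ hg1)
    refine this.mono ?_
    push_cast; omega
  have all : ∀ n : ℕ, (∀ g ∈ v.toValuationSubring, OrdGE v (-(n : ℤ)) (derCoord k F g)) →
      ∀ g ∈ v.toValuationSubring, OrdGE v 0 (derCoord k F g) := by
    intro n
    induction n with
    | zero => intro h g hg; simpa using h g hg
    | succ n ih => intro h; exact ih (step n h)
  exact all m' hm g hg


/-- **Local computation of `dy/dt`**: if `t` is a uniformizer at `v` (residue field `k`, char `0`)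
and `y` has order `e ≠ 0` at `v`, then `dy/dt` has order `e - 1`. -/
theorem ord_derCoord_of_ord_ne_zero [CharZero k] (v : Place k F) (ht : v.ord (coord k F) = 1)
    (hdeg : v.deg = 1) {y : F} (hy : v.ord y ≠ 0) :
    derCoord k F y ≠ 0 ∧ v.ord (derCoord k F y) = v.ord y - 1 := by
  set t := coord k F with htdef
  have ht0 : t ≠ 0 := coord_ne_zero k F
  have hy0 : y ≠ 0 := by
    intro h0; rw [h0, v.ord_zero] at hy; exact hy rfl
  set e : ℤ := v.ord y with he
  set u : F := y / t ^ e with hu
  have hte0 : t ^ e ≠ 0 := zpow_ne_zero _ ht0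
  have hu0 : u ≠ 0 := div_ne_zero hy0 hte0
  have hordu : v.ord u = 0 := by
    rw [hu, PlaceAux.ord_div v hy0 hte0, v.ord_zpow, ht, ← he]; ring
  have humem : u ∈ v.toValuationSubring := (PlaceAux.mem_iff_ord_nonneg' v hu0).mpr hordu.ge
  have hyeq : y = u * t ^ e := by rw [hu]; field_simp
  have hdu := derCoord_mem v ht hdeg humem
  have hder : derCoord k F y = u * ((e : F) * t ^ (e - 1)) + t ^ e * derCoord k F u := by
    conv_lhs => rw [hyeq]
    rw [Derivation.leibniz, Derivation.leibniz_zpow, derCoord_coord, smul_eq_mul, smul_eq_mul,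
      zsmul_eq_mul, smul_eq_mul, mul_one]
  have heF : (e : F) ≠ 0 := by
    have : (e : F) = algebraMap k F (e : k) := by simp
    rw [this]
    have hek : (e : k) ≠ 0 := by exact_mod_cast hy
    intro h0
    exact hek ((algebraMap k F).injective (h0.trans (map_zero _).symm))
  have hordeF : v.ord (e : F) = 0 := by
    have : (e : F) = algebraMap k F (e : k) := by simp
    rw [this]; exact PlaceAux.ord_algebraMap v _
  have hA0 : u * ((e : F) * t ^ (e - 1)) ≠ 0 :=
    mul_ne_zero hu0 (mul_ne_zero heF (zpow_ne_zero _ ht0))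
  have hordA : v.ord (u * ((e : F) * t ^ (e - 1))) = e - 1 := by
    rw [v.ord_mul hu0 (mul_ne_zero heF (zpow_ne_zero _ ht0)),
      v.ord_mul heF (zpow_ne_zero _ ht0), hordu, hordeF, v.ord_zpow, ht]; ring
  by_cases hB0 : t ^ e * derCoord k F u = 0
  · rw [hder, hB0, add_zero]
    exact ⟨hA0, hordA⟩
  · have hdu0 : derCoord k F u ≠ 0 := fun h => hB0 (by rw [h, mul_zero])
    have hordB : e ≤ v.ord (t ^ e * derCoord k F u) := by
      rw [v.ord_mul hte0 hdu0, v.ord_zpow, ht]
      have := (PlaceAux.mem_iff_ord_nonneg' v hdu0).mp hdu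
      linarith
    have hlt : v.ord (u * ((e : F) * t ^ (e - 1))) < v.ord (t ^ e * derCoord k F u) := by
      rw [hordA]; omega
    have hsum := PlaceAux.ord_add_eq_of_lt v hA0 hB0 hlt
    rw [hder]
    refine ⟨?_, by rw [hsum, hordA]⟩
    intro h0
    rw [h0, v.ord_zero] at hsum
    have hAB : t ^ e * derCoord k F u = -(u * ((e : F) * t ^ (e - 1))) := by
      linear_combination h0
    have h1 : v.ord (t ^ e * derCoord k F u) = v.ord (u * ((e : F) * t ^ (e - 1))) := by
      rw [hAB]
      have hneg : -(u * ((e : F) * t ^ (e - 1))) = (-1 : F) * (u * ((e : F) * t ^ (e - 1))) := by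
        ring
      have hm1 : v.ord (-1 : F) = 0 := by
        have := PlaceAux.ord_algebraMap v (-1 : k)
        simpa using this
      rw [hneg, v.ord_mul (by norm_num) hA0, hm1, zero_add]
    omega

end DerCoord

end Fermat.Agent.FF
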