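import Mathlib
import Fermat.Agent.FF.LocalDer

set_option autoImplicit false
set_option linter.unusedSectionVars false
set_option linter.style.haveILetI false

open Polynomial AlgebraicCurve IsDedekindDomain WithZero IntermediateField KaehlerDifferential

namespace Fermat.Agent.FF

variable {k F : Type*} [Field k] [Field F] [Algebra k F]

/-- The Prelude's `dCoord` is `d` of some uniformizer. -/
theorem exists_uniformizer_dCoord (v : Place k F) :
    ∃ t : F, v.ord t = 1 ∧ v.dCoord = D k F t := by
  refine ⟨_, ?_, rfl⟩
  exact v.ord_coe_irreducible
    (IsDiscreteValuationRing.exists_irreducible v.toValuationSubring).choose_spec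

theorem transcendental_of_ord_ne_zero (v : Place k F) {t : F} (ht : v.ord t ≠ 0) :
    Transcendental k t := fun halg => ht (ord_eq_zero_of_isAlgebraic v halg)

namespace Coord

variable [CharZero k] (c : Coord k F)

include c in
theorem nontrivial_kaehler : Nontrivial Ω[F⁄k] :=
  ⟨⟨D k F c.x, 0, c.D_x_ne_zero⟩⟩

include c in
theorem dCoordGenerates (v : Place k F) : v.DCoordGenerates := by
  obtain ⟨t, ht1, htd⟩ := exists_uniformizer_dCoord v
  have htr : Transcendental k t := transcendental_of_ord_ne_zero v (by rw [ht1]; norm_num)
  refine ⟨?_⟩
  rw [htd]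
  exact (c.ofTranscendental t htr).span_D_x

include c in
/-- **Order of `dy`** at a place of degree one where `y` has nonzero order. -/
theorem ordDifferential_D [IsAlgClosed k] (v : Place k F) {y : F} (hy : v.ord y ≠ 0) :
    v.differentialCoeff (D k F y) ≠ 0 ∧ v.ordDifferential (D k F y) = v.ord y - 1 := by
  obtain ⟨t, ht1, htd⟩ := exists_uniformizer_dCoord v
  have htr : Transcendental k t := transcendental_of_ord_ne_zero v (by rw [ht1]; norm_num)
  haveI := c.dCoordGenerates v
  haveI := c.nontrivial_kaehler
  set ct := c.ofTranscendental t htr with hct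
  letI := ct.algPoly
  letI := ct.algRat
  haveI := ct.tower1
  haveI := ct.tower2
  haveI := ct.tower3
  haveI : FunctionField k F := ct.functionField
  haveI : CharZero (RatFunc k) := charZero_of_injective_algebraMap (algebraMap k (RatFunc k)).injective
  haveI : Algebra.IsSeparable (RatFunc k) F := inferInstance
  have hcoord : coord k F = t := ct.coord_eq
  have hD : D k F y = derCoord k F y • v.dCoord := by
    rw [htd, ← hcoord]; exact D_eq_derCoord_smul k F y
  have hcoef : v.differentialCoeff (D k F y) = derCoord k F y := v.differentialCoeff_unique hD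
  have := ord_derCoord_of_ord_ne_zero v (by rw [hcoord]; exact ht1) (c.deg_eq_one v) hy
  rw [Place.ordDifferential, hcoef]
  exact this

end Coord

end Fermat.Agent.FF
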