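import Mathlib
import Fermat.Agent.FF.Differential

set_option autoImplicit false
set_option linter.unusedSectionVars false
set_option linter.style.haveILetI false

open Polynomial AlgebraicCurve IsDedekindDomain WithZero IntermediateField KaehlerDifferential

namespace Fermat.Agent.FF

variable {k F : Type*} [Field k] [Field F] [Algebra k F]

namespace Coord

variable [CharZero k] (c : Coord k F)

/-- The zeros of `x - a`. -/
noncomputable def zeros (a : k) : Finset (Place k F) := (c.exists_zeros_sub a).choose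

theorem mem_zeros {a : k} {v : Place k F} :
    v ∈ c.zeros a ↔ 0 < v.ord (c.x - algebraMap k F a) :=
  (c.exists_zeros_sub a).choose_spec.1 v

theorem sum_zeros (a : k) :
    ∑ v ∈ c.zeros a, v.ord (c.x - algebraMap k F a) * (v.deg : ℤ) = c.degree :=
  (c.exists_zeros_sub a).choose_spec.2

/-- The poles of `x`. -/
noncomputable def poles : Finset (Place k F) := c.exists_poles.choose

theorem mem_poles {v : Place k F} : v ∈ c.poles ↔ v.ord c.x < 0 :=
  c.exists_poles.choose_spec.1 v

theorem sum_poles : ∑ v ∈ c.poles, (-v.ord c.x) * (v.deg : ℤ) = c.degree :=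
  c.exists_poles.choose_spec.2

theorem x_sub_ne_zero (a : k) : c.x - algebraMap k F a ≠ 0 := by
  intro h
  apply c.trans
  rw [sub_eq_zero.mp h]
  exact isAlgebraic_algebraMap a

/-- **Squeeze lemma**: a set of zeros of `x - a` carrying the full degree is the set of all
zeros. -/
theorem mem_of_sum_ge (a : k) (S : Finset (Place k F))
    (hS : ∀ v ∈ S, 0 < v.ord (c.x - algebraMap k F a))
    (hsum : (c.degree : ℤ) ≤ ∑ v ∈ S, v.ord (c.x - algebraMap k F a) * (v.deg : ℤ))
    {v : Place k F} (hv : 0 < v.ord (c.x - algebraMap k F a)) : v ∈ S := by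
  classical
  by_contra hvS
  have hsub : insert v S ⊆ c.zeros a := by
    intro w hw
    rcases Finset.mem_insert.mp hw with rfl | hw
    · exact c.mem_zeros.mpr hv
    · exact c.mem_zeros.mpr (hS w hw)
  have h1 : ∑ w ∈ insert v S, w.ord (c.x - algebraMap k F a) * (w.deg : ℤ)
      ≤ ∑ w ∈ c.zeros a, w.ord (c.x - algebraMap k F a) * (w.deg : ℤ) := by
    apply Finset.sum_le_sum_of_subset_of_nonneg hsub
    intro w hw _
    have := c.mem_zeros.mp hw
    positivity
  rw [c.sum_zeros, Finset.sum_insert hvS] at h1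
  have hpos : 0 < v.ord (c.x - algebraMap k F a) * (v.deg : ℤ) := by
    have := c.deg_pos v
    positivity
  omega

/-- A set of zeros of `x - a` has total multiplicity at most the degree. -/
theorem sum_le_degree (a : k) (S : Finset (Place k F))
    (hS : ∀ v ∈ S, 0 < v.ord (c.x - algebraMap k F a)) :
    ∑ v ∈ S, v.ord (c.x - algebraMap k F a) * (v.deg : ℤ) ≤ c.degree := by
  have hsub : S ⊆ c.zeros a := fun w hw => c.mem_zeros.mpr (hS w hw)
  rw [← c.sum_zeros a]
  apply Finset.sum_le_sum_of_subset_of_nonneg hsub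
  intro w hw _
  have := c.mem_zeros.mp hw
  positivity

/-- Squeeze lemma at the poles. -/
theorem mem_of_sum_ge_poles (S : Finset (Place k F)) (hS : ∀ v ∈ S, v.ord c.x < 0)
    (hsum : (c.degree : ℤ) ≤ ∑ v ∈ S, (-v.ord c.x) * (v.deg : ℤ))
    {v : Place k F} (hv : v.ord c.x < 0) : v ∈ S := by
  classical
  by_contra hvS
  have hsub : insert v S ⊆ c.poles := by
    intro w hw
    rcases Finset.mem_insert.mp hw with rfl | hw
    · exact c.mem_poles.mpr hv
    · exact c.mem_poles.mpr (hS w hw)
  have h1 : ∑ w ∈ insert v S, (-w.ord c.x) * (w.deg : ℤ)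
      ≤ ∑ w ∈ c.poles, (-w.ord c.x) * (w.deg : ℤ) := by
    apply Finset.sum_le_sum_of_subset_of_nonneg hsub
    intro w hw _
    have := c.mem_poles.mp hw
    have h2 : 0 ≤ -w.ord c.x := by omega
    positivity
  rw [c.sum_poles, Finset.sum_insert hvS] at h1
  have hpos : 0 < (-v.ord c.x) * (v.deg : ℤ) := by
    have := c.deg_pos v
    have h2 : 0 < -v.ord c.x := by omega
    positivity
  omega

theorem sum_le_degree_poles (S : Finset (Place k F)) (hS : ∀ v ∈ S, v.ord c.x < 0) :
    ∑ v ∈ S, (-v.ord c.x) * (v.deg : ℤ) ≤ c.degree := by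
  have hsub : S ⊆ c.poles := fun w hw => c.mem_poles.mpr (hS w hw)
  rw [← c.sum_poles]
  apply Finset.sum_le_sum_of_subset_of_nonneg hsub
  intro w hw _
  have := c.mem_poles.mp hw
  have h2 : 0 ≤ -w.ord c.x := by omega
  positivity


section AlgClosed

variable [IsAlgClosed k]

theorem sum_zeros' (a : k) : ∑ v ∈ c.zeros a, v.ord (c.x - algebraMap k F a) = c.degree := by
  rw [← c.sum_zeros a]
  refine Finset.sum_congr rfl fun v _ => ?_
  rw [c.deg_eq_one v]; simp

theorem sum_poles' : ∑ v ∈ c.poles, (-v.ord c.x) = c.degree := by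
  rw [← c.sum_poles]
  refine Finset.sum_congr rfl fun v _ => ?_
  rw [c.deg_eq_one v]; simp

/-- Every place is a pole of `x` or a zero of `x - a` for some `a`. -/
theorem mem_poles_or_exists_mem_zeros (v : Place k F) : v ∈ c.poles ∨ ∃ a, v ∈ c.zeros a := by
  by_cases hv : v.ord c.x < 0
  · exact Or.inl (c.mem_poles.mpr hv)
  · right
    have hx0 : c.x ≠ 0 := by
      intro h0; apply c.trans; rw [h0]; exact isAlgebraic_zero
    have hmem : c.x ∈ v.toValuationSubring :=
      (PlaceAux.mem_iff_ord_nonneg' v hx0).mpr (not_lt.mp hv)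
    obtain ⟨a, ha⟩ := exists_const_sub_ordGE_one v (c.deg_eq_one v) hmem
    refine ⟨a, c.mem_zeros.mpr ?_⟩
    rcases ha with h0 | h1
    · exact absurd h0 (c.x_sub_ne_zero a)
    · omega

omit [IsAlgClosed k] in
theorem zeros_disjoint {a b : k} (hab : a ≠ b) : Disjoint (c.zeros a) (c.zeros b) := by
  rw [Finset.disjoint_left]
  intro v hva hvb
  have h1 := c.mem_zeros.mp hva
  have h2 := c.mem_zeros.mp hvb
  have hconst : algebraMap k F (b - a) ≠ 0 := by
    intro h0
    have := (algebraMap k F).injective (h0.trans (map_zero _).symm)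
    exact hab (sub_eq_zero.mp this).symm
  have heq : algebraMap k F (b - a) = (c.x - algebraMap k F a) + -(c.x - algebraMap k F b) := by
    rw [map_sub]; ring
  have h3 : (1 : ℤ) ≤ v.ord (algebraMap k F (b - a)) := by
    rw [heq]
    apply PlaceAux.ord_add_ge v (by rw [← heq]; exact hconst)
    · right; omega
    · right
      have hneg : -(c.x - algebraMap k F b) = (-1 : F) * (c.x - algebraMap k F b) := by ring
      have hm1 : v.ord (-1 : F) = 0 := by
        have := PlaceAux.ord_algebraMap v (-1 : k)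
        simpa using this
      rw [hneg, v.ord_mul (by norm_num) (c.x_sub_ne_zero b), hm1]; omega
  rw [PlaceAux.ord_algebraMap] at h3
  omega

omit [IsAlgClosed k] in
theorem zeros_disjoint_poles (a : k) : Disjoint (c.zeros a) c.poles := by
  rw [Finset.disjoint_left]
  intro v hva hvp
  have h1 := c.mem_zeros.mp hva
  have h2 := c.mem_poles.mp hvp
  have hx0 : c.x ≠ 0 := by
    intro h0; rw [h0, v.ord_zero] at h2; exact lt_irrefl _ h2
  by_cases ha : a = 0
  · rw [ha, map_zero, sub_zero] at h1; omega
  have ha0 : algebraMap k F a ≠ 0 := by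
    intro h0; exact ha ((algebraMap k F).injective (h0.trans (map_zero _).symm))
  have hnegconst : -algebraMap k F a ≠ 0 := neg_ne_zero.mpr ha0
  have hordc : v.ord (-algebraMap k F a) = 0 := by
    have := PlaceAux.ord_algebraMap v (-a)
    rwa [map_neg] at this
  have := PlaceAux.ord_add_eq_of_lt v hx0 hnegconst (by rw [hordc]; exact h2)
  rw [← sub_eq_add_neg] at this
  omega

omit [IsAlgClosed k] in
theorem D_x_sub (a : k) : D k F (c.x - algebraMap k F a) = D k F c.x := by
  rw [map_sub, Derivation.map_algebraMap, sub_zero]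

/-- Order of `dx` at a zero of `x - a`. -/
theorem ordDifferential_D_x_of_mem_zeros {a : k} {v : Place k F} (hv : v ∈ c.zeros a) :
    v.differentialCoeff (D k F c.x) ≠ 0 ∧
      v.ordDifferential (D k F c.x) = v.ord (c.x - algebraMap k F a) - 1 := by
  have h := c.mem_zeros.mp hv
  have := c.ordDifferential_D v (y := c.x - algebraMap k F a) (by omega)
  rwa [c.D_x_sub a] at this

/-- Order of `dx` at a pole of `x`. -/
theorem ordDifferential_D_x_of_mem_poles {v : Place k F} (hv : v ∈ c.poles) :
    v.differentialCoeff (D k F c.x) ≠ 0 ∧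
      v.ordDifferential (D k F c.x) = v.ord c.x - 1 := by
  have h := c.mem_poles.mp hv
  exact c.ordDifferential_D v (by omega)

theorem differentialCoeff_D_x_ne_zero (v : Place k F) : v.differentialCoeff (D k F c.x) ≠ 0 := by
  rcases c.mem_poles_or_exists_mem_zeros v with h | ⟨a, h⟩
  · exact (c.ordDifferential_D_x_of_mem_poles h).1
  · exact (c.ordDifferential_D_x_of_mem_zeros h).1


/-- **Riemann–Hurwitz, counting form**, for a divisor computing the orders of `dx`. -/
theorem degree_of_forall_eq_ordDifferential_D_x (K' : Divisor k F)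
    (hK' : ∀ v, K' v = v.ordDifferential (D k F c.x)) (B : Finset k)
    (hB : ∀ a, a ∉ B → ∀ v ∈ c.zeros a, v.ord (c.x - algebraMap k F a) = 1) :
    Divisor.degree K' =
      ∑ a ∈ B, ((c.degree : ℤ) - (c.zeros a).card) - c.degree - c.poles.card := by
  classical
  set T : Finset (Place k F) := (B.biUnion c.zeros) ∪ c.poles with hT
  have hsupp : K'.support ⊆ T := by
    intro v hv
    rw [Finsupp.mem_support_iff, hK'] at hv
    rw [hT, Finset.mem_union, Finset.mem_biUnion]
    rcases c.mem_poles_or_exists_mem_zeros v with h | ⟨a, h⟩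
    · exact Or.inr h
    · left
      refine ⟨a, ?_, h⟩
      by_contra haB
      have h1 := hB a haB v h
      rw [(c.ordDifferential_D_x_of_mem_zeros h).2, h1] at hv
      exact hv (by norm_num)
  rw [degree_eq_sum_of_support_subset K' T hsupp]
  have hdisj : Disjoint (B.biUnion c.zeros) c.poles := by
    rw [Finset.disjoint_biUnion_left]
    exact fun a _ => c.zeros_disjoint_poles a
  rw [hT, Finset.sum_union hdisj, Finset.sum_biUnion]
  · have h1 : ∀ a ∈ B, ∑ v ∈ c.zeros a, K' v * (v.deg : ℤ)
        = (c.degree : ℤ) - (c.zeros a).card := by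
      intro a _
      rw [← c.sum_zeros' a, Finset.card_eq_sum_ones, Nat.cast_sum, ← Finset.sum_sub_distrib]
      refine Finset.sum_congr rfl fun v hv => ?_
      rw [hK', (c.ordDifferential_D_x_of_mem_zeros hv).2, c.deg_eq_one v]; simp
    have h2 : ∑ v ∈ c.poles, K' v * (v.deg : ℤ) = -(c.degree : ℤ) - c.poles.card := by
      rw [← c.sum_poles', Finset.card_eq_sum_ones, Nat.cast_sum, ← Finset.sum_neg_distrib,
        ← Finset.sum_sub_distrib]
      refine Finset.sum_congr rfl fun v hv => ?_
      rw [hK', (c.ordDifferential_D_x_of_mem_poles hv).2, c.deg_eq_one v]; simp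
    rw [Finset.sum_congr rfl h1, h2]; ring
  · intro a _ b _ hab
    exact c.zeros_disjoint hab

/-- **Riemann–Hurwitz, counting form** (the team's `(I1)`): the degree of the canonical divisor
of ANY nonzero differential. -/
theorem degree_canonicalDivisorOf [HasCanonicalDivisor (K := k) (F := F)] {ω : Ω[F⁄k]}
    (hω : ω ≠ 0) (B : Finset k)
    (hB : ∀ a, a ∉ B → ∀ v ∈ c.zeros a, v.ord (c.x - algebraMap k F a) = 1) :
    Divisor.degree (canonicalDivisorOf hω) =
      ∑ a ∈ B, ((c.degree : ℤ) - (c.zeros a).card) - c.degree - c.poles.card := by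
  obtain ⟨g, hg⟩ := c.exists_eq_smul_D_x ω
  have hg0 : g ≠ 0 := by
    intro h0; rw [h0, zero_smul] at hg; exact hω hg
  obtain ⟨Dg, hDg, hdeg⟩ := c.exists_principal_divisor g hg0
  set K' : Divisor k F := canonicalDivisorOf hω - Dg with hK'
  have hK'v : ∀ v, K' v = v.ordDifferential (D k F c.x) := by
    intro v
    haveI := c.dCoordGenerates v
    haveI := c.nontrivial_kaehler
    rw [hK', Finsupp.sub_apply, canonicalDivisorOf_apply, hDg, hg,
      v.ordDifferential_smul hg0 (c.differentialCoeff_D_x_ne_zero v)]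
    ring
  have := c.degree_of_forall_eq_ordDifferential_D_x K' hK'v B hB
  rw [← this, hK', map_sub, hdeg, sub_zero]


theorem card_zeros_le (a : k) : (c.zeros a).card ≤ c.degree := by
  have h := c.sum_zeros' a
  have h2 : ((c.zeros a).card : ℤ) ≤ ∑ v ∈ c.zeros a, v.ord (c.x - algebraMap k F a) := by
    rw [Finset.card_eq_sum_ones, Nat.cast_sum]
    apply Finset.sum_le_sum
    intro v hv
    have := c.mem_zeros.mp hv
    simp only [Nat.cast_one]; omega
  rw [h] at h2
  exact_mod_cast h2

theorem card_poles_le : c.poles.card ≤ c.degree := by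
  have h := c.sum_poles'
  have h2 : (c.poles.card : ℤ) ≤ ∑ v ∈ c.poles, (-v.ord c.x) := by
    rw [Finset.card_eq_sum_ones, Nat.cast_sum]
    apply Finset.sum_le_sum
    intro v hv
    have := c.mem_poles.mp hv
    simp only [Nat.cast_one]; omega
  rw [h] at h2
  exact_mod_cast h2

/-- If `x - a` has `[F : k(x)]` distinct zeros, all of them are simple. -/
theorem ord_eq_one_of_card_zeros_eq {a : k} (h : (c.zeros a).card = c.degree)
    {v : Place k F} (hv : v ∈ c.zeros a) : v.ord (c.x - algebraMap k F a) = 1 := by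
  have hs := c.sum_zeros' a
  have h0 : ∑ w ∈ c.zeros a, (w.ord (c.x - algebraMap k F a) - 1) = 0 := by
    rw [Finset.sum_sub_distrib, hs, ← h]; simp
  have hnonneg : ∀ w ∈ c.zeros a, 0 ≤ w.ord (c.x - algebraMap k F a) - 1 := by
    intro w hw
    have := c.mem_zeros.mp hw
    omega
  have := (Finset.sum_eq_zero_iff_of_nonneg hnonneg).mp h0 v hv
  omega

/-- `(I1)` in the lead's form: branch values outside of which `x - a` has `n` distinct zeros. -/
theorem degree_canonicalDivisorOf' [HasCanonicalDivisor (K := k) (F := F)] {ω : Ω[F⁄k]}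
    (hω : ω ≠ 0) (B : Finset k) (hB : ∀ a, a ∉ B → (c.zeros a).card = c.degree) :
    Divisor.degree (canonicalDivisorOf hω) =
      ∑ a ∈ B, ((c.degree : ℤ) - (c.zeros a).card) - c.degree - c.poles.card :=
  c.degree_canonicalDivisorOf hω B
    (fun a ha _ hv => c.ord_eq_one_of_card_zeros_eq (hB a ha) hv)

/-- The genus, provided the Riemann–Hurwitz count is of the form `2 m - 2`. -/
theorem genus_eq [HasCanonicalDivisor (K := k) (F := F)] (B : Finset k)
    (hB : ∀ a, a ∉ B → (c.zeros a).card = c.degree) (m : ℕ)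
    (hm : ∑ a ∈ B, ((c.degree : ℤ) - (c.zeros a).card) - c.degree - c.poles.card + 2 = 2 * m) :
    genus k F = m := by
  have hex : ∃ ω : Ω[F⁄k], ω ≠ 0 := ⟨D k F c.x, c.D_x_ne_zero⟩
  rw [genus, dif_pos hex, c.degree_canonicalDivisorOf' hex.choose_spec B hB, hm]
  have : ((2 : ℤ) * (m : ℤ)).toNat = 2 * m := by
    have : (2 : ℤ) * (m : ℤ) = ((2 * m : ℕ) : ℤ) := by push_cast; ring
    rw [this, Int.toNat_natCast]
  rw [this]
  omega

end AlgClosed

end Coord

end Fermat.Agent.FF
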