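import Mathlib
import Fermat.Agent.FF.RiemannHurwitz

set_option autoImplicit false
set_option linter.unusedSectionVars false
set_option linter.style.haveILetI false

open Polynomial AlgebraicCurve IsDedekindDomain WithZero IntermediateField KaehlerDifferential

/-!
# Finiteness of ramification and existence of canonical divisors

Via Mathlib's different ideal: a prime of the integral closure of `k[x]` which is a multiple zero
of some `x - a` divides the different. Hence `dx` has finitely many zeros and poles, and every
function field of one variable over an algebraically closed field of characteristic zero satisfies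
the Prelude's `HasCanonicalDivisor`.
-/

namespace Fermat.Agent.FF

section TC

attribute [local instance] FractionRing.liftAlgebra FractionRing.isScalarTower_liftAlgebra

variable (k F : Type*) [Field k] [Field F] [Algebra k F] [Algebra k[X] F] [Algebra (RatFunc k) F]
  [IsScalarTower k[X] (RatFunc k) F] [IsScalarTower k k[X] F] [FunctionField k F]
  [Algebra.IsSeparable (RatFunc k) F]

local notation "𝓞" => FunctionField.ringOfIntegers k F

theorem finite_ringOfIntegers : Module.Finite k[X] 𝓞 :=
  IsIntegralClosure.finite k[X] (RatFunc k) F 𝓞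

theorem isSeparable_fractionRing_ringOfIntegers :
    Algebra.IsSeparable (FractionRing k[X]) (FractionRing 𝓞) := by
  refine Algebra.IsSeparable.of_equiv_equiv (FractionRing.algEquiv k[X] (RatFunc k)).symm.toRingEquiv
    (FractionRing.algEquiv 𝓞 F).symm.toRingEquiv ?_
  ext _
  exact IsFractionRing.algEquiv_commutes (FractionRing.algEquiv k[X] (RatFunc k)).symm
    (FractionRing.algEquiv 𝓞 F).symm _

/-- Only finitely many primes divide the different. -/
theorem finite_dvd_differentIdeal :
    {w : HeightOneSpectrum 𝓞 | w.asIdeal ∣ differentIdeal k[X] 𝓞}.Finite := by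
  haveI := finite_ringOfIntegers k F
  haveI := isSeparable_fractionRing_ringOfIntegers k F
  exact Ideal.finite_factors (differentIdeal_ne_bot (A := k[X]) (B := 𝓞))

theorem coord_sub_eq (a : k) :
    coord k F - algebraMap k F a = algebraMap 𝓞 F (algebraMap k[X] 𝓞 (X - C a)) := by
  rw [← IsScalarTower.algebraMap_apply, map_sub, coord]
  congr 1
  rw [IsScalarTower.algebraMap_apply k k[X] F, Polynomial.algebraMap_apply]
  simp

variable {k F}

/-- A zero `w` of `x - a` which does not divide the different is a simple zero. -/
theorem ord_eq_one_of_not_dvd_differentIdeal (w : HeightOneSpectrum 𝓞) (a : k)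
    (hpos : 0 < (placeOf (k := k) (F := F) w).ord (coord k F - algebraMap k F a))
    (hnd : ¬ w.asIdeal ∣ differentIdeal k[X] 𝓞) :
    (placeOf (k := k) (F := F) w).ord (coord k F - algebraMap k F a) = 1 := by
  set π : k[X] := X - C a with hπ
  set πB : 𝓞 := algebraMap k[X] 𝓞 π with hπB
  have hcs := coord_sub_eq k F a
  rw [← hπ, ← hπB] at hcs
  rw [hcs] at hpos ⊢
  have hπ0 : π ≠ 0 := X_sub_C_ne_zero a
  have hπB0 : πB ≠ 0 := by
    intro h0
    exact hπ0 (FunctionField.ringOfIntegers.algebraMap_injective k F (h0.trans (map_zero _).symm))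
  have hπF0 : algebraMap 𝓞 F πB ≠ 0 := by
    intro h0
    exact hπB0 (FaithfulSMul.algebraMap_injective 𝓞 F (h0.trans (map_zero _).symm))
  set n : ℤ := (placeOf (k := k) (F := F) w).ord (algebraMap 𝓞 F πB) with hn
  set e : ℕ := n.toNat with he
  have hen : (e : ℤ) = n := Int.toNat_of_nonneg hpos.le
  -- the valuation of `πB`
  have hval : w.intValuation πB = exp (-(e : ℤ)) := by
    have h1 := ord_placeOf (k := k) w hπF0
    rw [HeightOneSpectrum.valuation_of_algebraMap] at h1
    have hne : w.intValuation πB ≠ 0 := w.intValuation_ne_zero πB hπB0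
    rw [hen, hn, h1, neg_neg, WithZero.exp_log hne]
  have hdvd : w.asIdeal ^ e ∣ Ideal.map (algebraMap k[X] 𝓞) (Ideal.span {π}) := by
    rw [Ideal.map_span, Set.image_singleton, ← HeightOneSpectrum.intValuation_le_pow_iff_dvd, hval]
  haveI hmax : (Ideal.span {π} : Ideal k[X]).IsMaximal :=
    PrincipalIdealRing.isMaximal_of_irreducible (irreducible_X_sub_C a)
  have hp : (Ideal.span {π} : Ideal k[X]) ≠ ⊥ := by
    rw [ne_eq, Ideal.span_singleton_eq_bot]; exact hπ0
  haveI := finite_ringOfIntegers k F
  haveI := isSeparable_fractionRing_ringOfIntegers k F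
  have h2 := pow_sub_one_dvd_differentIdeal k[X] w.asIdeal e hp hdvd
  have he1 : e = 1 := by
    by_contra hne
    have hge : e - 1 ≠ 0 := by omega
    exact hnd ((dvd_pow_self w.asIdeal hge).trans h2)
  omega

end TC

variable {k F : Type*} [Field k] [Field F] [Algebra k F]

namespace Coord

variable [CharZero k] (c : Coord k F)

/-- **Finiteness of ramification**: only finitely many places are multiple zeros of some
`x - a`. -/
theorem finite_ramified :
    {v : Place k F | ∃ a : k, 2 ≤ v.ord (c.x - algebraMap k F a)}.Finite := by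
  letI := c.algPoly
  letI := c.algRat
  haveI := c.tower1
  haveI := c.tower2
  haveI := c.tower3
  haveI : FunctionField k F := c.functionField
  haveI : CharZero (RatFunc k) :=
    charZero_of_injective_algebraMap (algebraMap k (RatFunc k)).injective
  haveI : Algebra.IsSeparable (RatFunc k) F := inferInstance
  have hcoord : coord k F = c.x := c.coord_eq
  refine ((finite_dvd_differentIdeal k F).image (fun w => placeOf (k := k) (F := F) w)).subset ?_
  rintro v ⟨a, ha⟩
  have hxa0 : c.x - algebraMap k F a ≠ 0 := by
    intro h0; rw [h0, v.ord_zero] at ha; omega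
  have hxmem : coord k F ∈ v.toValuationSubring := by
    rw [hcoord]
    have h1 : c.x - algebraMap k F a ∈ v.toValuationSubring :=
      (PlaceAux.mem_iff_ord_nonneg' v hxa0).mpr (by omega)
    have := add_mem h1 (v.algebraMap_mem' a)
    rwa [sub_add_cancel] at this
  obtain ⟨w, rfl⟩ := exists_placeOf_eq v (ringOfIntegers_mem v hxmem)
  refine ⟨w, ?_, rfl⟩
  by_contra hnd
  have := ord_eq_one_of_not_dvd_differentIdeal w a (by rw [hcoord]; omega) hnd
  rw [hcoord] at this
  omega

section AlgClosed

variable [IsAlgClosed k]

/-- `dx` has only finitely many zeros and poles. -/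
theorem finite_ordDifferential_D_x_ne_zero :
    {v : Place k F | v.ordDifferential (D k F c.x) ≠ 0}.Finite := by
  refine ((c.poles.finite_toSet).union c.finite_ramified).subset ?_
  intro v hv
  rcases c.mem_poles_or_exists_mem_zeros v with h | ⟨a, h⟩
  · exact Or.inl h
  · right
    refine ⟨a, ?_⟩
    have h1 := (c.ordDifferential_D_x_of_mem_zeros h).2
    have h2 := c.mem_zeros.mp h
    have h3 : v.ordDifferential (D k F c.x) ≠ 0 := hv
    omega

/-- The divisor of `dx`. -/
theorem exists_divisor_D_x :
    ∃ K' : Divisor k F, ∀ v, K' v = v.ordDifferential (D k F c.x) := by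
  classical
  refine ⟨Finsupp.ofSupportFinite (fun v => v.ordDifferential (D k F c.x)) ?_, fun v => rfl⟩
  exact c.finite_ordDifferential_D_x_ne_zero

include c in
/-- **Every function field of one variable over an algebraically closed field of characteristic
zero has canonical divisors.** -/
theorem hasCanonicalDivisor : HasCanonicalDivisor (K := k) (F := F) := by
  refine ⟨fun ω hω => ?_⟩
  obtain ⟨g, hg⟩ := c.exists_eq_smul_D_x ω
  have hg0 : g ≠ 0 := by
    intro h0; rw [h0, zero_smul] at hg; exact hω hg
  obtain ⟨Dg, hDg, -⟩ := c.exists_principal_divisor g hg0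
  obtain ⟨K', hK'⟩ := c.exists_divisor_D_x
  refine ⟨Dg + K', fun v => ?_⟩
  haveI := c.dCoordGenerates v
  haveI := c.nontrivial_kaehler
  rw [Finsupp.add_apply, hDg, hK', hg,
    v.ordDifferential_smul hg0 (c.differentialCoeff_D_x_ne_zero v)]

/-- Riemann–Hurwitz without the `HasCanonicalDivisor` hypothesis: the degree of the divisor of
`dx`. -/
theorem exists_divisor_D_x_degree (B : Finset k)
    (hB : ∀ a, a ∉ B → ∀ v ∈ c.zeros a, v.ord (c.x - algebraMap k F a) = 1) :
    ∃ K' : Divisor k F, (∀ v, K' v = v.ordDifferential (D k F c.x)) ∧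
      Divisor.degree K' =
        ∑ a ∈ B, ((c.degree : ℤ) - (c.zeros a).card) - c.degree - c.poles.card := by
  obtain ⟨K', hK'⟩ := c.exists_divisor_D_x
  exact ⟨K', hK', c.degree_of_forall_eq_ordDifferential_D_x K' hK' B hB⟩

end AlgClosed

end Coord

end Fermat.Agent.FF
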