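import Mathlib

/-!
# Linear algebra lemmas for Riemann–Roch (Euler characteristic bookkeeping)
-/

set_option autoImplicit false
set_option linter.style.haveILetI false

namespace Fermat.Agent.FF.RR

open Module Submodule

variable {K V : Type*} [Field K] [AddCommGroup V] [Module K V]

/-- adding a new vector to a finite-dimensional subspace raises the dimension by one -/
theorem finrank_sup_span_singleton {U : Submodule K V} {x : V} (hx : x ∉ U)
    [FiniteDimensional K U] : finrank K ↥(U ⊔ K ∙ x) = finrank K U + 1 := by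
  have hx0 : x ≠ 0 := fun h => hx (h ▸ U.zero_mem)
  have hdisj : U ⊓ K ∙ x = ⊥ := by
    rw [← disjoint_iff]
    exact (Submodule.disjoint_span_singleton' hx0).mpr hx
  have := Submodule.finrank_sup_add_finrank_inf_eq U (K ∙ x)
  rw [hdisj, finrank_bot, add_zero, finrank_span_singleton hx0] at this
  exact this

/-- removing a vector from the denominator of a finite-dimensional quotient raises the dimension
by one -/
theorem finrank_quotient_of_sup_span_singleton {U : Submodule K V} {x : V} (hx : x ∉ U)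
    [FiniteDimensional K (V ⧸ (U ⊔ K ∙ x))] :
    FiniteDimensional K (V ⧸ U) ∧ finrank K (V ⧸ U) = finrank K (V ⧸ (U ⊔ K ∙ x)) + 1 := by
  set W := V ⧸ U
  set xb : W := U.mkQ x with hxb
  have hxb0 : xb ≠ 0 := by
    rw [hxb, mkQ_apply, ne_eq, Quotient.mk_eq_zero]; exact hx
  have hmap : Submodule.map U.mkQ (U ⊔ K ∙ x) = K ∙ xb := by
    rw [Submodule.map_sup, Submodule.map_span, Set.image_singleton]
    have : Submodule.map U.mkQ U = ⊥ := by
      rw [← LinearMap.le_ker_iff_map, ker_mkQ]
    rw [this, bot_sup_eq]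
  have e : (W ⧸ (K ∙ xb)) ≃ₗ[K] V ⧸ (U ⊔ K ∙ x) := by
    rw [← hmap]
    exact quotientQuotientEquivQuotient U (U ⊔ K ∙ x) le_sup_left
  haveI : FiniteDimensional K (W ⧸ (K ∙ xb)) := Module.Finite.equiv e.symm
  haveI : FiniteDimensional K W := Module.Finite.of_submodule_quotient (K ∙ xb)
  refine ⟨inferInstance, ?_⟩
  have h1 := Submodule.finrank_quotient_add_finrank (K ∙ xb)
  rw [finrank_span_singleton hxb0, e.finrank_eq] at h1
  exact h1.symm

/-- **One step of the Euler characteristic**: enlarging `I` by one dimension raises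
`dim (I ⊓ J) - dim (V / (I ⊔ J))` by one. -/
theorem chi_step {I I' J : Submodule K V} {x : V} (hx : x ∉ I) (hI' : I' = I ⊔ K ∙ x)
    [FiniteDimensional K ↥(I ⊓ J)] [FiniteDimensional K (V ⧸ (I ⊔ J))]
    [FiniteDimensional K ↥(I' ⊓ J)] [FiniteDimensional K (V ⧸ (I' ⊔ J))] :
    finrank K ↥(I' ⊓ J) + finrank K (V ⧸ (I ⊔ J))
      = finrank K ↥(I ⊓ J) + finrank K (V ⧸ (I' ⊔ J)) + 1 := by
  have hII' : I ≤ I' := hI' ▸ le_sup_left
  have hxI' : x ∈ I' := hI' ▸ (le_sup_right : K ∙ x ≤ I ⊔ K ∙ x) (mem_span_singleton_self x)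
  by_cases hxIJ : x ∈ I ⊔ J
  · obtain ⟨y, hy, z, hz, hyz⟩ := Submodule.mem_sup.mp hxIJ
    have hzI' : z ∈ I' := by
      have : z = x - y := by rw [← hyz]; abel
      rw [this]; exact I'.sub_mem hxI' (hII' hy)
    have hzI : z ∉ I := fun h => hx (hyz ▸ I.add_mem hy h)
    have hsup : I' ⊔ J = I ⊔ J := by
      apply le_antisymm
      · refine sup_le ?_ le_sup_right
        rw [hI']
        refine sup_le le_sup_left ?_
        rw [span_singleton_le_iff_mem]; exact hxIJ
      · exact sup_le_sup_right hII' J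
    have hinf : I' ⊓ J = (I ⊓ J) ⊔ K ∙ z := by
      apply le_antisymm
      · rintro w ⟨hw1, hw2⟩
        rw [hI'] at hw1
        obtain ⟨i, hi, t, ht, hit⟩ := Submodule.mem_sup.mp hw1
        obtain ⟨a, rfl⟩ := Submodule.mem_span_singleton.mp ht
        rw [Submodule.mem_sup]
        refine ⟨w - a • z, ⟨?_, ?_⟩, a • z, Submodule.smul_mem _ _ (mem_span_singleton_self z), by abel⟩
        · have : w - a • z = i + a • y := by
            rw [← hit, ← hyz, smul_add]; abel
          rw [this]; exact I.add_mem hi (I.smul_mem _ hy)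
        · exact J.sub_mem hw2 (J.smul_mem _ hz)
      · refine sup_le (inf_le_inf_right J hII') ?_
        rw [span_singleton_le_iff_mem]; exact ⟨hzI', hz⟩
    have hz' : z ∉ I ⊓ J := fun h => hzI h.1
    have h1 : finrank K ↥(I' ⊓ J) = finrank K ↥(I ⊓ J) + 1 := by
      rw [hinf]; exact finrank_sup_span_singleton hz'
    have h2 : finrank K (V ⧸ (I' ⊔ J)) = finrank K (V ⧸ (I ⊔ J)) := by
      rw [hsup]
    omega
  · have hsup : I' ⊔ J = (I ⊔ J) ⊔ K ∙ x := by
      rw [hI', sup_assoc, sup_assoc, sup_comm (K ∙ x) J]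
    have hinf : I' ⊓ J = I ⊓ J := by
      apply le_antisymm
      · rintro w ⟨hw1, hw2⟩
        rw [hI'] at hw1
        obtain ⟨i, hi, t, ht, hit⟩ := Submodule.mem_sup.mp hw1
        obtain ⟨a, rfl⟩ := Submodule.mem_span_singleton.mp ht
        by_cases ha : a = 0
        · subst ha
          rw [zero_smul, add_zero] at hit
          exact ⟨hit ▸ hi, hw2⟩
        · exfalso
          apply hxIJ
          have : x = a⁻¹ • (w - i) := by
            rw [← hit, add_sub_cancel_left, smul_smul, inv_mul_cancel₀ ha, one_smul]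
          rw [this]
          refine Submodule.smul_mem _ _ (Submodule.sub_mem _ ?_ ?_)
          · exact (le_sup_right : J ≤ I ⊔ J) hw2
          · exact (le_sup_left : I ≤ I ⊔ J) hi
      · exact inf_le_inf_right J hII'
    have h1 : finrank K ↥(I' ⊓ J) = finrank K ↥(I ⊓ J) := by rw [hinf]
    haveI : FiniteDimensional K (V ⧸ ((I ⊔ J) ⊔ K ∙ x)) := by rw [← hsup]; infer_instance
    have h2 := (finrank_quotient_of_sup_span_singleton (U := I ⊔ J) hxIJ).2
    have h3 : finrank K (V ⧸ (I' ⊔ J)) = finrank K (V ⧸ ((I ⊔ J) ⊔ K ∙ x)) := by rw [hsup]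
    omega

end Fermat.Agent.FF.RR
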