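import Mathlib

/-!
# The valuation ring at infinity of `K(X)`

`Oinf K` is the valuation subring of `RatFunc K` of rational functions of degree `≤ 0`.
It is a principal ideal ring, its nonunits are the functions of negative degree, and every element
is congruent to a constant modulo the nonunits.
-/

set_option autoImplicit false

namespace Fermat.Agent.FF.RR

open Polynomial

variable (K : Type*) [Field K]

theorem intDegree_X_zpow (m : ℤ) : (RatFunc.X ^ m : RatFunc K).intDegree = m := by
  induction m using Int.induction_on with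
  | zero => simp
  | succ n ih =>
    rw [zpow_add_one₀ RatFunc.X_ne_zero,
      RatFunc.intDegree_mul (zpow_ne_zero _ RatFunc.X_ne_zero) RatFunc.X_ne_zero, ih,
      RatFunc.intDegree_X]
  | pred n ih =>
    rw [zpow_sub_one₀ RatFunc.X_ne_zero,
      RatFunc.intDegree_mul (zpow_ne_zero _ RatFunc.X_ne_zero) (inv_ne_zero RatFunc.X_ne_zero), ih,
      RatFunc.intDegree_inv, RatFunc.intDegree_X]
    ring

variable {K}

theorem intDegree_X_zpow_mul (m : ℤ) {f : RatFunc K} (hf : f ≠ 0) :
    (RatFunc.X ^ m * f).intDegree = m + f.intDegree := by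
  rw [RatFunc.intDegree_mul (zpow_ne_zero _ RatFunc.X_ne_zero) hf, intDegree_X_zpow]

theorem intDegree_sub_le {x y : RatFunc K} (hy : y ≠ 0) (hxy : x - y ≠ 0) :
    (x - y).intDegree ≤ max x.intDegree y.intDegree := by
  have := RatFunc.intDegree_add_le (x := x) (y := -y) (neg_ne_zero.mpr hy)
    (by rwa [← sub_eq_add_neg])
  rwa [← sub_eq_add_neg, RatFunc.intDegree_neg] at this

variable (K)

/-- The valuation ring of `K(X)` at infinity: rational functions of degree `≤ 0`. -/
def Oinf : ValuationSubring (RatFunc K) where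
  carrier := {f | f = 0 ∨ f.intDegree ≤ 0}
  mul_mem' := by
    rintro a b (rfl | ha) (rfl | hb)
    · left; simp
    · left; simp
    · left; simp
    · by_cases ha0 : a = 0
      · left; simp [ha0]
      by_cases hb0 : b = 0
      · left; simp [hb0]
      right
      rw [RatFunc.intDegree_mul ha0 hb0]
      omega
  one_mem' := Or.inr (by simp)
  add_mem' := by
    rintro a b (rfl | ha) (rfl | hb)
    · left; simp
    · right; simpa using hb
    · right; simpa using ha
    · by_cases hab : a + b = 0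
      · left; exact hab
      by_cases hb0 : b = 0
      · right; simpa [hb0] using ha
      right
      exact (RatFunc.intDegree_add_le hb0 hab).trans (max_le ha hb)
  zero_mem' := Or.inl rfl
  neg_mem' := by
    rintro a (rfl | ha)
    · left; simp
    · right; rwa [RatFunc.intDegree_neg]
  mem_or_inv_mem' := by
    intro x
    by_cases hx : x.intDegree ≤ 0
    · left; right; exact hx
    · right; right
      rw [RatFunc.intDegree_inv]
      omega

variable {K}

theorem mem_Oinf_iff {f : RatFunc K} : f ∈ Oinf K ↔ f = 0 ∨ f.intDegree ≤ 0 := Iff.rfl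

theorem mem_Oinf_of_ne_zero {f : RatFunc K} (hf : f ≠ 0) : f ∈ Oinf K ↔ f.intDegree ≤ 0 := by
  rw [mem_Oinf_iff, or_iff_right hf]

theorem C_mem_Oinf (c : K) : RatFunc.C c ∈ Oinf K := Or.inr (by simp)

theorem algebraMap_mem_Oinf (c : K) : algebraMap K (RatFunc K) c ∈ Oinf K := by
  rw [RatFunc.algebraMap_eq_C]; exact C_mem_Oinf c

theorem X_zpow_mem_Oinf {m : ℤ} (hm : m ≤ 0) : (RatFunc.X ^ m : RatFunc K) ∈ Oinf K :=
  Or.inr (by rw [intDegree_X_zpow]; exact hm)

theorem X_zpow_mul_mem_Oinf {m : ℤ} {f : RatFunc K} (hf : f ≠ 0) :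
    RatFunc.X ^ m * f ∈ Oinf K ↔ m + f.intDegree ≤ 0 := by
  rw [mem_Oinf_of_ne_zero (mul_ne_zero (zpow_ne_zero _ RatFunc.X_ne_zero) hf),
    intDegree_X_zpow_mul m hf]

/-- The "nonunits" of `Oinf`, described by degrees. -/
def IsSmall (f : RatFunc K) : Prop := f = 0 ∨ f.intDegree < 0

theorem IsSmall.mem_Oinf {f : RatFunc K} (h : IsSmall f) : f ∈ Oinf K := by
  rcases h with h | h
  · exact Or.inl h
  · exact Or.inr h.le

theorem isSmall_zero : IsSmall (0 : RatFunc K) := Or.inl rfl

theorem IsSmall.add {f g : RatFunc K} (hf : IsSmall f) (hg : IsSmall g) : IsSmall (f + g) := by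
  rcases hf with rfl | hf
  · simpa using hg
  rcases hg with rfl | hg
  · rw [add_zero]; exact Or.inr hf
  by_cases hfg : f + g = 0
  · exact Or.inl hfg
  by_cases hg0 : g = 0
  · subst hg0; rw [add_zero]; exact Or.inr hf
  right
  exact (RatFunc.intDegree_add_le hg0 hfg).trans_lt (max_lt hf hg)

theorem IsSmall.neg {f : RatFunc K} (hf : IsSmall f) : IsSmall (-f) := by
  rcases hf with rfl | hf
  · simpa using isSmall_zero
  · right; rwa [RatFunc.intDegree_neg]

theorem IsSmall.sub {f g : RatFunc K} (hf : IsSmall f) (hg : IsSmall g) : IsSmall (f - g) := by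
  rw [sub_eq_add_neg]; exact hf.add hg.neg

theorem IsSmall.mul_mem {f g : RatFunc K} (hf : IsSmall f) (hg : g ∈ Oinf K) :
    IsSmall (g * f) := by
  rcases hf with rfl | hf
  · left; simp
  rcases hg with rfl | hg
  · left; simp
  by_cases hf0 : f = 0
  · left; simp [hf0]
  by_cases hg0 : g = 0
  · left; simp [hg0]
  right
  rw [RatFunc.intDegree_mul hg0 hf0]
  omega

theorem isSmall_sum {ι : Type*} (s : Finset ι) (f : ι → RatFunc K) (h : ∀ i ∈ s, IsSmall (f i)) :
    IsSmall (∑ i ∈ s, f i) := by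
  classical
  induction s using Finset.induction_on with
  | empty => simpa using isSmall_zero
  | insert a s ha ih =>
    rw [Finset.sum_insert ha]
    exact (h a (Finset.mem_insert_self a s)).add
      (ih fun i hi => h i (Finset.mem_insert_of_mem hi))

theorem isSmall_iff_X_mul_mem {f : RatFunc K} : IsSmall f ↔ RatFunc.X * f ∈ Oinf K := by
  by_cases hf : f = 0
  · subst hf; simp [isSmall_zero, (Oinf K).zero_mem]
  have := X_zpow_mul_mem_Oinf (m := 1) hf
  rw [zpow_one] at this
  rw [this, IsSmall, or_iff_right hf]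
  omega

/-- An element of `Oinf` is a unit iff it is not small. -/
theorem isUnit_iff_not_isSmall (f : Oinf K) : IsUnit f ↔ ¬ IsSmall (f : RatFunc K) := by
  constructor
  · rintro ⟨u, rfl⟩ hs
    have h1 : ((u : Oinf K) : RatFunc K) * ((u⁻¹ : (Oinf K)ˣ) : Oinf K) = 1 := by
      have := u.mul_inv
      exact_mod_cast congrArg (Subtype.val) this
    have hsmall : IsSmall (1 : RatFunc K) := by
      rw [← h1, mul_comm]
      exact hs.mul_mem (SetLike.coe_mem _)
    rcases hsmall with h | h
    · exact one_ne_zero h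
    · simp at h
  · intro hs
    have hf0 : (f : RatFunc K) ≠ 0 := fun h => hs (Or.inl h)
    have hdeg : (f : RatFunc K).intDegree = 0 := by
      have h1 := (mem_Oinf_of_ne_zero hf0).mp f.2
      have h2 : ¬ (f : RatFunc K).intDegree < 0 := fun h => hs (Or.inr h)
      omega
    have hinv : (f : RatFunc K)⁻¹ ∈ Oinf K := by
      rw [mem_Oinf_of_ne_zero (inv_ne_zero hf0), RatFunc.intDegree_inv, hdeg]
      simp
    refine IsUnit.of_mul_eq_one ⟨_, hinv⟩ ?_
    apply Subtype.ext
    show (f : RatFunc K) * (f : RatFunc K)⁻¹ = 1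
    exact mul_inv_cancel₀ hf0

theorem mem_nonunits_iff_isSmall (f : Oinf K) :
    f ∈ nonunits (Oinf K) ↔ IsSmall (f : RatFunc K) := by
  rw [mem_nonunits_iff, isUnit_iff_not_isSmall, not_not]

theorem mem_maximalIdeal_iff_isSmall (f : Oinf K) :
    f ∈ IsLocalRing.maximalIdeal (Oinf K) ↔ IsSmall (f : RatFunc K) := by
  rw [IsLocalRing.mem_maximalIdeal]; exact mem_nonunits_iff_isSmall f

/-- Degree of a quotient of polynomials. -/
theorem intDegree_div_polynomial {p q : K[X]} (hp : p ≠ 0) (hq : q ≠ 0) :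
    (algebraMap K[X] (RatFunc K) p / algebraMap K[X] (RatFunc K) q).intDegree
      = p.natDegree - q.natDegree := by
  have hp' : algebraMap K[X] (RatFunc K) p ≠ 0 := by simpa using hp
  have hq' : algebraMap K[X] (RatFunc K) q ≠ 0 := by simpa using hq
  rw [RatFunc.intDegree_div hp' hq', RatFunc.intDegree_polynomial, RatFunc.intDegree_polynomial]

/-- Every element of `Oinf` is congruent to a constant modulo small elements. -/
theorem exists_C_sub_isSmall {f : RatFunc K} (hf : f ∈ Oinf K) :
    ∃ c : K, IsSmall (f - RatFunc.C c) := by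
  by_cases hf0 : f = 0
  · exact ⟨0, by simp [hf0, isSmall_zero]⟩
  have hdeg := (mem_Oinf_of_ne_zero hf0).mp hf
  set p := f.num with hp
  set q := f.denom with hq
  have hq0 : q ≠ 0 := f.denom_ne_zero
  have hqm : q.Monic := f.monic_denom
  have hp0 : p ≠ 0 := by rw [hp]; simpa using hf0
  have hpq : (p.natDegree : ℤ) - q.natDegree ≤ 0 := by
    have := hdeg
    rwa [RatFunc.intDegree] at this
  have hpq' : p.natDegree ≤ q.natDegree := by omega
  refine ⟨p.coeff q.natDegree, ?_⟩
  set c := p.coeff q.natDegree with hc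
  set r := p - Polynomial.C c * q with hr
  have hfr : f - RatFunc.C c = algebraMap K[X] (RatFunc K) r / algebraMap K[X] (RatFunc K) q := by
    have hq' : algebraMap K[X] (RatFunc K) q ≠ 0 := by simpa using hq0
    rw [eq_div_iff hq', sub_mul, hr, map_sub, map_mul]
    congr 1
    conv_lhs => rw [← RatFunc.num_div_denom f]
    rw [div_mul_cancel₀ _ hq']
  by_cases hr0 : r = 0
  · left; rw [hfr, hr0]; simp
  right
  rw [hfr, intDegree_div_polynomial hr0 hq0]
  have h1 : r.natDegree ≤ q.natDegree := by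
    rw [hr]
    refine (Polynomial.natDegree_sub_le _ _).trans (max_le hpq' ?_)
    exact (Polynomial.natDegree_C_mul_le _ _)
  have h2 : r.coeff q.natDegree = 0 := by
    rw [hr, Polynomial.coeff_sub, Polynomial.coeff_C_mul, Polynomial.coeff_natDegree,
      hqm.leadingCoeff, mul_one, hc, sub_self]
  have h3 : r.natDegree ≠ q.natDegree := by
    intro h
    apply hr0
    rw [← Polynomial.leadingCoeff_eq_zero, Polynomial.leadingCoeff, h, h2]
  have : r.natDegree < q.natDegree := lt_of_le_of_ne h1 h3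
  omega

variable (K)

instance Oinf_isPrincipalIdealRing : IsPrincipalIdealRing (Oinf K) := by
  refine ⟨fun I => ?_⟩
  by_cases hI : I = ⊥
  · rw [hI]; exact bot_isPrincipal
  obtain ⟨g, hgI, hg0⟩ : ∃ g ∈ I, g ≠ 0 := by
    by_contra h
    push Not at h
    exact hI ((Submodule.eq_bot_iff I).mpr h)
  -- the set of degrees of nonzero elements of `I` is bounded above by `0`
  have hbdd : ∃ b : ℤ, ∀ z : ℤ, (∃ f ∈ I, f ≠ 0 ∧ (f : RatFunc K).intDegree = z) → z ≤ b := by
    refine ⟨0, ?_⟩
    rintro z ⟨f, -, hf0, rfl⟩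
    have hf0' : (f : RatFunc K) ≠ 0 := fun h => hf0 (Subtype.ext h)
    exact (mem_Oinf_of_ne_zero hf0').mp f.2
  obtain ⟨m, ⟨f₀, hf₀I, hf₀0, hf₀m⟩, hmax⟩ :=
    Int.exists_greatest_of_bdd hbdd ⟨_, g, hgI, hg0, rfl⟩
  have hf₀0' : (f₀ : RatFunc K) ≠ 0 := fun h => hf₀0 (Subtype.ext h)
  refine ⟨⟨f₀, ?_⟩⟩
  apply le_antisymm
  · intro h hh
    rw [Submodule.mem_span_singleton]
    by_cases hh0 : h = 0
    · exact ⟨0, by simp [hh0]⟩
    have hh0' : (h : RatFunc K) ≠ 0 := fun e => hh0 (Subtype.ext e)
    have hle : (h : RatFunc K).intDegree ≤ m := hmax _ ⟨h, hh, hh0, rfl⟩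
    have hq : (h : RatFunc K) / (f₀ : RatFunc K) ∈ Oinf K := by
      rw [mem_Oinf_of_ne_zero (div_ne_zero hh0' hf₀0'), RatFunc.intDegree_div hh0' hf₀0', hf₀m]
      omega
    refine ⟨⟨_, hq⟩, ?_⟩
    apply Subtype.ext
    show (h : RatFunc K) / (f₀ : RatFunc K) * (f₀ : RatFunc K) = h
    exact div_mul_cancel₀ _ hf₀0'
  · rw [Submodule.span_le, Set.singleton_subset_iff]
    exact hf₀I

instance Oinf_isDedekindDomain : IsDedekindDomain (Oinf K) := inferInstance

/-- The constants embed in `Oinf`. -/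
noncomputable instance Oinf_algebra : Algebra K (Oinf K) :=
  ((algebraMap K (RatFunc K)).codRestrict (Oinf K).toSubring algebraMap_mem_Oinf).toAlgebra

@[simp]
theorem coe_algebraMap_Oinf (c : K) :
    ((algebraMap K (Oinf K) c : Oinf K) : RatFunc K) = algebraMap K (RatFunc K) c := rfl

instance Oinf_isScalarTower : IsScalarTower K (Oinf K) (RatFunc K) :=
  IsScalarTower.of_algebraMap_eq fun _ => rfl

/-- The residue field of `Oinf` is `K`. -/
theorem residue_algebraMap_surjective :
    Function.Surjective (fun c : K => IsLocalRing.residue (Oinf K) (algebraMap K (Oinf K) c)) := by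
  intro y
  obtain ⟨f, rfl⟩ := IsLocalRing.residue_surjective y
  obtain ⟨c, hc⟩ := exists_C_sub_isSmall f.2
  refine ⟨c, ?_⟩
  symm
  rw [← sub_eq_zero, ← map_sub, IsLocalRing.residue_eq_zero_iff, mem_maximalIdeal_iff_isSmall]
  have : ((f - algebraMap K (Oinf K) c : Oinf K) : RatFunc K) = (f : RatFunc K) - RatFunc.C c := by
    rw [← RatFunc.algebraMap_eq_C]; rfl
  rw [this]
  exact hc

end Fermat.Agent.FF.RR
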