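import Mathlib
import Fermat.Agent.FF.RR_helper3_Oinf
import Fermat.Agent.FF.RR_helper3_LinAlg

/-!
# Cohomology of the line bundles `O(-d)` on the projective line

Inside `E = K(X)` we consider the `K`-subspaces `polyK = K[X]` and
`oinfK d = X^{-d} Oinf`. Then `dim (polyK ⊓ oinfK d) = max 0 (1 - d)` and
`dim E / (polyK ⊔ oinfK d) = max 0 (d - 1)`.
-/

set_option autoImplicit false
set_option linter.style.haveILetI false

namespace Fermat.Agent.FF.RR

open Polynomial Module

variable (K : Type*) [Field K]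

/-- the polynomials inside `K(X)`, as a `K`-subspace -/
noncomputable def polyK : Submodule K (RatFunc K) :=
  LinearMap.range ((Algebra.linearMap K[X] (RatFunc K)).restrictScalars K)

/-- `X^{-d} Oinf`, as a `K`-subspace of `K(X)` -/
def oinfK (d : ℤ) : Submodule K (RatFunc K) where
  carrier := {c | RatFunc.X ^ d * c ∈ Oinf K}
  add_mem' := by
    intro a b ha hb
    show RatFunc.X ^ d * (a + b) ∈ Oinf K
    rw [mul_add]; exact add_mem ha hb
  zero_mem' := by
    show RatFunc.X ^ d * 0 ∈ Oinf K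
    rw [mul_zero]; exact (Oinf K).zero_mem
  smul_mem' := by
    intro c x hx
    show RatFunc.X ^ d * (c • x) ∈ Oinf K
    rw [Algebra.smul_def, mul_left_comm]
    exact mul_mem (algebraMap_mem_Oinf c) hx

variable {K}

theorem mem_polyK {f : RatFunc K} :
    f ∈ polyK K ↔ ∃ p : K[X], algebraMap K[X] (RatFunc K) p = f := by
  simp [polyK, LinearMap.mem_range]

theorem algebraMap_mem_polyK (p : K[X]) : algebraMap K[X] (RatFunc K) p ∈ polyK K :=
  mem_polyK.mpr ⟨p, rfl⟩

theorem mem_oinfK {d : ℤ} {c : RatFunc K} : c ∈ oinfK K d ↔ RatFunc.X ^ d * c ∈ Oinf K := Iff.rfl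

theorem oinfK_antitone {d d' : ℤ} (h : d ≤ d') : oinfK K d' ≤ oinfK K d := by
  intro c hc
  rw [mem_oinfK] at hc ⊢
  have : (RatFunc.X : RatFunc K) ^ d * c = RatFunc.X ^ (d - d') * (RatFunc.X ^ d' * c) := by
    rw [← mul_assoc, ← zpow_add₀ RatFunc.X_ne_zero]; congr 2; ring
  rw [this]
  exact mul_mem (X_zpow_mem_Oinf (by omega)) hc

theorem X_zpow_neg_mem_oinfK (d : ℤ) : (RatFunc.X : RatFunc K) ^ (-d) ∈ oinfK K d := by
  rw [mem_oinfK, ← zpow_add₀ RatFunc.X_ne_zero, add_neg_cancel, zpow_zero]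
  exact (Oinf K).one_mem

theorem algebraMap_mem_oinfK_iff {d : ℤ} {p : K[X]} (hp : p ≠ 0) :
    algebraMap K[X] (RatFunc K) p ∈ oinfK K d ↔ d + p.natDegree ≤ 0 := by
  have hp' : algebraMap K[X] (RatFunc K) p ≠ 0 := by simpa using hp
  rw [mem_oinfK, X_zpow_mul_mem_Oinf hp', RatFunc.intDegree_polynomial]

/-- `H⁰(O(-d))`: polynomials of degree `≤ -d`. -/
theorem finrank_polyK_inf_oinfK (d : ℤ) :
    FiniteDimensional K ↥(polyK K ⊓ oinfK K d) ∧
      finrank K ↥(polyK K ⊓ oinfK K d) = (1 - d).toNat := by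
  set n := (1 - d).toNat with hn
  set φ : ↥(Polynomial.degreeLT K n) →ₗ[K] RatFunc K :=
    ((Algebra.linearMap K[X] (RatFunc K)).restrictScalars K).comp (Polynomial.degreeLT K n).subtype
    with hφ
  have hinj : Function.Injective φ := by
    intro a b hab
    apply Subtype.ext
    exact RatFunc.algebraMap_injective K (by simpa [hφ] using hab)
  have hrange : LinearMap.range φ = polyK K ⊓ oinfK K d := by
    apply le_antisymm
    · rintro _ ⟨⟨p, hp⟩, rfl⟩
      refine ⟨algebraMap_mem_polyK p, ?_⟩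
      show algebraMap K[X] (RatFunc K) p ∈ oinfK K d
      by_cases hp0 : p = 0
      · rw [hp0, map_zero]; exact (oinfK K d).zero_mem
      rw [algebraMap_mem_oinfK_iff hp0]
      rw [Polynomial.mem_degreeLT, Polynomial.degree_eq_natDegree hp0] at hp
      have : p.natDegree < n := by exact_mod_cast hp
      omega
    · rintro f ⟨hf1, hf2⟩
      obtain ⟨p, rfl⟩ := mem_polyK.mp hf1
      by_cases hp0 : p = 0
      · rw [hp0, map_zero]; exact (LinearMap.range φ).zero_mem
      rw [SetLike.mem_coe, algebraMap_mem_oinfK_iff hp0] at hf2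
      refine ⟨⟨p, ?_⟩, rfl⟩
      rw [Polynomial.mem_degreeLT, Polynomial.degree_eq_natDegree hp0]
      have : p.natDegree < n := by omega
      exact_mod_cast this
  rw [← hrange]
  have e := LinearEquiv.ofInjective φ hinj
  refine ⟨Module.Finite.equiv e, ?_⟩
  rw [← e.finrank_eq, (Polynomial.degreeLTEquiv K n).finrank_eq, Module.finrank_fin_fun]

theorem oinfK_eq_succ_sup (d : ℤ) :
    oinfK K d = oinfK K (d + 1) ⊔ K ∙ ((RatFunc.X : RatFunc K) ^ (-d)) := by
  apply le_antisymm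
  · intro c hc
    rw [mem_oinfK] at hc
    obtain ⟨a, ha⟩ := exists_C_sub_isSmall hc
    rw [Submodule.mem_sup]
    refine ⟨c - a • RatFunc.X ^ (-d), ?_, a • RatFunc.X ^ (-d),
      Submodule.smul_mem _ _ (Submodule.mem_span_singleton_self _), by abel⟩
    rw [mem_oinfK, zpow_add₀ RatFunc.X_ne_zero, zpow_one, mul_comm _ RatFunc.X, mul_assoc,
      ← isSmall_iff_X_mul_mem]
    convert ha using 1
    rw [mul_sub, Algebra.smul_def, mul_left_comm, ← zpow_add₀ RatFunc.X_ne_zero, add_neg_cancel,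
      zpow_zero, mul_one, RatFunc.algebraMap_eq_C]
  · refine sup_le (oinfK_antitone (by omega)) ?_
    rw [Submodule.span_singleton_le_iff_mem]
    exact X_zpow_neg_mem_oinfK d

theorem polyK_sup_oinfK_one : polyK K ⊔ oinfK K 1 = ⊤ := by
  rw [eq_top_iff]
  intro f _
  set p := f.num with hp
  set q := f.denom with hq
  have hq0 : q ≠ 0 := f.denom_ne_zero
  have hqm : q.Monic := f.monic_denom
  have hq' : algebraMap K[X] (RatFunc K) q ≠ 0 := by simpa using hq0
  have hf : f = algebraMap K[X] (RatFunc K) (p /ₘ q)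
      + algebraMap K[X] (RatFunc K) (p %ₘ q) / algebraMap K[X] (RatFunc K) q := by
    have h1 : algebraMap K[X] (RatFunc K) p / algebraMap K[X] (RatFunc K) q = f :=
      RatFunc.num_div_denom f
    have h2 := Polynomial.modByMonic_add_div p q
    conv_lhs => rw [← h1, ← h2]
    rw [map_add, map_mul, add_div, mul_div_cancel_left₀ _ hq', add_comm]
  rw [hf, Submodule.mem_sup]
  refine ⟨_, algebraMap_mem_polyK _, _, ?_, rfl⟩
  rw [mem_oinfK, zpow_one]
  by_cases hr0 : p %ₘ q = 0
  · rw [hr0, map_zero, zero_div, mul_zero]; exact (Oinf K).zero_mem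
  have hr' : algebraMap K[X] (RatFunc K) (p %ₘ q) ≠ 0 := by simpa using hr0
  rw [mem_Oinf_of_ne_zero (mul_ne_zero RatFunc.X_ne_zero (div_ne_zero hr' hq')),
    RatFunc.intDegree_mul RatFunc.X_ne_zero (div_ne_zero hr' hq'), RatFunc.intDegree_X,
    intDegree_div_polynomial hr0 hq0]
  have := Polynomial.natDegree_modByMonic_lt p hqm (by
    intro h1
    apply hr0
    rw [h1, Polynomial.modByMonic_one])
  omega

theorem X_zpow_neg_notMem {d : ℤ} (hd : 1 ≤ d) :
    (RatFunc.X : RatFunc K) ^ (-d) ∉ polyK K ⊔ oinfK K (d + 1) := by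
  intro h
  obtain ⟨a, ha, g, hg, hag⟩ := Submodule.mem_sup.mp h
  obtain ⟨p, rfl⟩ := mem_polyK.mp ha
  rw [mem_oinfK, zpow_add₀ RatFunc.X_ne_zero, zpow_one, mul_comm _ RatFunc.X, mul_assoc,
    ← isSmall_iff_X_mul_mem] at hg
  have h1 : (RatFunc.X : RatFunc K) ^ d * algebraMap K[X] (RatFunc K) p
      = 1 - RatFunc.X ^ d * g := by
    have : (RatFunc.X : RatFunc K) ^ d * RatFunc.X ^ (-d) = 1 := by
      rw [← zpow_add₀ RatFunc.X_ne_zero, add_neg_cancel, zpow_zero]
    rw [← this, ← hag, mul_add]; ring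
  by_cases hp0 : p = 0
  · rw [hp0, map_zero, mul_zero] at h1
    have : IsSmall (1 : RatFunc K) := by
      have h2 : (1 : RatFunc K) = RatFunc.X ^ d * g := by linear_combination -h1
      rw [h2]; exact hg
    rcases this with h | h
    · exact one_ne_zero h
    · simp at h
  · have hp' : algebraMap K[X] (RatFunc K) p ≠ 0 := by simpa using hp0
    have hmem : (RatFunc.X : RatFunc K) ^ d * algebraMap K[X] (RatFunc K) p ∈ Oinf K := by
      rw [h1]; exact sub_mem (Oinf K).one_mem hg.mem_Oinf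
    rw [X_zpow_mul_mem_Oinf hp', RatFunc.intDegree_polynomial] at hmem
    omega

/-- `H¹(O(-d))` for `d = n + 1`. -/
theorem finrank_quotient_succ (n : ℕ) :
    FiniteDimensional K (RatFunc K ⧸ (polyK K ⊔ oinfK K (n + 1))) ∧
      finrank K (RatFunc K ⧸ (polyK K ⊔ oinfK K (n + 1))) = n := by
  induction n with
  | zero =>
    have : polyK K ⊔ oinfK K ((0 : ℕ) + 1) = ⊤ := by
      simpa using polyK_sup_oinfK_one (K := K)
    rw [this]
    haveI : Subsingleton (RatFunc K ⧸ (⊤ : Submodule K (RatFunc K))) :=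
      Submodule.Quotient.subsingleton_iff.mpr rfl
    exact ⟨inferInstance, finrank_zero_of_subsingleton⟩
  | succ n ih =>
    obtain ⟨hfin, hrank⟩ := ih
    set U := polyK K ⊔ oinfK K ((n + 1 : ℕ) + 1) with hU
    have hsup : U ⊔ K ∙ ((RatFunc.X : RatFunc K) ^ (-((n : ℤ) + 1)))
        = polyK K ⊔ oinfK K (n + 1) := by
      rw [hU, sup_assoc]
      congr 1
      have := oinfK_eq_succ_sup (K := K) ((n : ℤ) + 1)
      rw [this]
      push_cast
      rfl
    have hnot : (RatFunc.X : RatFunc K) ^ (-((n : ℤ) + 1)) ∉ U := by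
      have := X_zpow_neg_notMem (K := K) (d := (n : ℤ) + 1) (by omega)
      rw [hU]; push_cast; exact this
    haveI : FiniteDimensional K (RatFunc K ⧸ (U ⊔ K ∙ ((RatFunc.X : RatFunc K) ^ (-((n : ℤ) + 1))))) := by
      rw [hsup]; exact hfin
    obtain ⟨h1, h2⟩ := finrank_quotient_of_sup_span_singleton hnot
    refine ⟨h1, ?_⟩
    rw [h2]
    have : finrank K (RatFunc K ⧸ (U ⊔ K ∙ ((RatFunc.X : RatFunc K) ^ (-((n : ℤ) + 1)))))
        = finrank K (RatFunc K ⧸ (polyK K ⊔ oinfK K (n + 1))) := by rw [hsup]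
    rw [this, hrank]

/-- `H¹(O(-d))` has dimension `max 0 (d - 1)`. -/
theorem finrank_quotient_polyK_sup_oinfK (d : ℤ) :
    FiniteDimensional K (RatFunc K ⧸ (polyK K ⊔ oinfK K d)) ∧
      finrank K (RatFunc K ⧸ (polyK K ⊔ oinfK K d)) = (d - 1).toNat := by
  by_cases hd : 1 ≤ d
  · obtain ⟨n, rfl⟩ : ∃ n : ℕ, d = n + 1 := ⟨(d - 1).toNat, by omega⟩
    have := finrank_quotient_succ (K := K) n
    refine ⟨this.1, ?_⟩
    rw [this.2]; simp
  · have htop : polyK K ⊔ oinfK K d = ⊤ := by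
      rw [eq_top_iff, ← polyK_sup_oinfK_one]
      exact sup_le_sup_left (oinfK_antitone (by omega)) _
    rw [htop]
    haveI : Subsingleton (RatFunc K ⧸ (⊤ : Submodule K (RatFunc K))) :=
      Submodule.Quotient.subsingleton_iff.mpr rfl
    refine ⟨inferInstance, ?_⟩
    rw [finrank_zero_of_subsingleton]
    omega

end Fermat.Agent.FF.RR
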