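import Mathlib
import Fermat.Agent.FF.RR_helper3_RankOne

/-!
# Cohomology of a pair of lattices admitting a reduced basis

For a basis `v` of `F` over `E = K(X)` and integers `d j`, consider the `K`-subspaces
`latI v = ⊕ K[X] v_j` and `latJ v d = ⊕ X^{-d_j} Oinf v_j` of `F`. Then
`dim (latI ⊓ latJ) = ∑ max 0 (1 - d_j)` and `dim F / (latI ⊔ latJ) = ∑ max 0 (d_j - 1)`.
-/

set_option autoImplicit false
set_option linter.style.haveILetI false
set_option linter.unusedSectionVars false

namespace Fermat.Agent.FF.RR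

open Polynomial Module

section Pi

variable {K : Type*} [Field K] {ι : Type*} {M : ι → Type*} [∀ j, AddCommGroup (M j)]
  [∀ j, Module K (M j)]

/-- `Submodule.pi` is the product of the subspaces -/
def piSubmoduleEquiv (S : ∀ j, Submodule K (M j)) :
    ↥(Submodule.pi Set.univ S) ≃ₗ[K] ∀ j, S j where
  toFun f := fun j => ⟨f.1 j, f.2 j (Set.mem_univ j)⟩
  invFun g := ⟨fun j => (g j : M j), fun j _ => (g j).2⟩
  map_add' _ _ := rfl
  map_smul' _ _ := rfl
  left_inv _ := rfl
  right_inv _ := rfl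

theorem pi_sup_pi (S T : ∀ j, Submodule K (M j)) :
    Submodule.pi Set.univ S ⊔ Submodule.pi Set.univ T
      = Submodule.pi Set.univ fun j => S j ⊔ T j := by
  apply le_antisymm
  · refine sup_le ?_ ?_
    · intro f hf j hj; exact (le_sup_left : S j ≤ S j ⊔ T j) (hf j hj)
    · intro f hf j hj; exact (le_sup_right : T j ≤ S j ⊔ T j) (hf j hj)
  · intro f hf
    have : ∀ j, ∃ a ∈ S j, ∃ b ∈ T j, a + b = f j := fun j =>
      Submodule.mem_sup.mp (hf j (Set.mem_univ j))
    choose a ha b hb hab using this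
    rw [Submodule.mem_sup]
    exact ⟨a, fun j _ => ha j, b, fun j _ => hb j, funext hab⟩

theorem pi_inf_pi (S T : ∀ j, Submodule K (M j)) :
    Submodule.pi Set.univ S ⊓ Submodule.pi Set.univ T
      = Submodule.pi Set.univ fun j => S j ⊓ T j := by
  ext f
  simp only [Submodule.mem_inf, Submodule.mem_pi, Set.mem_univ, forall_true_left]
  exact ⟨fun h j => ⟨h.1 j, h.2 j⟩, fun h => ⟨fun j => (h j).1, fun j => (h j).2⟩⟩

end Pi

variable {K : Type*} [Field K] {F : Type*} [Field F] [Algebra K F] [Algebra (RatFunc K) F]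
  [IsScalarTower K (RatFunc K) F] {ι : Type*} [Fintype ι] [DecidableEq ι]

/-- coordinates with respect to a basis, as a `K`-linear equivalence -/
noncomputable def coordEquiv (v : Basis ι (RatFunc K) F) : F ≃ₗ[K] (ι → RatFunc K) :=
  v.equivFun.restrictScalars K

@[simp]
theorem coordEquiv_apply (v : Basis ι (RatFunc K) F) (x : F) (j : ι) :
    coordEquiv v x j = v.repr x j := rfl

/-- `⊕ K[X] v_j` -/
noncomputable def latI (v : Basis ι (RatFunc K) F) : Submodule K F :=
  (Submodule.pi Set.univ fun _ : ι => polyK K).comap (coordEquiv v).toLinearMap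

/-- `⊕ X^{-d_j} Oinf v_j` -/
noncomputable def latJ (v : Basis ι (RatFunc K) F) (d : ι → ℤ) : Submodule K F :=
  (Submodule.pi Set.univ fun j : ι => oinfK K (d j)).comap (coordEquiv v).toLinearMap

theorem mem_latI {v : Basis ι (RatFunc K) F} {x : F} :
    x ∈ latI v ↔ ∀ j, v.repr x j ∈ polyK K := by
  simp [latI, Submodule.mem_pi]

theorem mem_latJ {v : Basis ι (RatFunc K) F} {d : ι → ℤ} {x : F} :
    x ∈ latJ v d ↔ ∀ j, v.repr x j ∈ oinfK K (d j) := by
  simp [latJ, Submodule.mem_pi]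

/-- `H⁰` of a reduced pair -/
theorem finrank_latI_inf_latJ (v : Basis ι (RatFunc K) F) (d : ι → ℤ) :
    FiniteDimensional K ↥(latI v ⊓ latJ v d) ∧
      finrank K ↥(latI v ⊓ latJ v d) = ∑ j, (1 - d j).toNat := by
  have h1 : latI v ⊓ latJ v d =
      (Submodule.pi Set.univ fun j : ι => polyK K ⊓ oinfK K (d j)).comap
        (coordEquiv v).toLinearMap := by
    rw [latI, latJ, ← Submodule.comap_inf, pi_inf_pi]
  rw [h1]
  have e1 := LinearEquiv.ofSubmodule' (coordEquiv v)
    (Submodule.pi Set.univ fun j : ι => polyK K ⊓ oinfK K (d j))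
  have e2 := piSubmoduleEquiv (fun j : ι => polyK K ⊓ oinfK K (d j))
  have e := e1.trans e2
  haveI : ∀ j : ι, FiniteDimensional K ↥(polyK K ⊓ oinfK K (d j)) := fun j =>
    (finrank_polyK_inf_oinfK (d j)).1
  refine ⟨Module.Finite.equiv e.symm, ?_⟩
  rw [e.finrank_eq, Module.finrank_pi_fintype]
  exact Finset.sum_congr rfl fun j _ => (finrank_polyK_inf_oinfK (d j)).2

/-- `H¹` of a reduced pair -/
theorem finrank_quotient_latI_sup_latJ (v : Basis ι (RatFunc K) F) (d : ι → ℤ) :
    FiniteDimensional K (F ⧸ (latI v ⊔ latJ v d)) ∧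
      finrank K (F ⧸ (latI v ⊔ latJ v d)) = ∑ j, (d j - 1).toNat := by
  set P : Submodule K (ι → RatFunc K) :=
    Submodule.pi Set.univ fun j : ι => polyK K ⊔ oinfK K (d j) with hP
  have hmap : Submodule.map (coordEquiv v).toLinearMap (latI v ⊔ latJ v d) = P := by
    rw [Submodule.map_sup, latI, latJ,
      Submodule.map_comap_eq_of_surjective (coordEquiv v).surjective,
      Submodule.map_comap_eq_of_surjective (coordEquiv v).surjective, pi_sup_pi]
  have e1 : (F ⧸ (latI v ⊔ latJ v d)) ≃ₗ[K] ((ι → RatFunc K) ⧸ P) :=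
    Submodule.Quotient.equiv _ _ (coordEquiv v) hmap
  have e2 : ((ι → RatFunc K) ⧸ P) ≃ₗ[K] ∀ j, RatFunc K ⧸ (polyK K ⊔ oinfK K (d j)) :=
    Submodule.quotientPi _
  have e := e1.trans e2
  haveI : ∀ j : ι, FiniteDimensional K (RatFunc K ⧸ (polyK K ⊔ oinfK K (d j))) := fun j =>
    (finrank_quotient_polyK_sup_oinfK (d j)).1
  refine ⟨Module.Finite.equiv e.symm, ?_⟩
  rw [e.finrank_eq, Module.finrank_pi_fintype]
  exact Finset.sum_congr rfl fun j _ => (finrank_quotient_polyK_sup_oinfK (d j)).2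

end Fermat.Agent.FF.RR
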