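import Mathlib
import Fermat.Agent.FF.RR_helper3_Oinf

/-!
# Dedekind–Weber / Birkhoff–Grothendieck reduction of matrices over `K(X)`

Every invertible matrix `G` over `K(X)` can be written as `G * A = C * diag(X^{d_j})` with `A`
unimodular over `K[X]` and `C` unimodular over the valuation ring at infinity.
-/

set_option autoImplicit false

namespace Fermat.Agent.FF.RR

open Polynomial Matrix

variable {K : Type*} [Field K] {ι : Type*} [Fintype ι] [DecidableEq ι]

/-- the diagonal matrix `diag(X^{d_j})` -/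
noncomputable def diagX (d : ι → ℤ) : Matrix ι ι (RatFunc K) :=
  Matrix.diagonal fun j => (RatFunc.X : RatFunc K) ^ d j

theorem prod_zpow_eq_zpow_sum {F : Type*} [Field F] {x : F} (hx : x ≠ 0) {κ : Type*}
    (s : Finset κ) (d : κ → ℤ) : ∏ i ∈ s, x ^ d i = x ^ ∑ i ∈ s, d i := by
  classical
  induction s using Finset.induction_on with
  | empty => simp
  | insert a s ha ih => rw [Finset.prod_insert ha, Finset.sum_insert ha, zpow_add₀ hx, ih]

theorem det_diagX (d : ι → ℤ) : (diagX (K := K) d).det = RatFunc.X ^ (∑ j, d j) := by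
  rw [diagX, Matrix.det_diagonal, prod_zpow_eq_zpow_sum RatFunc.X_ne_zero]

theorem mul_diagX_apply (M : Matrix ι ι (RatFunc K)) (d : ι → ℤ) (i j : ι) :
    (M * (diagX d : Matrix ι ι (RatFunc K))) i j = M i j * RatFunc.X ^ d j := by
  rw [diagX, Matrix.mul_diagonal]

/-- coercion of matrices over `Oinf` -/
noncomputable abbrev coeO (C : Matrix ι ι (Oinf K)) : Matrix ι ι (RatFunc K) :=
  C.map (algebraMap (Oinf K) (RatFunc K))

/-- coercion of matrices over `K[X]` -/
noncomputable abbrev coeP (A : Matrix ι ι K[X]) : Matrix ι ι (RatFunc K) :=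
  A.map (algebraMap K[X] (RatFunc K))

theorem det_coeO (C : Matrix ι ι (Oinf K)) :
    (coeO C).det = algebraMap (Oinf K) (RatFunc K) C.det := by
  rw [coeO, ← RingHom.mapMatrix_apply, ← RingHom.map_det]

theorem det_coeP (A : Matrix ι ι K[X]) :
    (coeP A).det = algebraMap K[X] (RatFunc K) A.det := by
  rw [coeP, ← RingHom.mapMatrix_apply, ← RingHom.map_det]

/-- A non-unimodular matrix over `Oinf` has a nonzero constant vector in the kernel of its
reduction. -/
theorem exists_const_kernel (C : Matrix ι ι (Oinf K)) (hC : ¬ IsUnit C.det) :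
    ∃ l : ι → K, l ≠ 0 ∧ ∀ i, IsSmall (∑ j, (C i j : RatFunc K) * RatFunc.C (l j)) := by
  set res := IsLocalRing.residue (Oinf K) with hres
  set M : Matrix ι ι (IsLocalRing.ResidueField (Oinf K)) := C.map res with hM
  have hdet : M.det = 0 := by
    rw [hM, ← RingHom.mapMatrix_apply, ← RingHom.map_det, hres,
      IsLocalRing.residue_eq_zero_iff, IsLocalRing.mem_maximalIdeal]
    exact hC
  obtain ⟨v, hv0, hv⟩ := Matrix.exists_mulVec_eq_zero_iff.mpr hdet
  choose l hl using fun j => residue_algebraMap_surjective K (v j)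
  refine ⟨l, ?_, fun i => ?_⟩
  · intro h
    apply hv0
    funext j
    rw [← hl j, h]
    simp
  · have h1 : res (∑ j, C i j * algebraMap K (Oinf K) (l j)) = 0 := by
      have := congrFun hv i
      simp only [Matrix.mulVec, dotProduct, Pi.zero_apply] at this
      rw [map_sum]
      rw [← this]
      refine Finset.sum_congr rfl fun j _ => ?_
      rw [map_mul, hM, Matrix.map_apply, ← hl j]
    rw [hres, IsLocalRing.residue_eq_zero_iff, mem_maximalIdeal_iff_isSmall] at h1
    convert h1 using 1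
    push_cast
    refine Finset.sum_congr rfl fun j _ => ?_
    rw [← RatFunc.algebraMap_eq_C]
    rfl

theorem coeO_mul_diagX_apply (C : Matrix ι ι (Oinf K)) (δ : ι → ℤ) (i j : ι) :
    (coeO C * (diagX δ : Matrix ι ι (RatFunc K))) i j = (C i j : RatFunc K) * RatFunc.X ^ δ j := by
  rw [mul_diagX_apply]; rfl

theorem intDegree_mul_C (x : RatFunc K) {c : K} (hc : c ≠ 0) :
    (x * RatFunc.C c).intDegree = x.intDegree := by
  by_cases hx : x = 0
  · simp [hx]
  rw [RatFunc.intDegree_mul hx (by simpa using hc), RatFunc.intDegree_C, add_zero]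

/-- the measure `∑ δ_j - deg det G` equals `- deg det C` -/
theorem det_eq_of_factor {G : Matrix ι ι (RatFunc K)} {δ : ι → ℤ} {C : Matrix ι ι (Oinf K)}
    (hG : G = coeO C * diagX δ) :
    G.det = (C.det : RatFunc K) * RatFunc.X ^ (∑ j, δ j) := by
  rw [hG, Matrix.det_mul, det_coeO, det_diagX]; rfl

theorem reduction_aux (n : ℕ) : ∀ (G : Matrix ι ι (RatFunc K)) (δ : ι → ℤ)
    (C : Matrix ι ι (Oinf K)), G.det ≠ 0 → G = coeO C * diagX δ →
    (∑ j, δ j) - G.det.intDegree ≤ n →
    ∃ (A : Matrix ι ι K[X]) (d : ι → ℤ) (C' : Matrix ι ι (Oinf K)),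
      IsUnit A.det ∧ IsUnit C'.det ∧ G * coeP A = coeO C' * diagX d := by
  classical
  induction n with
  | zero =>
    intro G δ C hdet hG hm
    have hdetG := det_eq_of_factor hG
    have hC0 : (C.det : RatFunc K) ≠ 0 := by
      intro h; apply hdet; rw [hdetG, h, zero_mul]
    have hdeg : G.det.intDegree = (C.det : RatFunc K).intDegree + ∑ j, δ j := by
      rw [hdetG, RatFunc.intDegree_mul hC0 (zpow_ne_zero _ RatFunc.X_ne_zero), intDegree_X_zpow]
    have hunit : IsUnit C.det := by
      rw [isUnit_iff_not_isSmall]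
      rintro (h | h)
      · exact hC0 h
      · push_cast at hm; omega
    exact ⟨1, δ, C, by simp, hunit, by rw [coeP, Matrix.map_one _ (map_zero _) (map_one _),
      mul_one, hG]⟩
  | succ m ih =>
    intro G δ C hdet hG hm
    have hdetG := det_eq_of_factor hG
    have hC0 : (C.det : RatFunc K) ≠ 0 := by
      intro h; apply hdet; rw [hdetG, h, zero_mul]
    have hdeg : G.det.intDegree = (C.det : RatFunc K).intDegree + ∑ j, δ j := by
      rw [hdetG, RatFunc.intDegree_mul hC0 (zpow_ne_zero _ RatFunc.X_ne_zero), intDegree_X_zpow]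
    by_cases hunit : IsUnit C.det
    · exact ⟨1, δ, C, by simp, hunit, by rw [coeP, Matrix.map_one _ (map_zero _) (map_one _),
        mul_one, hG]⟩
    -- the reduction step
    obtain ⟨l, hl0, hl⟩ := exists_const_kernel C hunit
    have hS : (Finset.univ.filter fun j => l j ≠ 0).Nonempty := by
      by_contra h
      rw [Finset.not_nonempty_iff_eq_empty, Finset.filter_eq_empty_iff] at h
      apply hl0
      funext j
      simpa using h (Finset.mem_univ j)
    obtain ⟨j₀, hj₀, hmax⟩ := Finset.exists_max_image _ δ hS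
    rw [Finset.mem_filter] at hj₀
    have hlj₀ : l j₀ ≠ 0 := hj₀.2
    have hmax' : ∀ k, l k ≠ 0 → δ k ≤ δ j₀ := fun k hk =>
      hmax k (Finset.mem_filter.mpr ⟨Finset.mem_univ k, hk⟩)
    set a : ι → K[X] := fun k =>
      if l k = 0 then 0 else Polynomial.C (l k) * Polynomial.X ^ ((δ j₀ - δ k).toNat) with ha
    set A₁ : Matrix ι ι K[X] := (1 : Matrix ι ι K[X]).updateCol j₀ a with hA₁
    have hdetA₁ : A₁.det = Polynomial.C (l j₀) := by
      rw [hA₁, ← Matrix.cramer_apply, Matrix.cramer_one]
      show a j₀ = _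
      simp only [ha, if_neg hlj₀, sub_self, Int.toNat_zero, pow_zero, mul_one]
    have hunitA₁ : IsUnit A₁.det := by
      rw [hdetA₁]; exact Polynomial.isUnit_C.mpr (isUnit_iff_ne_zero.mpr hlj₀)
    set G₁ : Matrix ι ι (RatFunc K) := G * coeP A₁ with hG₁
    set δ₁ : ι → ℤ := Function.update δ j₀ (δ j₀ - 1) with hδ₁
    have hGij : ∀ i j, G i j = (C i j : RatFunc K) * RatFunc.X ^ δ j := fun i j => by
      rw [hG, coeO_mul_diagX_apply]
    -- entries of the new matrix
    have hG₁_ne : ∀ i j, j ≠ j₀ → G₁ i j = G i j := by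
      intro i j hj
      rw [hG₁, Matrix.mul_apply]
      simp only [coeP, Matrix.map_apply, hA₁, Matrix.updateCol_apply, if_neg hj, Matrix.one_apply]
      rw [Finset.sum_eq_single j]
      · simp
      · intro k _ hk; simp [hk]
      · intro h; exact absurd (Finset.mem_univ j) h
    have hG₁_eq : ∀ i, G₁ i j₀ = RatFunc.X ^ δ j₀ *
        ∑ k, (C i k : RatFunc K) * RatFunc.C (l k) := by
      intro i
      rw [hG₁, Matrix.mul_apply, Finset.mul_sum]
      refine Finset.sum_congr rfl fun k _ => ?_
      simp only [coeP, Matrix.map_apply, hA₁, Matrix.updateCol_apply, if_true, ha]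
      by_cases hk : l k = 0
      · simp [hk]
      · rw [if_neg hk, hGij i k, map_mul, map_pow, RatFunc.algebraMap_C, RatFunc.algebraMap_X]
        have hle := hmax' k hk
        have : (RatFunc.X : RatFunc K) ^ δ j₀
            = RatFunc.X ^ δ k * RatFunc.X ^ ((δ j₀ - δ k).toNat) := by
          rw [← zpow_natCast, ← zpow_add₀ RatFunc.X_ne_zero]
          congr 1
          rw [Int.toNat_of_nonneg (by omega)]; ring
        rw [this]; ring
    have hmem : ∀ i j, G₁ i j * RatFunc.X ^ (-δ₁ j) ∈ Oinf K := by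
      intro i j
      by_cases hj : j = j₀
      · subst hj
        rw [hG₁_eq, hδ₁, Function.update_self]
        have hs := hl i
        rw [isSmall_iff_X_mul_mem] at hs
        convert hs using 1
        rw [mul_comm (RatFunc.X ^ δ j), mul_assoc, ← zpow_add₀ RatFunc.X_ne_zero,
          show δ j + -(δ j - 1) = 1 by ring, zpow_one, mul_comm]
      · rw [hG₁_ne i j hj, hδ₁, Function.update_of_ne hj, hGij, mul_assoc,
          ← zpow_add₀ RatFunc.X_ne_zero, add_neg_cancel, zpow_zero, mul_one]
        exact (C i j).2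
    set C₁ : Matrix ι ι (Oinf K) := fun i j => ⟨_, hmem i j⟩ with hC₁
    have hfac : G₁ = coeO C₁ * diagX δ₁ := by
      ext i j
      rw [coeO_mul_diagX_apply]
      show G₁ i j = G₁ i j * RatFunc.X ^ (-δ₁ j) * RatFunc.X ^ δ₁ j
      rw [mul_assoc, ← zpow_add₀ RatFunc.X_ne_zero, neg_add_cancel, zpow_zero, mul_one]
    have hdetG₁ : G₁.det = G.det * RatFunc.C (l j₀) := by
      rw [hG₁, Matrix.det_mul, det_coeP, hdetA₁, RatFunc.algebraMap_C]
    have hdet₁ : G₁.det ≠ 0 := by
      rw [hdetG₁]; exact mul_ne_zero hdet (by simpa using hlj₀)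
    have hsum : ∑ j, δ₁ j = ∑ j, δ j - 1 := by
      rw [hδ₁, Finset.sum_update_of_mem (Finset.mem_univ j₀)]
      have := Finset.add_sum_erase Finset.univ δ (Finset.mem_univ j₀)
      rw [Finset.sdiff_singleton_eq_erase]
      omega
    have hsmall : (C.det : RatFunc K).intDegree < 0 := by
      have := (isUnit_iff_not_isSmall C.det).not.mp hunit
      rw [not_not] at this
      rcases this with h | h
      · exact absurd h hC0
      · exact h
    have hm₁ : (∑ j, δ₁ j) - G₁.det.intDegree ≤ m := by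
      rw [hsum, hdetG₁, intDegree_mul_C _ hlj₀]
      push_cast at hm
      omega
    obtain ⟨A₂, d, C', hA₂, hC', hfin⟩ := ih G₁ δ₁ C₁ hdet₁ hfac hm₁
    refine ⟨A₁ * A₂, d, C', ?_, hC', ?_⟩
    · rw [Matrix.det_mul]; exact hunitA₁.mul hA₂
    · rw [← hfin, hG₁, Matrix.mul_assoc]
      congr 1
      rw [coeP, coeP, coeP, Matrix.map_mul]

/-- **Dedekind–Weber reduction**: every invertible matrix over `K(X)` is
`C * diag(X^d) * A⁻¹` with `A` unimodular over `K[X]` and `C` unimodular over `Oinf`. -/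
theorem exists_reduction (G : Matrix ι ι (RatFunc K)) (hG : G.det ≠ 0) :
    ∃ (A : Matrix ι ι K[X]) (d : ι → ℤ) (C : Matrix ι ι (Oinf K)),
      IsUnit A.det ∧ IsUnit C.det ∧ G * coeP A = coeO C * diagX d := by
  set δ : ι → ℤ := fun j => ∑ i, |(G i j).intDegree| with hδ
  have hmem : ∀ i j, G i j * RatFunc.X ^ (-δ j) ∈ Oinf K := by
    intro i j
    by_cases h0 : G i j = 0
    · rw [h0, zero_mul]; exact (Oinf K).zero_mem
    rw [mul_comm, X_zpow_mul_mem_Oinf h0]
    have : |(G i j).intDegree| ≤ δ j :=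
      Finset.single_le_sum (f := fun i => |(G i j).intDegree|) (fun _ _ => abs_nonneg _)
        (Finset.mem_univ i)
    have h2 := le_abs_self (G i j).intDegree
    omega
  set C : Matrix ι ι (Oinf K) := fun i j => ⟨_, hmem i j⟩ with hC
  have hfac : G = coeO C * diagX δ := by
    ext i j
    rw [coeO_mul_diagX_apply]
    show G i j = G i j * RatFunc.X ^ (-δ j) * RatFunc.X ^ δ j
    rw [mul_assoc, ← zpow_add₀ RatFunc.X_ne_zero, neg_add_cancel, zpow_zero, mul_one]
  have hdetG := det_eq_of_factor hfac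
  have hC0 : (C.det : RatFunc K) ≠ 0 := by
    intro h; apply hG; rw [hdetG, h, zero_mul]
  have hdeg : G.det.intDegree = (C.det : RatFunc K).intDegree + ∑ j, δ j := by
    rw [hdetG, RatFunc.intDegree_mul hC0 (zpow_ne_zero _ RatFunc.X_ne_zero), intDegree_X_zpow]
  have hle : (C.det : RatFunc K).intDegree ≤ 0 := (mem_Oinf_of_ne_zero hC0).mp C.det.2
  exact reduction_aux ((∑ j, δ j) - G.det.intDegree).toNat G δ C hG hfac (Int.self_le_toNat _)

end Fermat.Agent.FF.RR
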