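import Mathlib
import Fermat.Agent.FF.RR_helper3_Reduce
import Fermat.Agent.FF.RR_helper3_Lattice

/-!
# Existence of reduced bases (Dedekind–Weber)

Given two bases `u`, `w` of `F` over `E = K(X)`, the `K[X]`-lattice `latI u` and the
`Oinf`-lattice `latJ w 0` admit a common reduced basis: there are a basis `v` and integers `d`
with `latI v = latI u` and `latJ v d = latJ w 0`.
-/

set_option autoImplicit false
set_option linter.style.haveILetI false
set_option linter.unusedSectionVars false

namespace Fermat.Agent.FF.RR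

open Polynomial Module Matrix

variable {K : Type*} [Field K] {F : Type*} [Field F] [Algebra K F] [Algebra (RatFunc K) F]
  [IsScalarTower K (RatFunc K) F] {ι : Type*} [Fintype ι] [DecidableEq ι]

/-- the basis obtained from `b` by the invertible matrix `M` : `b'_j = ∑_k M_kj b_k` -/
noncomputable def basisOfMatrix (b : Basis ι (RatFunc K) F) (M : Matrix ι ι (RatFunc K))
    (hM : IsUnit M.det) : Basis ι (RatFunc K) F :=
  b.map (Matrix.toLinearEquiv b M hM)

theorem basisOfMatrix_apply (b : Basis ι (RatFunc K) F) (M : Matrix ι ι (RatFunc K))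
    (hM : IsUnit M.det) (j : ι) : basisOfMatrix b M hM j = ∑ k, M k j • b k := by
  rw [basisOfMatrix, Basis.map_apply, Matrix.toLinearEquiv_apply, Matrix.toLin_self]

theorem toMatrix_basisOfMatrix (b : Basis ι (RatFunc K) F) (M : Matrix ι ι (RatFunc K))
    (hM : IsUnit M.det) : b.toMatrix (basisOfMatrix b M hM) = M := by
  ext i j
  rw [Basis.toMatrix_apply, basisOfMatrix_apply, map_sum, Finsupp.coe_finsetSum,
    Finset.sum_apply]
  simp only [map_smul, Finsupp.smul_apply, Basis.repr_self, smul_eq_mul]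
  rw [Finset.sum_eq_single i]
  · simp
  · intro k _ hk; simp [hk]
  · intro h; exact absurd (Finset.mem_univ i) h

theorem toMatrix_basisOfMatrix' (b : Basis ι (RatFunc K) F) (M : Matrix ι ι (RatFunc K))
    (hM : IsUnit M.det) : (basisOfMatrix b M hM).toMatrix b = M⁻¹ := by
  have h1 := Basis.toMatrix_mul_toMatrix_flip b (basisOfMatrix b M hM)
  rw [toMatrix_basisOfMatrix] at h1
  exact (Matrix.inv_eq_right_inv h1).symm

/-- Coordinates in two bases related by matrices with entries in a subring `R₀`: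
a subspace `S` stable under `R₀` gives the same lattice. -/
theorem forall_repr_mem_iff (R₀ : Subring (RatFunc K)) (S : Submodule K (RatFunc K))
    (hS : ∀ r ∈ R₀, ∀ c ∈ S, r * c ∈ S) (b b' : Basis ι (RatFunc K) F)
    (h1 : ∀ i j, b.toMatrix b' i j ∈ R₀) (h2 : ∀ i j, b'.toMatrix b i j ∈ R₀) (x : F) :
    (∀ j, b'.repr x j ∈ S) ↔ ∀ j, b.repr x j ∈ S := by
  constructor
  · intro h j
    have := congrFun (Basis.toMatrix_mulVec_repr b' b x) j
    rw [← this, Matrix.mulVec, dotProduct]
    exact Submodule.sum_mem _ fun k _ => hS _ (h1 j k) _ (h k)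
  · intro h j
    have := congrFun (Basis.toMatrix_mulVec_repr b b' x) j
    rw [← this, Matrix.mulVec, dotProduct]
    exact Submodule.sum_mem _ fun k _ => hS _ (h2 j k) _ (h k)

/-- the subring of polynomials in `K(X)` -/
noncomputable def polyRing (K : Type*) [Field K] : Subring (RatFunc K) :=
  (algebraMap K[X] (RatFunc K)).range

theorem polyRing_mul_mem_polyK {r c : RatFunc K} (hr : r ∈ polyRing K) (hc : c ∈ polyK K) :
    r * c ∈ polyK K := by
  obtain ⟨p, rfl⟩ := hr
  obtain ⟨q, rfl⟩ := mem_polyK.mp hc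
  rw [← map_mul]; exact algebraMap_mem_polyK _

theorem Oinf_mul_mem_oinfK {d : ℤ} {r c : RatFunc K} (hr : r ∈ (Oinf K).toSubring)
    (hc : c ∈ oinfK K d) : r * c ∈ oinfK K d := by
  rw [mem_oinfK] at hc ⊢
  rw [mul_left_comm]
  exact mul_mem hr hc

theorem coeP_inv (A : Matrix ι ι K[X]) (hA : IsUnit A.det) : (coeP A)⁻¹ = coeP A⁻¹ := by
  apply Matrix.inv_eq_right_inv
  rw [coeP, coeP, ← Matrix.map_mul, Matrix.mul_nonsing_inv A hA,
    Matrix.map_one _ (map_zero _) (map_one _)]

theorem coeO_inv (C : Matrix ι ι (Oinf K)) (hC : IsUnit C.det) : (coeO C)⁻¹ = coeO C⁻¹ := by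
  apply Matrix.inv_eq_right_inv
  rw [coeO, coeO, ← Matrix.map_mul, Matrix.mul_nonsing_inv C hC,
    Matrix.map_one _ (map_zero _) (map_one _)]

theorem isUnit_det_coeP (A : Matrix ι ι K[X]) (hA : IsUnit A.det) : IsUnit (coeP A).det := by
  rw [det_coeP]; exact hA.map _

theorem isUnit_det_coeO (C : Matrix ι ι (Oinf K)) (hC : IsUnit C.det) : IsUnit (coeO C).det := by
  rw [det_coeO]; exact hC.map _

theorem latI_basisOfMatrix (b : Basis ι (RatFunc K) F) (A : Matrix ι ι K[X])
    (hA : IsUnit A.det) : latI (basisOfMatrix b (coeP A) (isUnit_det_coeP A hA)) = latI b := by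
  ext x
  rw [mem_latI, mem_latI]
  refine forall_repr_mem_iff (polyRing K) (polyK K) (fun r hr c hc => polyRing_mul_mem_polyK hr hc)
    b _ ?_ ?_ x
  · intro i j
    rw [toMatrix_basisOfMatrix]
    exact ⟨A i j, rfl⟩
  · intro i j
    rw [toMatrix_basisOfMatrix', coeP_inv A hA]
    exact ⟨A⁻¹ i j, rfl⟩

theorem latJ_basisOfMatrix (b : Basis ι (RatFunc K) F) (C : Matrix ι ι (Oinf K))
    (hC : IsUnit C.det) (e : ℤ) :
    latJ (basisOfMatrix b (coeO C) (isUnit_det_coeO C hC)) (fun _ => e) = latJ b fun _ => e := by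
  ext x
  rw [mem_latJ, mem_latJ]
  refine forall_repr_mem_iff (Oinf K).toSubring (oinfK K e)
    (fun r hr c hc => Oinf_mul_mem_oinfK hr hc) b _ ?_ ?_ x
  · intro i j
    rw [toMatrix_basisOfMatrix]
    exact (C i j).2
  · intro i j
    rw [toMatrix_basisOfMatrix', coeO_inv C hC]
    exact (C⁻¹ i j).2

/-- scaling the basis vectors by powers of `X` shifts the exponents -/
theorem latJ_isUnitSMul (b : Basis ι (RatFunc K) F) (d e : ι → ℤ) :
    latJ (b.isUnitSMul fun j => (isUnit_iff_ne_zero.mpr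
      (zpow_ne_zero (d j) (RatFunc.X_ne_zero (K := K))))) (fun j => d j + e j) = latJ b e := by
  ext x
  rw [mem_latJ, mem_latJ]
  refine forall_congr' fun j => ?_
  rw [Basis.repr_isUnitSMul, mem_oinfK, mem_oinfK, Units.smul_def, smul_eq_mul]
  have : ((IsUnit.unit (isUnit_iff_ne_zero.mpr
      (zpow_ne_zero (d j) (RatFunc.X_ne_zero (K := K)))))⁻¹ : (RatFunc K)ˣ).val
      = (RatFunc.X : RatFunc K) ^ (-d j) := by
    rw [Units.val_inv_eq_inv_val, IsUnit.unit_spec, _root_.zpow_neg]
  rw [this, ← mul_assoc, ← zpow_add₀ RatFunc.X_ne_zero]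
  have h3 : d j + e j + -d j = e j := by ring
  rw [h3]

/-- **Existence of a reduced basis.** -/
theorem exists_reduced (u w : Basis ι (RatFunc K) F) :
    ∃ (v : Basis ι (RatFunc K) F) (d : ι → ℤ),
      latI v = latI u ∧ latJ v d = latJ w fun _ => 0 := by
  set G : Matrix ι ι (RatFunc K) := w.toMatrix u with hG
  have hdetG : G.det ≠ 0 := by
    have h := Basis.toMatrix_mul_toMatrix_flip u w
    exact Matrix.det_ne_zero_of_left_inverse h
  obtain ⟨A, d, C, hA, hC, hfac⟩ := exists_reduction G hdetG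
  set v := basisOfMatrix u (coeP A) (isUnit_det_coeP A hA) with hv
  set w' := basisOfMatrix w (coeO C) (isUnit_det_coeO C hC) with hw'
  refine ⟨v, d, latI_basisOfMatrix u A hA, ?_⟩
  -- `v j = X^(d j) • w' j`
  have hvw : v = w'.isUnitSMul fun j => (isUnit_iff_ne_zero.mpr
      (zpow_ne_zero (d j) (RatFunc.X_ne_zero (K := K)))) := by
    apply Basis.eq_of_apply_eq
    intro j
    rw [Basis.isUnitSMul_apply, hv, hw', basisOfMatrix_apply, basisOfMatrix_apply]
    -- expand `u k` in the basis `w`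
    have hu : ∀ k, u k = ∑ i, G i k • w i := fun k => (Basis.sum_toMatrix_smul_self w u k).symm
    simp_rw [hu, Finset.smul_sum, smul_smul]
    rw [Finset.sum_comm]
    refine Finset.sum_congr rfl fun i _ => ?_
    rw [← Finset.sum_smul]
    congr 1
    have := congrFun (congrFun hfac i) j
    rw [Matrix.mul_apply, mul_diagX_apply] at this
    rw [mul_comm (RatFunc.X ^ d j), ← this]
    refine Finset.sum_congr rfl fun k _ => ?_
    rw [mul_comm]
  rw [hvw]
  have h1 := latJ_isUnitSMul w' d (fun _ => 0)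
  simp only [add_zero] at h1
  rw [h1, hw']
  exact latJ_basisOfMatrix w C hC 0

end Fermat.Agent.FF.RR
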