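import Mathlib
import Fermat.Agent.FF.RR_helper3_Reduced

/-!
# Trace duality for lattice pairs (numerical Serre duality)

For a lattice pair `(I, J) = (latI u, latJ w 0)` the dual pair
`(dualLat polyK I, dualLat (oinfK 2) J)` (trace duals, twisted by `X^{-2}` at infinity) satisfies
`dim F / (I ⊔ J) = dim (I^∨ ⊓ X^{-2} J^∨)`.
-/

set_option autoImplicit false
set_option linter.style.haveILetI false
set_option linter.unusedSectionVars false

namespace Fermat.Agent.FF.RR

open Polynomial Module

variable {K : Type*} [Field K] {F : Type*} [Field F] [Algebra K F] [Algebra (RatFunc K) F]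
  [IsScalarTower K (RatFunc K) F] [FiniteDimensional (RatFunc K) F]
  [Algebra.IsSeparable (RatFunc K) F] {ι : Type*} [Fintype ι] [DecidableEq ι]

/-- the dual of a `K`-subspace `L` of `F` with respect to the trace form and a `K`-subspace `S₀` of
`K(X)`: `{z | Tr (z * L) ⊆ S₀}` -/
noncomputable def dualLat (S₀ : Submodule K (RatFunc K)) (L : Submodule K F) : Submodule K F where
  carrier := {z | ∀ y ∈ L, Algebra.trace (RatFunc K) F (z * y) ∈ S₀}
  add_mem' := by
    intro a b ha hb y hy
    rw [add_mul, map_add]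
    exact S₀.add_mem (ha y hy) (hb y hy)
  zero_mem' := by
    intro y _
    rw [zero_mul, map_zero]; exact S₀.zero_mem
  smul_mem' := by
    intro c z hz y hy
    have : c • z * y = z * (c • y) := by
      rw [smul_mul_assoc, mul_smul_comm]
    rw [this]
    exact hz _ (L.smul_mem c hy)

theorem mem_dualLat {S₀ : Submodule K (RatFunc K)} {L : Submodule K F} {z : F} :
    z ∈ dualLat S₀ L ↔ ∀ y ∈ L, Algebra.trace (RatFunc K) F (z * y) ∈ S₀ := Iff.rfl

theorem dualLat_antitone {S₀ : Submodule K (RatFunc K)} {L L' : Submodule K F} (h : L ≤ L') :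
    dualLat S₀ L' ≤ dualLat S₀ L := fun _ hz y hy => hz y (h hy)

theorem basis_mem_latI (v : Basis ι (RatFunc K) F) (j : ι) : v j ∈ latI v := by
  rw [mem_latI]
  intro k
  rw [Basis.repr_self, Finsupp.single_apply]
  split_ifs
  · rw [← map_one (algebraMap K[X] (RatFunc K))]; exact algebraMap_mem_polyK 1
  · exact (polyK K).zero_mem

theorem smul_basis_mem_latJ (v : Basis ι (RatFunc K) F) (d : ι → ℤ) (j : ι) :
    ((RatFunc.X : RatFunc K) ^ (-d j)) • v j ∈ latJ v d := by
  rw [mem_latJ]
  intro k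
  rw [map_smul, Basis.repr_self, Finsupp.smul_apply, Finsupp.single_apply, smul_eq_mul]
  split_ifs with h
  · subst h
    rw [mul_one]; exact X_zpow_neg_mem_oinfK _
  · rw [mul_zero]; exact (oinfK K _).zero_mem

theorem trace_mul_eq_sum (v : Basis ι (RatFunc K) F) (z y : F) :
    Algebra.trace (RatFunc K) F (z * y)
      = ∑ j, v.repr y j * Algebra.trace (RatFunc K) F (z * v j) := by
  conv_lhs => rw [← v.sum_repr y]
  rw [Finset.mul_sum, map_sum]
  refine Finset.sum_congr rfl fun j _ => ?_
  rw [mul_smul_comm, map_smul, smul_eq_mul]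

/-- the dual of `⊕ K[X] v_j` is `⊕ K[X] v_j^*` -/
theorem dualLat_latI (v : Basis ι (RatFunc K) F) :
    dualLat (polyK K) (latI v) = latI v.traceDual := by
  ext z
  rw [mem_dualLat, mem_latI]
  constructor
  · intro h j
    rw [Basis.traceDual_repr_apply, Algebra.traceForm_apply]
    exact h _ (basis_mem_latI v j)
  · intro h y hy
    rw [trace_mul_eq_sum v]
    refine Submodule.sum_mem _ fun j _ => ?_
    have h1 := h j
    rw [Basis.traceDual_repr_apply, Algebra.traceForm_apply] at h1
    obtain ⟨p, hp⟩ := mem_polyK.mp (mem_latI.mp hy j)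
    rw [← hp]
    exact polyRing_mul_mem_polyK ⟨p, rfl⟩ h1

/-- the dual of `⊕ X^{-d_j} Oinf v_j` with values in `X^{-e} Oinf` is `⊕ X^{d_j - e} Oinf v_j^*` -/
theorem dualLat_latJ (v : Basis ι (RatFunc K) F) (d : ι → ℤ) (e : ℤ) :
    dualLat (oinfK K e) (latJ v d) = latJ v.traceDual fun j => e - d j := by
  ext z
  rw [mem_dualLat, mem_latJ]
  constructor
  · intro h j
    rw [Basis.traceDual_repr_apply, Algebra.traceForm_apply]
    have h1 := h _ (smul_basis_mem_latJ v d j)
    rw [mul_smul_comm, map_smul, smul_eq_mul, mem_oinfK] at h1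
    rw [mem_oinfK]
    convert h1 using 1
    rw [← mul_assoc, ← zpow_add₀ RatFunc.X_ne_zero, sub_eq_add_neg]
  · intro h y hy
    rw [trace_mul_eq_sum v, mem_oinfK, Finset.mul_sum]
    refine sum_mem fun j _ => ?_
    have h1 := h j
    rw [Basis.traceDual_repr_apply, Algebra.traceForm_apply, mem_oinfK] at h1
    have h2 := mem_latJ.mp hy j
    rw [mem_oinfK] at h2
    have : (RatFunc.X : RatFunc K) ^ e * (v.repr y j * Algebra.trace (RatFunc K) F (z * v j))
        = (RatFunc.X ^ d j * v.repr y j)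
          * (RatFunc.X ^ (e - d j) * Algebra.trace (RatFunc K) F (z * v j)) := by
      have hX : (RatFunc.X : RatFunc K) ^ e = RatFunc.X ^ d j * RatFunc.X ^ (e - d j) := by
        rw [← zpow_add₀ RatFunc.X_ne_zero]; congr 1; ring
      rw [hX]; ring
    rw [this]
    exact mul_mem h2 h1

/-- **Numerical Serre duality** for lattice pairs. -/
theorem finrank_quotient_eq_finrank_dual (u w : Basis ι (RatFunc K) F) :
    FiniteDimensional K (F ⧸ (latI u ⊔ latJ w fun _ => 0)) ∧
    FiniteDimensional K ↥(dualLat (polyK K) (latI u) ⊓ dualLat (oinfK K 2) (latJ w fun _ => 0)) ∧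
    finrank K (F ⧸ (latI u ⊔ latJ w fun _ => 0))
      = finrank K ↥(dualLat (polyK K) (latI u) ⊓ dualLat (oinfK K 2) (latJ w fun _ => 0)) := by
  obtain ⟨v, d, hI, hJ⟩ := exists_reduced u w
  rw [← hI, ← hJ, dualLat_latI, dualLat_latJ]
  obtain ⟨h1, h2⟩ := finrank_quotient_latI_sup_latJ v d
  obtain ⟨h3, h4⟩ := finrank_latI_inf_latJ v.traceDual fun j => 2 - d j
  refine ⟨h1, h3, ?_⟩
  rw [h2, h4]
  refine Finset.sum_congr rfl fun j _ => ?_
  congr 1
  ring

/-- finiteness and the Euler characteristic in terms of a reduced basis -/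
theorem finite_cohomology (u w : Basis ι (RatFunc K) F) :
    FiniteDimensional K ↥(latI u ⊓ latJ w fun _ => 0) ∧
    FiniteDimensional K (F ⧸ (latI u ⊔ latJ w fun _ => 0)) := by
  obtain ⟨v, d, hI, hJ⟩ := exists_reduced u w
  rw [← hI, ← hJ]
  exact ⟨(finrank_latI_inf_latJ v d).1, (finrank_quotient_latI_sup_latJ v d).1⟩

end Fermat.Agent.FF.RR
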