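import Mathlib

/-!
# Bases of fractional ideals over a principal ideal domain

Let `A` be a PID with fraction field `E`, `F / E` a finite separable extension and `C` the integral
closure of `A` in `F`. Every nonzero fractional ideal of `C` is spanned over `A` by an `E`-basis
of `F`.
-/

set_option autoImplicit false
set_option linter.style.haveILetI false
set_option linter.unusedSectionVars false

namespace Fermat.Agent.FF.RR

open Module nonZeroDivisors

variable {A : Type*} [CommRing A] [IsDomain A] [IsPrincipalIdealRing A]
  (E F : Type*) [Field E] [Field F] [Algebra A E] [IsFractionRing A E] [Algebra E F] [Algebra A F]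
  [IsScalarTower A E F] [FiniteDimensional E F] [Algebra.IsSeparable E F]

local notation "C" => integralClosure A F

theorem exists_basis_span_eq (I : FractionalIdeal (integralClosure A F)⁰ F) (hI : I ≠ 0) :
    ∃ u : Basis (Fin (finrank E F)) E F,
      ∀ x : F, x ∈ I ↔ x ∈ Submodule.span A (Set.range u) := by
  classical
  haveI : IsFractionRing C F := integralClosure.isFractionRing_of_finite_extension E F
  haveI : IsNoetherian A C := IsIntegralClosure.isNoetherian A E F C
  have hinjAF : Function.Injective (algebraMap A F) := by
    rw [IsScalarTower.algebraMap_eq A E F]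
    exact (algebraMap E F).injective.comp (IsFractionRing.injective A E)
  haveI : Module.IsTorsionFree A F := by
    rw [Module.isTorsionFree_iff_algebraMap_injective]
    exact hinjAF
  set M : Submodule A F := (I : Submodule C F).restrictScalars A with hM
  have hden : (I.den : C) ≠ 0 := nonZeroDivisors.coe_ne_zero I.den
  haveI : Module.Finite A M := by
    have e : M ≃ₗ[A] (I.num.restrictScalars A : Submodule A C) :=
      (I.equivNum hden).restrictScalars A
    exact Module.Finite.equiv e.symm
  haveI : Module.Free A M := Module.free_of_finite_type_torsion_free'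
  set b := Module.Free.chooseBasis A M with hb
  set f : M →ₗ[A] F := M.subtype with hf
  obtain ⟨i₀, hi₀I, hi₀0⟩ : ∃ i₀ ∈ I, i₀ ≠ 0 := by
    by_contra h
    push Not at h
    apply hI
    apply FractionalIdeal.coeToSubmodule_injective
    show (I : Submodule C F) = ((0 : FractionalIdeal C⁰ F) : Submodule C F)
    rw [FractionalIdeal.coe_zero]
    exact (Submodule.eq_bot_iff _).mpr fun x hx => h x hx
  haveI : IsLocalization (Algebra.algebraMapSubmonoid C A⁰) F :=
    IsIntegralClosure.isLocalization A E F C
  haveI : IsLocalizedModule A⁰ f := by
    refine ⟨fun x => ?_, fun x => ?_, fun h => ⟨1, ?_⟩⟩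
    · rw [Module.End.isUnit_iff]
      constructor
      · intro a c hac
        have : (x : A) • a = (x : A) • c := hac
        rw [Algebra.smul_def, Algebra.smul_def] at this
        exact mul_left_cancel₀ (by
          rw [ne_eq, map_eq_zero_iff _ hinjAF]
          exact nonZeroDivisors.coe_ne_zero x) this
      · intro c
        refine ⟨(algebraMap A F x)⁻¹ * c, ?_⟩
        show (x : A) • ((algebraMap A F x)⁻¹ * c) = c
        rw [Algebra.smul_def, ← mul_assoc, mul_inv_cancel₀ (by
          rw [ne_eq, map_eq_zero_iff _ hinjAF]
          exact nonZeroDivisors.coe_ne_zero x), one_mul]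
    · obtain ⟨⟨c, _, s, hs, rfl⟩, h⟩ :=
        IsLocalization.surj (Algebra.algebraMapSubmonoid C A⁰) (x / i₀)
      refine ⟨⟨⟨algebraMap C F c * i₀, ?_⟩, ⟨s, hs⟩⟩, ?_⟩
      · show algebraMap C F c * i₀ ∈ (I : Submodule C F)
        rw [← Algebra.smul_def]
        exact Submodule.smul_mem _ _ hi₀I
      · show s • x = algebraMap C F c * i₀
        simp only at h
        rw [← h, Algebra.smul_def, IsScalarTower.algebraMap_apply A C F]
        field_simp
    · rw [one_smul, one_smul]
      exact Subtype.ext h
  set u₀ := b.ofIsLocalizedModule E A⁰ f with hu₀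
  have hspan : Submodule.span A (Set.range u₀) = M := by
    rw [hu₀, Basis.ofIsLocalizedModule_span, hf, Submodule.range_subtype]
  have hcard : Fintype.card (Module.Free.ChooseBasisIndex A M) = finrank E F :=
    (Module.finrank_eq_card_basis u₀).symm
  refine ⟨u₀.reindex (Fintype.equivFinOfCardEq hcard), fun x => ?_⟩
  rw [Basis.range_reindex, hspan, hM, Submodule.restrictScalars_mem, FractionalIdeal.mem_coe]

end Fermat.Agent.FF.RR
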