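import Mathlib
import Fermat.Agent.FF.RR_helper3_Duality
import Fermat.Agent.FF.RR_helper3_IdealBasis

/-!
# Pairs of fractional ideals (finite part, part at infinity) of a function field

`B = FunctionField.ringOfIntegers K F` is the integral closure of `K[X]`, `ringAtInfty K F` the
integral closure of the local ring `Oinf K` of `K(X)` at infinity.  For nonzero fractional ideals
`I` of `B` and `J` of `ringAtInfty K F` we show that `I ∩ J` and `F / (I + J)` are
finite-dimensional over `K` and that `F / (I + J)` has the same dimension as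
`I^∨ ∩ X⁻² J^∨` (trace duals).
-/

set_option autoImplicit false
set_option linter.style.haveILetI false
set_option linter.unusedSectionVars false

namespace Fermat.Agent.FF.RR

open Polynomial Module nonZeroDivisors

variable (K F : Type*) [Field K] [Field F] [Algebra K F] [Algebra K[X] F] [Algebra (RatFunc K) F]
  [IsScalarTower K[X] (RatFunc K) F] [IsScalarTower K K[X] F] [IsScalarTower K (RatFunc K) F]
  [FiniteDimensional (RatFunc K) F] [Algebra.IsSeparable (RatFunc K) F]

/-- The integral closure in `F` of the local ring of `K(X)` at infinity. -/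
noncomputable def ringAtInfty : Subalgebra (Oinf K) F := integralClosure (Oinf K) F

instance ringAtInfty_isIntegralClosure : IsIntegralClosure (ringAtInfty K F) (Oinf K) F :=
  integralClosure.isIntegralClosure _ _

instance ringAtInfty_isFractionRing : IsFractionRing (ringAtInfty K F) F :=
  integralClosure.isFractionRing_of_finite_extension (RatFunc K) F

instance ringAtInfty_isDedekindDomain : IsDedekindDomain (ringAtInfty K F) :=
  integralClosure.isDedekindDomain (Oinf K) (RatFunc K) F

instance Oinf_isScalarTower' : IsScalarTower K (Oinf K) F :=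
  IsScalarTower.of_algebraMap_eq fun c => by
    rw [IsScalarTower.algebraMap_apply K (RatFunc K) F,
      IsScalarTower.algebraMap_apply (Oinf K) (RatFunc K) F]
    rfl

noncomputable instance ringAtInfty_algebra : Algebra K (ringAtInfty K F) :=
  inferInstanceAs (Algebra K (integralClosure (Oinf K) F))

instance ringAtInfty_isScalarTower : IsScalarTower K (ringAtInfty K F) F :=
  inferInstanceAs (IsScalarTower K (integralClosure (Oinf K) F) F)

noncomputable instance ringOfIntegers_algebra : Algebra K (FunctionField.ringOfIntegers K F) :=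
  inferInstanceAs (Algebra K (integralClosure K[X] F))

instance ringOfIntegers_isScalarTower : IsScalarTower K (FunctionField.ringOfIntegers K F) F :=
  inferInstanceAs (IsScalarTower K (integralClosure K[X] F) F)

variable {K F}

local notation "B" => FunctionField.ringOfIntegers K F
local notation "Binf" => ringAtInfty K F
local notation "n" => finrank (RatFunc K) F

/-- The `K`-subspace of `F` underlying a fractional ideal of the ring of integers. -/
noncomputable def finLat (I : FractionalIdeal B⁰ F) : Submodule K F :=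
  (I : Submodule B F).restrictScalars K

/-- The `K`-subspace of `F` underlying a fractional ideal of the ring at infinity. -/
noncomputable def infLat (J : FractionalIdeal Binf⁰ F) : Submodule K F :=
  (J : Submodule Binf F).restrictScalars K

@[simp]
theorem mem_finLat {I : FractionalIdeal B⁰ F} {x : F} : x ∈ finLat I ↔ x ∈ I := by
  rw [finLat, Submodule.restrictScalars_mem, FractionalIdeal.mem_coe]

@[simp]
theorem mem_infLat {J : FractionalIdeal Binf⁰ F} {x : F} : x ∈ infLat J ↔ x ∈ J := by
  rw [infLat, Submodule.restrictScalars_mem, FractionalIdeal.mem_coe]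

theorem finLat_mono {I I' : FractionalIdeal B⁰ F} (h : I ≤ I') : finLat I ≤ finLat I' :=
  fun _ hx => mem_finLat.mpr (h (mem_finLat.mp hx))

theorem infLat_mono {J J' : FractionalIdeal Binf⁰ F} (h : J ≤ J') : infLat J ≤ infLat J' :=
  fun _ hx => mem_infLat.mpr (h (mem_infLat.mp hx))

theorem exists_basis_finLat (I : FractionalIdeal B⁰ F) (hI : I ≠ 0) :
    ∃ u : Basis (Fin n) (RatFunc K) F, finLat I = latI u := by
  obtain ⟨u, hu⟩ := exists_basis_span_eq (A := K[X]) (RatFunc K) F I hI
  refine ⟨u, ?_⟩
  ext x
  rw [mem_finLat]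
  refine (hu x).trans ?_
  rw [mem_latI, Basis.mem_span_iff_repr_mem]
  refine forall_congr' fun j => ?_
  rw [mem_polyK, Set.mem_range]

theorem exists_basis_infLat (J : FractionalIdeal Binf⁰ F) (hJ : J ≠ 0) :
    ∃ w : Basis (Fin n) (RatFunc K) F, infLat J = latJ w fun _ => 0 := by
  obtain ⟨w, hw⟩ := exists_basis_span_eq (A := Oinf K) (RatFunc K) F J hJ
  refine ⟨w, ?_⟩
  ext x
  rw [mem_infLat]
  refine (hw x).trans ?_
  rw [mem_latJ, Basis.mem_span_iff_repr_mem]
  refine forall_congr' fun j => ?_
  rw [mem_oinfK, zpow_zero, one_mul, Set.mem_range]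
  constructor
  · rintro ⟨c, hc⟩
    rw [← hc]
    exact c.2
  · intro h
    exact ⟨⟨_, h⟩, rfl⟩

/-- Finiteness of `H⁰` and `H¹` of a pair of fractional ideals. -/
theorem finite_pair (I : FractionalIdeal B⁰ F) (hI : I ≠ 0) (J : FractionalIdeal Binf⁰ F)
    (hJ : J ≠ 0) :
    FiniteDimensional K ↥(finLat I ⊓ infLat J) ∧
      FiniteDimensional K (F ⧸ (finLat I ⊔ infLat J)) := by
  obtain ⟨u, hu⟩ := exists_basis_finLat I hI
  obtain ⟨w, hw⟩ := exists_basis_infLat J hJ
  rw [hu, hw]
  exact finite_cohomology u w

theorem dualLat_finLat (I : FractionalIdeal B⁰ F) (hI : I ≠ 0) :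
    dualLat (polyK K) (finLat I) = finLat (FractionalIdeal.dual K[X] (RatFunc K) I) := by
  ext z
  rw [mem_dualLat, mem_finLat, FractionalIdeal.mem_dual hI]
  refine forall_congr' fun y => ?_
  rw [mem_finLat, Algebra.traceForm_apply, mem_polyK, RingHom.mem_range]

variable (K F) in
/-- The coordinate function `x ∈ F`, the image of `X`. -/
noncomputable def xF : F := algebraMap (RatFunc K) F RatFunc.X

theorem xF_ne_zero : xF K F ≠ 0 := by
  rw [xF, ne_eq, map_eq_zero]
  exact RatFunc.X_ne_zero

/-- The fractional ideal `x^m J` of the ring at infinity. -/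
noncomputable def twist (m : ℤ) (J : FractionalIdeal Binf⁰ F) : FractionalIdeal Binf⁰ F :=
  FractionalIdeal.spanSingleton Binf⁰ (xF K F ^ m) * J

theorem mem_twist {m : ℤ} {J : FractionalIdeal Binf⁰ F} {y : F} :
    y ∈ twist m J ↔ xF K F ^ (-m) * y ∈ J := by
  rw [twist, FractionalIdeal.mem_singleton_mul]
  constructor
  · rintro ⟨y', hy', rfl⟩
    rwa [← mul_assoc, ← zpow_add₀ xF_ne_zero, neg_add_cancel, zpow_zero, one_mul]
  · intro h
    refine ⟨_, h, ?_⟩
    rw [← mul_assoc, ← zpow_add₀ xF_ne_zero, add_neg_cancel, zpow_zero, one_mul]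

theorem twist_ne_zero {m : ℤ} {J : FractionalIdeal Binf⁰ F} (hJ : J ≠ 0) : twist m J ≠ 0 := by
  rw [twist]
  refine mul_ne_zero ?_ hJ
  rw [ne_eq, FractionalIdeal.spanSingleton_eq_zero_iff]
  exact zpow_ne_zero _ xF_ne_zero

theorem twist_twist (m m' : ℤ) (J : FractionalIdeal Binf⁰ F) :
    twist m (twist m' J) = twist (m + m') J := by
  rw [twist, twist, twist, ← mul_assoc, FractionalIdeal.spanSingleton_mul_spanSingleton,
    zpow_add₀ xF_ne_zero]

theorem twist_zero (J : FractionalIdeal Binf⁰ F) : twist 0 J = J := by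
  rw [twist, zpow_zero, FractionalIdeal.spanSingleton_one, one_mul]

theorem trace_xF_zpow_mul (m : ℤ) (y : F) :
    Algebra.trace (RatFunc K) F (xF K F ^ m * y)
      = RatFunc.X ^ m * Algebra.trace (RatFunc K) F y := by
  rw [xF, ← map_zpow₀, ← Algebra.smul_def, map_smul, smul_eq_mul]

theorem dualLat_infLat (J : FractionalIdeal Binf⁰ F) (hJ : J ≠ 0) (e : ℤ) :
    dualLat (oinfK K e) (infLat J)
      = infLat (twist (-e) (FractionalIdeal.dual (Oinf K) (RatFunc K) J)) := by
  ext z
  rw [mem_dualLat, mem_infLat, mem_twist, FractionalIdeal.mem_dual hJ, neg_neg]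
  refine forall_congr' fun y => ?_
  rw [mem_infLat, Algebra.traceForm_apply, mem_oinfK, mul_assoc, trace_xF_zpow_mul,
    RingHom.mem_range]
  refine imp_congr_right fun _ => ?_
  constructor
  · intro h
    exact ⟨⟨_, h⟩, rfl⟩
  · rintro ⟨c, hc⟩
    rw [← hc]
    exact c.2

/-- **Duality** for a pair of fractional ideals: `H¹(I, J)` has the dimension of
`H⁰(I^∨, x⁻² J^∨)`. -/
theorem finrank_quotient_pair (I : FractionalIdeal B⁰ F) (hI : I ≠ 0)
    (J : FractionalIdeal Binf⁰ F) (hJ : J ≠ 0) :
    finrank K (F ⧸ (finLat I ⊔ infLat J))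
      = finrank K ↥(finLat (FractionalIdeal.dual K[X] (RatFunc K) I) ⊓
          infLat (twist (-2) (FractionalIdeal.dual (Oinf K) (RatFunc K) J))) := by
  obtain ⟨u, hu⟩ := exists_basis_finLat I hI
  obtain ⟨w, hw⟩ := exists_basis_infLat J hJ
  rw [← dualLat_finLat I hI, ← dualLat_infLat J hJ, hu, hw]
  exact (finrank_quotient_eq_finrank_dual u w).2.2

end Fermat.Agent.FF.RR
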