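import Mathlib
import Fermat.Agent.FF.PlaceBasic

set_option autoImplicit false
set_option linter.unusedSectionVars false
set_option linter.style.haveILetI false

open AlgebraicCurve WithZero
open scoped Classical

namespace Fermat.Agent.FF

variable {k F : Type*} [Field k] [Field F] [Algebra k F]

/-- A `ℤ`-valued (not necessarily normalised) discrete valuation on `F`, trivial on `k`,
written additively; the value at `0` is irrelevant. -/
structure OrdFn (k F : Type*) [Field k] [Field F] [Algebra k F] where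
  ord : F → ℤ
  ord_mul : ∀ {x y : F}, x ≠ 0 → y ≠ 0 → ord (x * y) = ord x + ord y
  ord_add : ∀ {x y : F}, x ≠ 0 → y ≠ 0 → x + y ≠ 0 → min (ord x) (ord y) ≤ ord (x + y)
  ord_algebraMap : ∀ a : k, a ≠ 0 → ord (algebraMap k F a) = 0
  nontrivial : ∃ x : F, x ≠ 0 ∧ ord x ≠ 0

namespace OrdFn

variable (o : OrdFn k F)

theorem ord_one : o.ord 1 = 0 := by
  have := o.ord_mul (one_ne_zero) (one_ne_zero (α := F))
  rw [one_mul] at this
  omega

theorem ord_inv {x : F} (hx : x ≠ 0) : o.ord x⁻¹ = -o.ord x := by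
  have := o.ord_mul hx (inv_ne_zero hx)
  rw [mul_inv_cancel₀ hx, o.ord_one] at this
  omega

theorem ord_neg_one : o.ord (-1) = 0 := by
  have := o.ord_mul (neg_ne_zero.mpr one_ne_zero) (neg_ne_zero.mpr (one_ne_zero (α := F)))
  rw [neg_one_mul, neg_neg, o.ord_one] at this
  omega

theorem ord_neg {x : F} (hx : x ≠ 0) : o.ord (-x) = o.ord x := by
  rw [← neg_one_mul, o.ord_mul (neg_ne_zero.mpr one_ne_zero) hx, o.ord_neg_one, zero_add]

/-- The multiplicative valuation attached to an `OrdFn`. -/
noncomputable def toValuation : Valuation F ℤᵐ⁰ where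
  toFun x := if x = 0 then 0 else exp (-o.ord x)
  map_zero' := by simp
  map_one' := by simp [o.ord_one]
  map_mul' x y := by
    by_cases hx : x = 0
    · simp [hx]
    by_cases hy : y = 0
    · simp [hy]
    simp only [hx, hy, mul_ne_zero hx hy, if_false]
    rw [o.ord_mul hx hy, neg_add, exp_add]
  map_add_le_max' x y := by
    by_cases hx : x = 0
    · simp [hx]
    by_cases hy : y = 0
    · simp [hy]
    by_cases hxy : x + y = 0
    · simp [hxy]
    simp only [hx, hy, hxy, if_false]
    have := o.ord_add hx hy hxy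
    rw [le_max_iff, exp_le_exp, exp_le_exp]
    rcases min_le_iff.mp this with h | h
    · left; omega
    · right; omega

theorem toValuation_apply {x : F} (hx : x ≠ 0) : o.toValuation x = exp (-o.ord x) := by
  show (if x = 0 then 0 else exp (-o.ord x)) = _
  rw [if_neg hx]

theorem toValuation_le_one_iff {x : F} (hx : x ≠ 0) : o.toValuation x ≤ 1 ↔ 0 ≤ o.ord x := by
  rw [o.toValuation_apply hx, ← exp_zero, exp_le_exp]; omega


theorem nontrivial_valueGroup :
    Nontrivial (MonoidWithZeroHom.valueGroup (.ofClass o.toValuation)) := by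
  obtain ⟨x, hx, hox⟩ := o.nontrivial
  let b : (ℤᵐ⁰)ˣ := Units.mk0 (exp (-o.ord x)) exp_ne_zero
  have hb : b ∈ MonoidWithZeroHom.valueGroup (.ofClass o.toValuation) := by
    apply MonoidWithZeroHom.mem_valueGroup
    exact ⟨x, o.toValuation_apply hx⟩
  refine ⟨⟨⟨b, hb⟩, 1, ?_⟩⟩
  intro h
  have h1 : (b : ℤᵐ⁰) = 1 := by
    have := congrArg (fun z : MonoidWithZeroHom.valueGroup (.ofClass o.toValuation) =>
      ((z : (ℤᵐ⁰)ˣ) : ℤᵐ⁰)) h
    simpa using this
  have h2 : exp (-o.ord x) = (exp 0 : ℤᵐ⁰) := h1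
  rw [exp_inj] at h2
  omega

/-- The place attached to an `OrdFn`. -/
noncomputable def toPlace : Place k F where
  toValuationSubring := o.toValuation.valuationSubring
  algebraMap_mem' a := by
    rw [Valuation.mem_valuationSubring_iff]
    by_cases ha : a = 0
    · simp [ha]
    · have h0 : algebraMap k F a ≠ 0 := by simpa using ha
      rw [o.toValuation_le_one_iff h0, o.ord_algebraMap a ha]
  ne_top' := by
    obtain ⟨x, hx, hox⟩ := o.nontrivial
    intro htop
    have h1 : x ∈ o.toValuation.valuationSubring := htop ▸ ValuationSubring.mem_top x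
    have h2 : x⁻¹ ∈ o.toValuation.valuationSubring := htop ▸ ValuationSubring.mem_top _
    rw [Valuation.mem_valuationSubring_iff, o.toValuation_le_one_iff hx] at h1
    rw [Valuation.mem_valuationSubring_iff, o.toValuation_le_one_iff (inv_ne_zero hx),
      o.ord_inv hx] at h2
    omega
  isPrincipalIdealRing' :=
    haveI := o.nontrivial_valueGroup
    Valuation.valuationSubring_isPrincipalIdealRing _

theorem mem_toPlace_iff {x : F} (hx : x ≠ 0) :
    x ∈ o.toPlace.toValuationSubring ↔ 0 ≤ o.ord x := by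
  show x ∈ o.toValuation.valuationSubring ↔ _
  rw [Valuation.mem_valuationSubring_iff, o.toValuation_le_one_iff hx]

/-- The given `ord` is a positive multiple of the normalised order of the place. -/
theorem exists_ord_eq_mul :
    ∃ m : ℤ, 0 < m ∧ ∀ x : F, x ≠ 0 → o.ord x = m * o.toPlace.ord x := by
  obtain ⟨π, hπ⟩ := IsDiscreteValuationRing.exists_irreducible o.toPlace.toValuationSubring
  have hπ1 : o.toPlace.ord (π : F) = 1 := o.toPlace.ord_coe_irreducible hπ
  have hπ0 : (π : F) ≠ 0 := by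
    intro h0; rw [h0, o.toPlace.ord_zero] at hπ1; exact absurd hπ1 (by norm_num)
  -- units have `ord = 0`
  have hunit : ∀ y : F, y ≠ 0 → o.toPlace.ord y = 0 → o.ord y = 0 := by
    intro y hy h0
    have h1 : y ∈ o.toPlace.toValuationSubring :=
      (PlaceAux.mem_iff_ord_nonneg' _ hy).mpr h0.ge
    have h2 : y⁻¹ ∈ o.toPlace.toValuationSubring :=
      (PlaceAux.mem_iff_ord_nonneg' _ (inv_ne_zero hy)).mpr (by rw [o.toPlace.ord_inv, h0]; simp)
    rw [o.mem_toPlace_iff hy] at h1
    rw [o.mem_toPlace_iff (inv_ne_zero hy), o.ord_inv hy] at h2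
    omega
  have hzpow : ∀ n : ℤ, o.ord ((π : F) ^ n) = n * o.ord (π : F) := by
    intro n
    induction n using Int.induction_on with
    | zero => simp [o.ord_one]
    | succ i ih =>
      rw [zpow_add_one₀ hπ0, o.ord_mul (zpow_ne_zero _ hπ0) hπ0, ih]; ring
    | pred i ih =>
      rw [zpow_sub_one₀ hπ0, o.ord_mul (zpow_ne_zero _ hπ0) (inv_ne_zero hπ0), ih,
        o.ord_inv hπ0]; ring
  have key : ∀ x : F, x ≠ 0 → o.ord x = o.ord (π : F) * o.toPlace.ord x := by
    intro x hx
    set n := o.toPlace.ord x with hn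
    have hy0 : x * ((π : F) ^ n)⁻¹ ≠ 0 := mul_ne_zero hx (inv_ne_zero (zpow_ne_zero _ hπ0))
    have h1 : o.toPlace.ord (x * ((π : F) ^ n)⁻¹) = 0 := by
      rw [o.toPlace.ord_mul hx (inv_ne_zero (zpow_ne_zero _ hπ0)), o.toPlace.ord_inv,
        o.toPlace.ord_zpow, hπ1, ← hn]; ring
    have h2 := hunit _ hy0 h1
    rw [o.ord_mul hx (inv_ne_zero (zpow_ne_zero _ hπ0)), o.ord_inv (zpow_ne_zero _ hπ0),
      hzpow] at h2
    linarith
  refine ⟨o.ord (π : F), ?_, key⟩
  -- positivity
  have h1 : (π : F) ∈ o.toPlace.toValuationSubring := π.2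
  rw [o.mem_toPlace_iff hπ0] at h1
  rcases h1.eq_or_lt with h0 | hpos
  · exfalso
    obtain ⟨x, hx, hox⟩ := o.nontrivial
    rw [key x hx, ← h0, zero_mul] at hox
    exact hox rfl
  · exact hpos

end OrdFn

end Fermat.Agent.FF
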