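import Mathlib
import Fermat.Agent.FF.RiemannHurwitz
import Fermat.Agent.FF.OfOrd

/-!
# The squeeze theorem: counting the places over a point of the `x`-line

Abstract core of the place count for `X₀(N)`: a family of places `p γ` over `x = a`, indexed by a
finite set `X` of cardinality `[F : k(x)]`, constant on the classes of an equivalence relation,
with ramification index bounded by the class size, and satisfying an integrality property,
is in bijection with the set of classes.
-/

set_option autoImplicit false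
set_option linter.unusedSectionVars false
set_option linter.style.haveILetI false

open Polynomial AlgebraicCurve IsDedekindDomain WithZero IntermediateField KaehlerDifferential

namespace Fermat.Agent.FF

section TC

variable (k F : Type*) [Field k] [Field F] [Algebra k F] [Algebra k[X] F] [Algebra (RatFunc k) F]
  [IsScalarTower k[X] (RatFunc k) F] [IsScalarTower k k[X] F] [FunctionField k F]
  [Algebra.IsSeparable (RatFunc k) F]

local notation "𝓞" => FunctionField.ringOfIntegers k F

/-- **Avoidance** in the typeclass setting: given finitely many places at which the coordinate is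
regular and a further such place `v₀`, there is a function regular at the given places with a
pole at `v₀`. -/
theorem exists_not_mem_of_coord_mem (S : Finset (Place k F))
    (hS : ∀ v ∈ S, coord k F ∈ v.toValuationSubring) {v₀ : Place k F}
    (hv₀ : coord k F ∈ v₀.toValuationSubring) (h : v₀ ∉ S) :
    ∃ f : F, (∀ v ∈ S, f ∈ v.toValuationSubring) ∧ f ∉ v₀.toValuationSubring := by
  classical
  have hex : ∀ v : Place k F, coord k F ∈ v.toValuationSubring →
      ∃ w : HeightOneSpectrum 𝓞, placeOf w = v :=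
    fun v hv => exists_placeOf_eq v (ringOfIntegers_mem v hv)
  choose W hW using hex
  set w₀ := W v₀ hv₀ with hw₀
  set T : Finset (Ideal 𝓞) :=
    insert ⊥ (S.attach.image fun v => (W v.1 (hS v.1 v.2)).asIdeal) with hT
  have hprime : ∀ I ∈ T, I ≠ ⊥ → I ≠ ⊥ → I.IsPrime := by
    intro I hI hne _
    rw [hT, Finset.mem_insert] at hI
    rcases hI with rfl | hI
    · exact absurd rfl hne
    · rw [Finset.mem_image] at hI
      obtain ⟨v, _, rfl⟩ := hI
      exact (W v.1 (hS v.1 v.2)).isPrime
  have hnot : ¬ ∃ I ∈ T, w₀.asIdeal ≤ id I := by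
    rintro ⟨I, hI, hle⟩
    rw [hT, Finset.mem_insert] at hI
    rcases hI with rfl | hI
    · exact w₀.ne_bot (le_bot_iff.mp hle)
    · rw [Finset.mem_image] at hI
      obtain ⟨v, _, rfl⟩ := hI
      have hmax : w₀.asIdeal.IsMaximal := w₀.isMaximal
      have heq : w₀.asIdeal = (W v.1 (hS v.1 v.2)).asIdeal :=
        hmax.eq_of_le (W v.1 (hS v.1 v.2)).isPrime.ne_top hle
      have hweq : w₀ = W v.1 (hS v.1 v.2) := HeightOneSpectrum.ext heq
      have : v₀ = v.1 := by
        rw [← hW v₀ hv₀, ← hW v.1 (hS v.1 v.2), ← hw₀, hweq]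
      exact h (this ▸ v.2)
  rw [← Ideal.subset_union_prime (f := id) ⊥ ⊥ hprime] at hnot
  rw [Set.not_subset] at hnot
  obtain ⟨t, htw, htT⟩ := hnot
  simp only [Set.mem_iUnion, not_exists] at htT
  have ht0 : t ≠ 0 := by
    intro h0
    apply htT ⊥ (by rw [hT]; exact Finset.mem_coe.mpr (Finset.mem_insert_self _ _))
    rw [h0]; exact (⊥ : Ideal 𝓞).zero_mem
  have htF : algebraMap 𝓞 F t ≠ 0 := by
    intro h0
    apply ht0
    exact (FaithfulSMul.algebraMap_injective 𝓞 F) (h0.trans (map_zero _).symm)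
  refine ⟨(algebraMap 𝓞 F t)⁻¹, fun v hv => ?_, ?_⟩
  · have hnotmem : t ∉ (W v (hS v hv)).asIdeal := by
      intro hmem
      apply htT (W v (hS v hv)).asIdeal
        (by
          rw [hT]
          apply Finset.mem_coe.mpr
          apply Finset.mem_insert_of_mem
          rw [Finset.mem_image]
          exact ⟨⟨v, hv⟩, Finset.mem_attach _ _, rfl⟩)
      exact hmem
    have h1 : ¬ 0 < (placeOf (k := k) (W v (hS v hv))).ord (algebraMap 𝓞 F t) := by
      rw [ord_placeOf_algebraMap_pos_iff (k := k) _ _ ht0]; exact hnotmem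
    have h2 : 0 ≤ (placeOf (k := k) (W v (hS v hv))).ord (algebraMap 𝓞 F t) :=
      PlaceAux.ord_nonneg_of_mem _ (algebraMap_mem_placeOf _ t)
    rw [hW v (hS v hv)] at h1 h2
    rw [PlaceAux.mem_iff_ord_nonneg' v (inv_ne_zero htF), v.ord_inv]
    omega
  · have h1 : 0 < (placeOf (k := k) w₀).ord (algebraMap 𝓞 F t) := by
      rw [ord_placeOf_algebraMap_pos_iff (k := k) _ _ ht0]; exact htw
    rw [hw₀, hW v₀ hv₀] at h1
    rw [PlaceAux.mem_iff_ord_nonneg' v₀ (inv_ne_zero htF), v₀.ord_inv]
    omega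

end TC

open scoped Classical in
/-- **Combinatorial squeeze.** `X` a finite set with an equivalence relation `r`, `p : X → Z`
constant on classes with image the finite set `Zs`, weights `e v > 0` on `Zs` of total mass
`|X|`, and `e (p γ) ≤ |class of γ|`. Then `p` induces a bijection `X / r ≃ Zs`, and
`e (p γ) = |class of γ|`. -/
theorem squeeze_count {X Z : Type*} [Fintype X] (r : Setoid X) (Zs : Finset Z)
    (e : Z → ℤ) (hsum : ∑ v ∈ Zs, e v = Fintype.card X)
    (p : X → Z) (hp : ∀ γ, p γ ∈ Zs) (hr : ∀ γ γ', r γ γ' → p γ = p γ')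
    (hsurj : ∀ v ∈ Zs, ∃ γ, p γ = v)
    (he : ∀ γ, e (p γ) ≤ Nat.card {γ' // r γ' γ}) :
    Zs.card = Nat.card (Quotient r) ∧ (∀ γ, e (p γ) = Nat.card {γ' // r γ' γ}) ∧
      (∀ γ γ', p γ = p γ' → r γ γ') := by
  classical
  -- class and fibre as finsets
  set cls : X → Finset X := fun γ => Finset.univ.filter (fun γ' => r γ' γ) with hcls
  set fib : Z → Finset X := fun v => Finset.univ.filter (fun γ => p γ = v) with hfib
  have hcard_cls : ∀ γ, Nat.card {γ' // r γ' γ} = (cls γ).card := by
    intro γ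
    rw [Nat.card_eq_fintype_card, Fintype.card_subtype]
  have hsub : ∀ γ, cls γ ⊆ fib (p γ) := by
    intro γ γ' hγ'
    rw [hcls, Finset.mem_filter] at hγ'
    rw [hfib, Finset.mem_filter]
    exact ⟨Finset.mem_univ _, hr _ _ hγ'.2⟩
  have hle1 : ∀ γ, ((cls γ).card : ℤ) ≤ (fib (p γ)).card := by
    intro γ; exact_mod_cast Finset.card_le_card (hsub γ)
  have hle : ∀ v ∈ Zs, e v ≤ (fib v).card := by
    intro v hv
    obtain ⟨γ, rfl⟩ := hsurj v hv
    have := he γ
    rw [hcard_cls] at this
    exact this.trans (hle1 γ)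
  have htot : (Fintype.card X : ℤ) = ∑ v ∈ Zs, ((fib v).card : ℤ) := by
    have := Finset.card_eq_sum_card_fiberwise (s := (Finset.univ : Finset X)) (t := Zs) (f := p)
      (fun x _ => hp x)
    rw [Finset.card_univ] at this
    rw [this]; push_cast; rfl
  have hzero : ∑ v ∈ Zs, (((fib v).card : ℤ) - e v) = 0 := by
    rw [Finset.sum_sub_distrib, ← htot, hsum, sub_self]
  have heq : ∀ v ∈ Zs, ((fib v).card : ℤ) = e v := by
    intro v hv
    have := (Finset.sum_eq_zero_iff_of_nonneg (fun v hv => sub_nonneg.mpr (hle v hv))).mp hzero v hv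
    omega
  have hcls_eq : ∀ γ, cls γ = fib (p γ) := by
    intro γ
    apply Finset.eq_of_subset_of_card_le (hsub γ)
    have h1 := heq (p γ) (hp γ)
    have h2 := he γ
    rw [hcard_cls] at h2
    have : ((fib (p γ)).card : ℤ) ≤ (cls γ).card := by omega
    exact_mod_cast this
  have h3 : ∀ γ γ', p γ = p γ' → r γ γ' := by
    intro γ γ' h
    have : γ ∈ fib (p γ') := by
      rw [hfib, Finset.mem_filter]; exact ⟨Finset.mem_univ _, h⟩
    rw [← hcls_eq, hcls, Finset.mem_filter] at this
    exact this.2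
  refine ⟨?_, fun γ => ?_, h3⟩
  · -- bijection `Quotient r ≃ Zs`
    let φ : Quotient r → {v // v ∈ Zs} :=
      Quotient.lift (fun γ => (⟨p γ, hp γ⟩ : {v // v ∈ Zs})) (fun γ γ' h => Subtype.ext (hr γ γ' h))
    have hinj : Function.Injective φ := by
      intro q q'
      induction q using Quotient.inductionOn with | _ γ => ?_
      induction q' using Quotient.inductionOn with | _ γ' => ?_
      intro h
      apply Quotient.sound
      exact h3 γ γ' (congrArg Subtype.val h)
    have hsurj' : Function.Surjective φ := by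
      rintro ⟨v, hv⟩
      obtain ⟨γ, rfl⟩ := hsurj v hv
      exact ⟨Quotient.mk r γ, rfl⟩
    have := Nat.card_congr (Equiv.ofBijective φ ⟨hinj, hsurj'⟩)
    rw [this, Nat.card_eq_fintype_card, Fintype.card_coe]
  · rw [hcard_cls, hcls_eq, heq (p γ) (hp γ)]


variable {k F : Type*} [Field k] [Field F] [Algebra k F]

theorem PlaceAux.ord_neg (v : Place k F) (f : F) : v.ord (-f) = v.ord f := by
  by_cases hf : f = 0
  · rw [hf, neg_zero]
  have h1 : v.ord (-1 : F) = 0 := by
    have := v.ord_mul (neg_ne_zero.mpr one_ne_zero) (neg_ne_zero.mpr (one_ne_zero (α := F)))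
    rw [neg_one_mul, neg_neg, v.ord_one] at this
    omega
  rw [← neg_one_mul, v.ord_mul (neg_ne_zero.mpr one_ne_zero) hf, h1, zero_add]

/-- Polynomials in an element of the valuation ring stay in the valuation ring. -/
theorem aeval_mem_valuationSubring (v : Place k F) {y : F} (hy : y ∈ v.toValuationSubring)
    (P : k[X]) : aeval y P ∈ v.toValuationSubring := by
  rw [aeval_eq_sum_range]
  refine sum_mem fun i _ => ?_
  rw [Algebra.smul_def]
  exact mul_mem (v.algebraMap_mem' _) (pow_mem hy _)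

/-- `Q(y)` is a unit at a zero of `y - a` if `Q(a) ≠ 0`. -/
theorem ord_aeval_eq_zero_of_eval_ne_zero (v : Place k F) {y : F} {a : k}
    (hy : 0 < v.ord (y - algebraMap k F a)) {Q : k[X]} (hQ : Q.eval a ≠ 0) :
    aeval y Q ≠ 0 ∧ v.ord (aeval y Q) = 0 := by
  have hya0 : y - algebraMap k F a ≠ 0 := by
    intro h0; rw [h0, v.ord_zero] at hy; exact absurd hy (lt_irrefl _)
  have hymem : y ∈ v.toValuationSubring := by
    have h1 : y - algebraMap k F a ∈ v.toValuationSubring :=
      (PlaceAux.mem_iff_ord_nonneg' v hya0).mpr hy.le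
    have := add_mem h1 (v.algebraMap_mem' a)
    rwa [sub_add_cancel] at this
  -- `Q = (X - C a) * R + C (Q a)`
  set R : k[X] := (Q - C (Q.eval a)) /ₘ (X - C a) with hR
  have hroot : (Q - C (Q.eval a)).IsRoot a := by
    rw [IsRoot, eval_sub, eval_C, sub_self]
  have hdiv : (X - C a) * R = Q - C (Q.eval a) := mul_divByMonic_eq_iff_isRoot.mpr hroot
  have hQeq : aeval y Q = algebraMap k F (Q.eval a) + (y - algebraMap k F a) * aeval y R := by
    have := congrArg (aeval y) hdiv
    simp only [map_mul, map_sub, aeval_X, aeval_C] at this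
    rw [this]; ring
  have hc0 : algebraMap k F (Q.eval a) ≠ 0 := by simpa using hQ
  have hcord : v.ord (algebraMap k F (Q.eval a)) = 0 := PlaceAux.ord_algebraMap v _
  by_cases hR0 : aeval y R = 0
  · rw [hQeq, hR0, mul_zero, add_zero]
    exact ⟨hc0, hcord⟩
  · have hprod0 : (y - algebraMap k F a) * aeval y R ≠ 0 := mul_ne_zero hya0 hR0
    have hRmem := aeval_mem_valuationSubring v hymem R
    have hRord : 0 ≤ v.ord (aeval y R) := (PlaceAux.mem_iff_ord_nonneg' v hR0).mp hRmem
    have hlt : v.ord (algebraMap k F (Q.eval a)) < v.ord ((y - algebraMap k F a) * aeval y R) := by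
      rw [hcord, v.ord_mul hya0 hR0]; omega
    have hord := PlaceAux.ord_add_eq_of_lt v hc0 hprod0 hlt
    rw [← hQeq, hcord] at hord
    refine ⟨?_, hord⟩
    intro h0
    -- if the sum vanished, the two summands would have equal order
    have : algebraMap k F (Q.eval a) = -((y - algebraMap k F a) * aeval y R) := by
      rw [hQeq] at h0; exact eq_neg_of_add_eq_zero_left h0
    rw [this, PlaceAux.ord_neg] at hlt
    exact lt_irrefl _ hlt

namespace Coord

variable (c : Coord k F)

/-- The local ring of `k(x)` at `x = a`, as a subring of `F`: quotients `P(x)/Q(x)` with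
`Q(a) ≠ 0`. -/
def localSubring (a : k) : Subring F where
  carrier := {g | ∃ P Q : k[X], Q.eval a ≠ 0 ∧ g * aeval c.x Q = aeval c.x P}
  mul_mem' := by
    rintro g h ⟨P, Q, hQ, hg⟩ ⟨P', Q', hQ', hh⟩
    refine ⟨P * P', Q * Q', ?_, ?_⟩
    · rw [eval_mul]; exact mul_ne_zero hQ hQ'
    · rw [map_mul, map_mul, ← hg, ← hh]; ring
  one_mem' := ⟨1, 1, by simp, by simp⟩
  add_mem' := by
    rintro g h ⟨P, Q, hQ, hg⟩ ⟨P', Q', hQ', hh⟩
    refine ⟨P * Q' + P' * Q, Q * Q', ?_, ?_⟩
    · rw [eval_mul]; exact mul_ne_zero hQ hQ'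
    · rw [map_add, map_mul, map_mul, map_mul, ← hg, ← hh]; ring
  zero_mem' := ⟨0, 1, by simp, by simp⟩
  neg_mem' := by
    rintro g ⟨P, Q, hQ, hg⟩
    exact ⟨-P, Q, hQ, by rw [map_neg, ← hg]; ring⟩

theorem mem_localSubring {a : k} {g : F} :
    g ∈ c.localSubring a ↔
      ∃ P Q : k[X], Q.eval a ≠ 0 ∧ g * aeval c.x Q = aeval c.x P := Iff.rfl

theorem algebraMap_mem_localSubring (a b : k) : algebraMap k F b ∈ c.localSubring a :=
  ⟨C b, 1, by simp, by simp⟩

theorem x_mem_localSubring (a : k) : c.x ∈ c.localSubring a :=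
  ⟨X, 1, by simp, by simp⟩

/-- The local ring at `x = a` is contained in the valuation ring of every zero of `x - a`. -/
theorem localSubring_le {a : k} {v : Place k F} (hv : 0 < v.ord (c.x - algebraMap k F a)) :
    c.localSubring a ≤ v.toValuationSubring.toSubring := by
  rintro g ⟨P, Q, hQ, hg⟩
  show g ∈ v.toValuationSubring
  obtain ⟨hQ0, hQord⟩ := ord_aeval_eq_zero_of_eval_ne_zero v hv hQ
  have hya0 : c.x - algebraMap k F a ≠ 0 := by
    intro h0; rw [h0, v.ord_zero] at hv; exact absurd hv (lt_irrefl _)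
  have hxmem : c.x ∈ v.toValuationSubring := by
    have h1 : c.x - algebraMap k F a ∈ v.toValuationSubring :=
      (PlaceAux.mem_iff_ord_nonneg' v hya0).mpr hv.le
    have := add_mem h1 (v.algebraMap_mem' a)
    rwa [sub_add_cancel] at this
  by_cases hg0 : g = 0
  · rw [hg0]; exact zero_mem _
  have hPmem := aeval_mem_valuationSubring v hxmem P
  have hP0 : aeval c.x P ≠ 0 := by rw [← hg]; exact mul_ne_zero hg0 hQ0
  have hPord : 0 ≤ v.ord (aeval c.x P) := (PlaceAux.mem_iff_ord_nonneg' v hP0).mp hPmem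
  rw [← hg, v.ord_mul hg0 hQ0, hQord, add_zero] at hPord
  exact (PlaceAux.mem_iff_ord_nonneg' v hg0).mpr hPord

/-- **Integrality ⇒ regularity**: an element integral over the local ring at `x = a` is regular
at every zero of `x - a`. -/
theorem mem_of_isIntegral_localSubring {a : k} {v : Place k F}
    (hv : 0 < v.ord (c.x - algebraMap k F a)) {f : F} (hf : IsIntegral (c.localSubring a) f) :
    f ∈ v.toValuationSubring :=
  mem_of_isIntegral_of_forall_mem v.toValuationSubring
    (fun g => c.localSubring_le hv g.2) hf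

/-- Variant with an explicit monic polynomial over `F` whose coefficients are `P(x)/Q(x)`,
`Q(a) ≠ 0`. -/
theorem mem_of_monic_root {a : k} {v : Place k F}
    (hv : 0 < v.ord (c.x - algebraMap k F a)) {f : F} (p : F[X]) (hp : p.Monic)
    (hcoeff : ∀ i, ∃ P Q : k[X], Q.eval a ≠ 0 ∧ p.coeff i * aeval c.x Q = aeval c.x P)
    (hroot : p.eval f = 0) : f ∈ v.toValuationSubring := by
  apply c.mem_of_isIntegral_localSubring hv
  have hl : p ∈ Polynomial.lifts (c.localSubring a).subtype := by
    rw [Polynomial.lifts_iff_coeff_lifts]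
    intro i
    exact ⟨⟨_, hcoeff i⟩, rfl⟩
  obtain ⟨q, hq, -, hmon⟩ := Polynomial.lifts_and_natDegree_eq_and_monic hl hp
  refine ⟨q, hmon, ?_⟩
  have : Polynomial.eval₂ (algebraMap (c.localSubring a) F) f q
      = (q.map (c.localSubring a).subtype).eval f := (Polynomial.eval_map _ _).symm
  rw [this, hq, hroot]

section CharZero

variable [CharZero k]

/-- **Avoidance**: given finitely many places at which `x` is regular and a further such place
`v₀`, there is a function regular at the given places with a pole at `v₀`. -/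
theorem exists_not_mem_of_not_mem (S : Finset (Place k F))
    (hS : ∀ v ∈ S, c.x ∈ v.toValuationSubring) {v₀ : Place k F}
    (hv₀ : c.x ∈ v₀.toValuationSubring) (h : v₀ ∉ S) :
    ∃ f : F, (∀ v ∈ S, f ∈ v.toValuationSubring) ∧ f ∉ v₀.toValuationSubring := by
  letI := c.algPoly
  letI := c.algRat
  haveI := c.tower1
  haveI := c.tower2
  haveI := c.tower3
  haveI : FunctionField k F := c.functionField
  haveI : CharZero (RatFunc k) :=
    charZero_of_injective_algebraMap (algebraMap k (RatFunc k)).injective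
  haveI : Algebra.IsSeparable (RatFunc k) F := inferInstance
  have hcoord : coord k F = c.x := c.coord_eq
  exact exists_not_mem_of_coord_mem k F S (fun v hv => hcoord ▸ hS v hv) (hcoord ▸ hv₀) h

/-- A place all of whose "integral" functions (w.r.t. a finite set `S` of places regular for `x`)
are regular belongs to `S`. -/
theorem mem_of_forall_mem (S : Finset (Place k F))
    (hS : ∀ v ∈ S, c.x ∈ v.toValuationSubring) {v₀ : Place k F}
    (hv₀ : c.x ∈ v₀.toValuationSubring)
    (h : ∀ f : F, (∀ v ∈ S, f ∈ v.toValuationSubring) → f ∈ v₀.toValuationSubring) :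
    v₀ ∈ S := by
  by_contra hnot
  obtain ⟨f, hf, hf₀⟩ := c.exists_not_mem_of_not_mem S hS hv₀ hnot
  exact hf₀ (h f hf)

theorem x_mem_of_mem_zeros {a : k} {v : Place k F} (hv : v ∈ c.zeros a) :
    c.x ∈ v.toValuationSubring := by
  have h1 := c.mem_zeros.mp hv
  have h2 : c.x - algebraMap k F a ∈ v.toValuationSubring :=
    (PlaceAux.mem_iff_ord_nonneg' v (c.x_sub_ne_zero a)).mpr h1.le
  have := add_mem h2 (v.algebraMap_mem' a)
  rwa [sub_add_cancel] at this

/-- The poles of `x` are the zeros of `1/x`. -/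
theorem zeros_inv_zero : c.inv.zeros 0 = c.poles := by
  ext v
  rw [c.inv.mem_zeros, c.mem_poles, map_zero, sub_zero, inv_x, v.ord_inv]
  omega

end CharZero


section AlgClosed

variable [CharZero k] [IsAlgClosed k]

/-- **Squeeze theorem** (places over `x = a`). `X` is a finite set of cardinality `[F : k(x)]`
(cosets), `r` an equivalence relation (orbits), `p γ` a zero of `x - a` depending only on the class
of `γ`; *integrality*: a function regular at all `p γ` is regular at all zeros of `x - a`;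
*ramification bound*: `e(p γ) ≤ |class of γ|`. Then `γ ↦ p γ` induces a bijection between classes
and zeros of `x - a`, and `e(p γ) = |class of γ|`. -/
theorem card_zeros_eq_card_quotient (a : k) {X : Type*} [Fintype X] (r : Setoid X)
    (hX : Fintype.card X = c.degree) (p : X → Place k F) (hp : ∀ γ, p γ ∈ c.zeros a)
    (hr : ∀ γ γ', r γ γ' → p γ = p γ')
    (hint : ∀ f : F, (∀ γ, f ∈ (p γ).toValuationSubring) →
      ∀ v ∈ c.zeros a, f ∈ v.toValuationSubring)
    (he : ∀ γ, (p γ).ord (c.x - algebraMap k F a) ≤ Nat.card {γ' // r γ' γ}) :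
    (c.zeros a).card = Nat.card (Quotient r) ∧
      (∀ γ, (p γ).ord (c.x - algebraMap k F a) = Nat.card {γ' // r γ' γ}) ∧
      (∀ γ γ', p γ = p γ' → r γ γ') ∧ (∀ v ∈ c.zeros a, ∃ γ, p γ = v) := by
  classical
  have hsurj : ∀ v ∈ c.zeros a, ∃ γ, p γ = v := by
    intro v hv
    have hmem : v ∈ Finset.univ.image p := by
      apply c.mem_of_forall_mem (Finset.univ.image p)
      · intro w hw
        obtain ⟨γ, _, rfl⟩ := Finset.mem_image.mp hw
        exact c.x_mem_of_mem_zeros (hp γ)
      · exact c.x_mem_of_mem_zeros hv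
      · intro f hf
        exact hint f (fun γ => hf (p γ) (Finset.mem_image_of_mem p (Finset.mem_univ γ))) v hv
    obtain ⟨γ, _, h⟩ := Finset.mem_image.mp hmem
    exact ⟨γ, h⟩
  have hsum : ∑ v ∈ c.zeros a, v.ord (c.x - algebraMap k F a) = Fintype.card X := by
    rw [hX]; exact c.sum_zeros' a
  obtain ⟨h1, h2, h3⟩ := squeeze_count r (c.zeros a)
    (fun v => v.ord (c.x - algebraMap k F a)) hsum p hp hr hsurj he
  exact ⟨h1, h2, h3, hsurj⟩

/-- **Squeeze theorem at the poles of `x`.** -/
theorem card_poles_eq_card_quotient {X : Type*} [Fintype X] (r : Setoid X)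
    (hX : Fintype.card X = c.degree) (p : X → Place k F) (hp : ∀ γ, p γ ∈ c.poles)
    (hr : ∀ γ γ', r γ γ' → p γ = p γ')
    (hint : ∀ f : F, (∀ γ, f ∈ (p γ).toValuationSubring) →
      ∀ v ∈ c.poles, f ∈ v.toValuationSubring)
    (he : ∀ γ, -(p γ).ord c.x ≤ Nat.card {γ' // r γ' γ}) :
    c.poles.card = Nat.card (Quotient r) ∧
      (∀ γ, -(p γ).ord c.x = Nat.card {γ' // r γ' γ}) ∧
      (∀ γ γ', p γ = p γ' → r γ γ') ∧ (∀ v ∈ c.poles, ∃ γ, p γ = v) := by
  have hz := c.zeros_inv_zero
  have hord : ∀ v : Place k F, v.ord (c.inv.x - algebraMap k F 0) = -v.ord c.x := by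
    intro v; rw [map_zero, sub_zero, inv_x, v.ord_inv]
  have := c.inv.card_zeros_eq_card_quotient 0 r (by rw [hX, degree_inv]) p
    (fun γ => hz ▸ hp γ) hr (fun f hf v hv => hint f hf v (hz ▸ hv))
    (fun γ => by rw [hord]; exact he γ)
  simp only [hord, hz] at this
  exact this

end AlgClosed

end Coord

namespace OrdFn

variable (o : OrdFn k F)

theorem toPlace_ord_pos_iff {f : F} (hf : f ≠ 0) : 0 < o.toPlace.ord f ↔ 0 < o.ord f := by
  obtain ⟨m, hm, h⟩ := o.exists_ord_eq_mul
  rw [h f hf]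
  constructor
  · intro h1; positivity
  · intro h1
    by_contra h2
    have : m * o.toPlace.ord f ≤ 0 := mul_nonpos_of_nonneg_of_nonpos hm.le (not_lt.mp h2)
    omega

theorem toPlace_ord_neg_iff {f : F} (hf : f ≠ 0) : o.toPlace.ord f < 0 ↔ o.ord f < 0 := by
  have := o.toPlace_ord_pos_iff (inv_ne_zero hf)
  rw [o.toPlace.ord_inv, o.ord_inv hf] at this
  omega

/-- Two `OrdFn`s with the same values define the same place. -/
theorem toPlace_eq_of_ord_eq (o o' : OrdFn k F) (h : ∀ f : F, f ≠ 0 → o.ord f = o'.ord f) :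
    o.toPlace = o'.toPlace := by
  apply Place.ext
  ext f
  by_cases hf : f = 0
  · rw [hf]; exact ⟨fun _ => zero_mem _, fun _ => zero_mem _⟩
  · rw [o.mem_toPlace_iff hf, o'.mem_toPlace_iff hf, h f hf]

/-- **Divisibility bounds the ramification**: if all values of `o` are divisible by `d`, then
`d * ord_v f ≤ o f` for `f` of nonnegative order (`v` the place of `o`). -/
theorem toPlace_ord_mul_le (d : ℤ) (hdiv : ∀ f : F, f ≠ 0 → d ∣ o.ord f) {f : F}
    (hf : f ≠ 0) (hpos : 0 ≤ o.ord f) : o.toPlace.ord f * d ≤ o.ord f := by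
  obtain ⟨m, hm, h⟩ := o.exists_ord_eq_mul
  obtain ⟨π, hπ⟩ := IsDiscreteValuationRing.exists_irreducible o.toPlace.toValuationSubring
  have hπ1 : o.toPlace.ord (π : F) = 1 := o.toPlace.ord_coe_irreducible hπ
  have hπ0 : (π : F) ≠ 0 := by
    intro h0; rw [h0, o.toPlace.ord_zero] at hπ1; exact absurd hπ1 (by norm_num)
  have hdm : d ∣ m := by
    have := hdiv π hπ0
    rwa [h π hπ0, hπ1, mul_one] at this
  have hle : d ≤ m := Int.le_of_dvd hm hdm
  have hnn : 0 ≤ o.toPlace.ord f := by
    by_contra hneg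
    have : m * o.toPlace.ord f < 0 := mul_neg_of_pos_of_neg hm (not_le.mp hneg)
    rw [← h f hf] at this
    omega
  rw [h f hf, mul_comm]
  exact mul_le_mul_of_nonneg_right hle hnn

end OrdFn

namespace Coord

section AlgClosedOrdFn

variable (c : Coord k F) [CharZero k] [IsAlgClosed k]

/-- **Squeeze theorem, `OrdFn` form.** `o γ` a family of `ℤ`-valued valuations indexed by a finite
set `X` with `|X| = [F : k(x)]`; `o γ` depends only on the `r`-class of `γ`; `o γ (x - a) = E γ > 0`;
all values of `o γ` are divisible by `d γ > 0` with `E γ ≤ d γ * |class of γ|`; and every function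
with `o γ f ≥ 0` for all `γ` is integral over the local ring of `k(x)` at `x = a`.
Then the zeros of `x - a` are in bijection with the classes. -/
theorem card_zeros_eq_card_quotient_ordFn (a : k) {X : Type*} [Fintype X] (r : Setoid X)
    (hX : Fintype.card X = c.degree) (o : X → OrdFn k F)
    (E d : X → ℤ) (hE : ∀ γ, (o γ).ord (c.x - algebraMap k F a) = E γ) (hE0 : ∀ γ, 0 < E γ)
    (hd : ∀ γ, 0 < d γ) (hdiv : ∀ γ (f : F), f ≠ 0 → d γ ∣ (o γ).ord f)
    (hEd : ∀ γ, E γ ≤ d γ * Nat.card {γ' // r γ' γ})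
    (hr : ∀ γ γ', r γ γ' → ∀ f : F, f ≠ 0 → (o γ).ord f = (o γ').ord f)
    (hint : ∀ f : F, f ≠ 0 → (∀ γ, 0 ≤ (o γ).ord f) → IsIntegral (c.localSubring a) f) :
    (c.zeros a).card = Nat.card (Quotient r) ∧
      (∀ γ, (o γ).toPlace.ord (c.x - algebraMap k F a) = Nat.card {γ' // r γ' γ}) ∧
      (∀ γ γ', (o γ).toPlace = (o γ').toPlace → r γ γ') ∧
      (∀ v ∈ c.zeros a, ∃ γ, (o γ).toPlace = v) := by
  have hxa := c.x_sub_ne_zero a
  apply c.card_zeros_eq_card_quotient a r hX (fun γ => (o γ).toPlace)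
  · intro γ
    rw [c.mem_zeros, (o γ).toPlace_ord_pos_iff hxa, hE]; exact hE0 γ
  · intro γ γ' h
    exact OrdFn.toPlace_eq_of_ord_eq _ _ (hr γ γ' h)
  · intro f hf v hv
    by_cases hf0 : f = 0
    · rw [hf0]; exact zero_mem _
    apply c.mem_of_isIntegral_localSubring (c.mem_zeros.mp hv)
    apply hint f hf0
    intro γ
    exact ((o γ).mem_toPlace_iff hf0).mp (hf γ)
  · intro γ
    have h1 := (o γ).toPlace_ord_mul_le (d γ) (hdiv γ) hxa (by rw [hE]; exact (hE0 γ).le)
    rw [hE] at h1
    have h2 := hEd γ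
    have h3 : (o γ).toPlace.ord (c.x - algebraMap k F a) * d γ
        ≤ (Nat.card {γ' // r γ' γ} : ℤ) * d γ := by
      rw [mul_comm (Nat.card {γ' // r γ' γ} : ℤ)]; exact h1.trans h2
    exact le_of_mul_le_mul_right h3 (hd γ)

/-- **Squeeze theorem at the poles, `OrdFn` form.** -/
theorem card_poles_eq_card_quotient_ordFn {X : Type*} [Fintype X] (r : Setoid X)
    (hX : Fintype.card X = c.degree) (o : X → OrdFn k F)
    (E d : X → ℤ) (hE : ∀ γ, (o γ).ord c.x = -E γ) (hE0 : ∀ γ, 0 < E γ)
    (hd : ∀ γ, 0 < d γ) (hdiv : ∀ γ (f : F), f ≠ 0 → d γ ∣ (o γ).ord f)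
    (hEd : ∀ γ, E γ ≤ d γ * Nat.card {γ' // r γ' γ})
    (hr : ∀ γ γ', r γ γ' → ∀ f : F, f ≠ 0 → (o γ).ord f = (o γ').ord f)
    (hint : ∀ f : F, f ≠ 0 → (∀ γ, 0 ≤ (o γ).ord f) → IsIntegral (c.inv.localSubring 0) f) :
    c.poles.card = Nat.card (Quotient r) ∧
      (∀ γ, -(o γ).toPlace.ord c.x = Nat.card {γ' // r γ' γ}) ∧
      (∀ γ γ', (o γ).toPlace = (o γ').toPlace → r γ γ') ∧
      (∀ v ∈ c.poles, ∃ γ, (o γ).toPlace = v) := by
  have hz := c.zeros_inv_zero
  have hx0 : c.x ≠ 0 := by
    intro h0; apply c.trans; rw [h0]; exact isAlgebraic_zero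
  have hord : ∀ v : Place k F, v.ord (c.inv.x - algebraMap k F 0) = -v.ord c.x := by
    intro v; rw [map_zero, sub_zero, inv_x, v.ord_inv]
  have := c.inv.card_zeros_eq_card_quotient_ordFn 0 r (by rw [hX, degree_inv]) o E d
    (fun γ => by rw [map_zero, sub_zero, inv_x, (o γ).ord_inv hx0, hE, neg_neg]) hE0 hd hdiv hEd
    hr hint
  simp only [hord, hz] at this
  exact this

end AlgClosedOrdFn

end Coord

end Fermat.Agent.FF
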