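import Mathlib
import Fermat.Agent.FF.RR_helper3_Pair
import Fermat.Agent.FF.Canonical
import Fermat.Agent.FF.Squeeze

/-!
# The place dictionary

In the typeclass setting of `RR_helper3_Pair` (a finite separable extension `F` of `K(X)`), the
places of `F/K` are the height one primes of `B = ringOfIntegers K F` (places where `x` is regular)
together with the height one primes of `ringAtInfty K F` (poles of `x`).
-/

set_option autoImplicit false
set_option linter.unusedSectionVars false
set_option linter.style.haveILetI false

open Polynomial AlgebraicCurve IsDedekindDomain WithZero IntermediateField KaehlerDifferential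

namespace Fermat.Agent.FF

open RR

variable (K F : Type*) [Field K] [Field F] [Algebra K F] [Algebra K[X] F] [Algebra (RatFunc K) F]
  [IsScalarTower K[X] (RatFunc K) F] [IsScalarTower K K[X] F] [IsScalarTower K (RatFunc K) F]
  [FiniteDimensional (RatFunc K) F] [Algebra.IsSeparable (RatFunc K) F]

local notation "B" => FunctionField.ringOfIntegers K F
local notation "Binf" => ringAtInfty K F

theorem xF_eq_coord : xF K F = coord K F := (coord_eq_algebraMap_ratFunc K F).symm

theorem algebraMap_poly_eq_aeval_xF (p : K[X]) : algebraMap K[X] F p = aeval (xF K F) p := by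
  rw [xF_eq_coord]; exact algebraMap_poly_eq_aeval K F p

theorem algebraMap_ratFunc_eq_div (f : RatFunc K) :
    algebraMap (RatFunc K) F f = aeval (xF K F) f.num / aeval (xF K F) f.denom := by
  conv_lhs => rw [← RatFunc.num_div_denom f]
  rw [map_div₀, ← IsScalarTower.algebraMap_apply, ← IsScalarTower.algebraMap_apply,
    algebraMap_poly_eq_aeval_xF, algebraMap_poly_eq_aeval_xF]

theorem aeval_mem_adjoin_simple (y : F) (p : K[X]) : aeval y p ∈ K⟮y⟯ := by
  rw [aeval_eq_sum_range]
  refine sum_mem fun i _ => ?_
  rw [Algebra.smul_def]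
  exact mul_mem (IntermediateField.algebraMap_mem _ _) (pow_mem (mem_adjoin_simple_self K y) _)

theorem algebraMap_ratFunc_mem (f : RatFunc K) : algebraMap (RatFunc K) F f ∈ K⟮xF K F⟯ := by
  rw [algebraMap_ratFunc_eq_div]
  exact div_mem (aeval_mem_adjoin_simple K F _ _) (aeval_mem_adjoin_simple K F _ _)

theorem transcendental_xF : Transcendental K (xF K F) :=
  (transcendental_algebraMap_iff (algebraMap (RatFunc K) F).injective).mpr RatFunc.transcendental_X

theorem finiteDimensional_adjoin_xF : FiniteDimensional K⟮xF K F⟯ F := by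
  classical
  let b := Module.finBasis (RatFunc K) F
  refine Module.finite_def.mpr ⟨Finset.univ.image b, ?_⟩
  rw [eq_top_iff]
  intro y _
  rw [← b.sum_repr y]
  refine Submodule.sum_mem _ fun i _ => ?_
  have : (b.repr y i) • b i
      = (⟨algebraMap (RatFunc K) F (b.repr y i), algebraMap_ratFunc_mem K F _⟩ : K⟮xF K F⟯) • b i := by
    rw [Algebra.smul_def]; rfl
  rw [this]
  refine Submodule.smul_mem _ _ (Submodule.subset_span ?_)
  simp

/-- The coordinate `x` of the typeclass setting as a `Coord`. -/
noncomputable def coordTC : Coord K F where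
  x := xF K F
  trans := transcendental_xF K F
  fin := finiteDimensional_adjoin_xF K F

@[simp] theorem coordTC_x : (coordTC K F).x = xF K F := rfl


variable {K F}

theorem aeval_eq_pow_mul_aeval_inv_reverse {y : F} (hy : y ≠ 0) (p : K[X]) :
    aeval y p = y ^ p.natDegree * aeval y⁻¹ p.reverse := by
  letI := invertibleOfNonzero hy
  have := eval₂_reverse_mul_pow (algebraMap K F) y p
  rw [invOf_eq_inv] at this
  rw [aeval_def, aeval_def, ← this, mul_comm]

/-- The local ring at infinity of `K(X)` is contained in the valuation ring of every pole of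
`x`. -/
theorem algebraMap_Oinf_mem (v : Place K F) (hv : xF K F ∉ v.toValuationSubring)
    {f : RatFunc K} (hf : f ∈ Oinf K) : algebraMap (RatFunc K) F f ∈ v.toValuationSubring := by
  by_cases hf0 : f = 0
  · rw [hf0, map_zero]; exact zero_mem _
  have hdeg : f.intDegree ≤ 0 := (mem_Oinf_of_ne_zero hf0).mp hf
  set x := xF K F with hx
  have hx0 : x ≠ 0 := xF_ne_zero
  set y := x⁻¹ with hy
  have hy0 : y ≠ 0 := inv_ne_zero hx0
  have hordx : v.ord x < 0 := by
    by_contra h
    exact hv ((PlaceAux.mem_iff_ord_nonneg' v hx0).mpr (not_lt.mp h))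
  have hordy : 0 < v.ord y := by rw [hy, v.ord_inv]; omega
  have hymem : y ∈ v.toValuationSubring := (PlaceAux.mem_iff_ord_nonneg' v hy0).mpr hordy.le
  have hordy' : 0 < v.ord (y - algebraMap K F 0) := by rwa [map_zero, sub_zero]
  -- numerator and denominator
  set p := f.num with hp
  set q := f.denom with hq
  have hq0 : q ≠ 0 := RatFunc.denom_ne_zero f
  have hdd : p.natDegree ≤ q.natDegree := by
    have h := hdeg
    rw [RatFunc.intDegree, ← hp, ← hq] at h
    omega
  have hqrev : q.reverse.eval 0 ≠ 0 := by
    rw [← coeff_zero_eq_eval_zero, coeff_zero_reverse]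
    exact leadingCoeff_ne_zero.mpr hq0
  obtain ⟨hQ0, hQord⟩ := ord_aeval_eq_zero_of_eval_ne_zero v hordy' hqrev
  have hPmem := aeval_mem_valuationSubring v hymem p.reverse
  have hxy : x = y⁻¹ := by rw [hy, inv_inv]
  have key : algebraMap (RatFunc K) F f
      = y ^ (q.natDegree - p.natDegree) * aeval y p.reverse / aeval y q.reverse := by
    rw [algebraMap_ratFunc_eq_div, ← hx, ← hp, ← hq, aeval_eq_pow_mul_aeval_inv_reverse hx0 p,
      aeval_eq_pow_mul_aeval_inv_reverse hx0 q, ← hy, hxy]
    have h1 : (y⁻¹) ^ q.natDegree = (y⁻¹) ^ p.natDegree * (y⁻¹) ^ (q.natDegree - p.natDegree) := by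
      rw [← pow_add, Nat.add_sub_cancel' hdd]
    rw [h1]
    field_simp
    rw [one_div, mul_assoc, ← mul_pow, inv_mul_cancel₀ hy0, one_pow, mul_one]
  rw [key]
  set N := y ^ (q.natDegree - p.natDegree) * aeval y p.reverse with hN
  have hNmem : N ∈ v.toValuationSubring := mul_mem (pow_mem hymem _) hPmem
  by_cases hN0 : N = 0
  · rw [hN0, zero_div]; exact zero_mem _
  rw [PlaceAux.mem_iff_ord_nonneg' v (div_ne_zero hN0 hQ0), PlaceAux.ord_div v hN0 hQ0, hQord,
    sub_zero]
  exact PlaceAux.ord_nonneg_of_mem v hNmem


/-- The ring at infinity is contained in the valuation ring of every pole of `x`. -/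
theorem ringAtInfty_mem (v : Place K F) (hv : xF K F ∉ v.toValuationSubring) (r : Binf) :
    algebraMap Binf F r ∈ v.toValuationSubring := by
  have hr : IsIntegral (Oinf K) (algebraMap Binf F r) := r.2
  refine mem_of_isIntegral_of_forall_mem v.toValuationSubring (A := Oinf K) (fun a => ?_) hr
  rw [IsScalarTower.algebraMap_apply (Oinf K) (RatFunc K) F]
  exact algebraMap_Oinf_mem v hv a.2

/-- `x` is regular at the places coming from the ring of integers. -/
theorem xF_mem_placeOf (P : HeightOneSpectrum B) :
    xF K F ∈ (placeOf (k := K) (F := F) P).toValuationSubring := by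
  rw [xF_eq_coord, coord_eq_algebraMap_ringOfIntegers]
  exact algebraMap_mem_placeOf P _

/-- `x⁻¹` as an element of `Oinf K`. -/
noncomputable def invX : Oinf K := ⟨(RatFunc.X : RatFunc K)⁻¹, by
  have := X_zpow_mem_Oinf (K := K) (m := -1) (by norm_num)
  rwa [zpow_neg_one] at this⟩

theorem invX_mem_maximalIdeal : invX (K := K) ∈ IsLocalRing.maximalIdeal (Oinf K) := by
  rw [mem_maximalIdeal_iff_isSmall]
  right
  show ((RatFunc.X : RatFunc K)⁻¹).intDegree < 0
  rw [← zpow_neg_one, intDegree_X_zpow]
  norm_num

/-- `x` has a pole at the places coming from the ring at infinity. -/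
theorem xF_not_mem_placeOf (Q : HeightOneSpectrum Binf) :
    xF K F ∉ (placeOf (k := K) (F := F) Q).toValuationSubring := by
  haveI : Algebra.IsIntegral (Oinf K) Binf := IsIntegralClosure.isIntegral_algebra (Oinf K) F
  -- the contraction of `Q` is the maximal ideal
  set q : Ideal (Oinf K) := Q.asIdeal.comap (algebraMap (Oinf K) Binf) with hq
  have hqne : q ≠ ⊥ := Ideal.IsIntegral.comap_ne_bot (Oinf K) Q.ne_bot
  haveI hqprime : q.IsPrime := Ideal.comap_isPrime _ _
  have hqmax : q.IsMaximal := hqprime.isMaximal hqne
  have hqeq : q = IsLocalRing.maximalIdeal (Oinf K) := IsLocalRing.eq_maximalIdeal hqmax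
  have hmem : algebraMap (Oinf K) Binf invX ∈ Q.asIdeal := by
    have : invX (K := K) ∈ q := by rw [hqeq]; exact invX_mem_maximalIdeal
    exact this
  have hne : algebraMap (Oinf K) Binf (invX (K := K)) ≠ 0 := by
    intro h0
    have h1 : algebraMap Binf F (algebraMap (Oinf K) Binf (invX (K := K))) = 0 := by
      rw [h0, map_zero]
    rw [← IsScalarTower.algebraMap_apply, IsScalarTower.algebraMap_apply (Oinf K) (RatFunc K) F]
      at h1
    have h2 : ((RatFunc.X : RatFunc K)⁻¹) = 0 := (algebraMap (RatFunc K) F).injective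
      (h1.trans (map_zero _).symm)
    exact inv_ne_zero RatFunc.X_ne_zero h2
  have hpos := (ord_placeOf_algebraMap_pos_iff (k := K) (F := F) Q _ hne).mpr hmem
  rw [← IsScalarTower.algebraMap_apply, IsScalarTower.algebraMap_apply (Oinf K) (RatFunc K) F]
    at hpos
  have hval : algebraMap (RatFunc K) F ((invX (K := K) : Oinf K) : RatFunc K) = (xF K F)⁻¹ := by
    show algebraMap (RatFunc K) F ((RatFunc.X : RatFunc K)⁻¹) = _
    rw [map_inv₀]; rfl
  have hpos' : 0 < (placeOf (k := K) (F := F) Q).ord ((xF K F)⁻¹) := by
    rw [← hval]; exact hpos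
  rw [Place.ord_inv] at hpos'
  intro hmem'
  have := PlaceAux.ord_nonneg_of_mem _ hmem'
  omega

theorem exists_placeOf_fin_eq (v : Place K F) (h : xF K F ∈ v.toValuationSubring) :
    ∃ P : HeightOneSpectrum B, placeOf (k := K) (F := F) P = v :=
  exists_placeOf_eq v (ringOfIntegers_mem v (by rwa [← xF_eq_coord]))

theorem exists_placeOf_inf_eq (v : Place K F) (h : xF K F ∉ v.toValuationSubring) :
    ∃ Q : HeightOneSpectrum Binf, placeOf (k := K) (F := F) Q = v :=
  exists_placeOf_eq v (ringAtInfty_mem v h)

variable (K F) in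
/-- The map underlying the place dictionary. -/
noncomputable def placeSum : HeightOneSpectrum B ⊕ HeightOneSpectrum Binf → Place K F :=
  Sum.elim (fun P => placeOf (k := K) (F := F) P) (fun Q => placeOf (k := K) (F := F) Q)

theorem placeSum_bijective : Function.Bijective (placeSum K F) := by
  constructor
  · rintro (P | Q) (P' | Q') h
    · exact congrArg Sum.inl (placeOf_injective h)
    · exfalso
      have h1 := xF_mem_placeOf (K := K) (F := F) P
      have h2 := xF_not_mem_placeOf (K := K) (F := F) Q'
      change placeOf (k := K) (F := F) P = placeOf (k := K) (F := F) Q' at h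
      rw [h] at h1
      exact h2 h1
    · exfalso
      have h1 := xF_mem_placeOf (K := K) (F := F) P'
      have h2 := xF_not_mem_placeOf (K := K) (F := F) Q
      change placeOf (k := K) (F := F) Q = placeOf (k := K) (F := F) P' at h
      rw [← h] at h1
      exact h2 h1
    · exact congrArg Sum.inr (placeOf_injective h)
  · intro v
    by_cases h : xF K F ∈ v.toValuationSubring
    · obtain ⟨P, hP⟩ := exists_placeOf_fin_eq v h
      exact ⟨Sum.inl P, hP⟩
    · obtain ⟨Q, hQ⟩ := exists_placeOf_inf_eq v h
      exact ⟨Sum.inr Q, hQ⟩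

variable (K F) in
/-- **The place dictionary**: the places of `F/K` are the primes of the ring of integers and the
primes of the ring at infinity. -/
noncomputable def placeSumEquiv :
    HeightOneSpectrum B ⊕ HeightOneSpectrum Binf ≃ Place K F :=
  Equiv.ofBijective (placeSum K F) placeSum_bijective

@[simp] theorem placeSumEquiv_inl (P : HeightOneSpectrum B) :
    placeSumEquiv K F (Sum.inl P) = placeOf (k := K) (F := F) P := rfl

@[simp] theorem placeSumEquiv_inr (Q : HeightOneSpectrum Binf) :
    placeSumEquiv K F (Sum.inr Q) = placeOf (k := K) (F := F) Q := rfl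


section General

variable {k F' : Type*} [Field k] [Field F'] [Algebra k F']
variable {R : Type*} [CommRing R] [IsDedekindDomain R] [Algebra R F'] [IsFractionRing R F']
  [Algebra k R] [IsScalarTower k R F']

/-- Translation between the adic valuation of a prime and the order at the corresponding place. -/
theorem valuation_le_exp_iff (w : HeightOneSpectrum R) (f : F') (n : ℤ) :
    w.valuation F' f ≤ exp n ↔ f = 0 ∨ -n ≤ (placeOf (k := k) (F := F') w).ord f := by
  rcases eq_or_ne f 0 with rfl | hf
  · simp
  · rw [or_iff_right hf, ord_placeOf w hf, neg_le_neg_iff,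
      WithZero.log_le_iff_le_exp ((Valuation.ne_zero_iff _).mpr hf)]

theorem valuation_eq_exp_neg_ord (w : HeightOneSpectrum R) {f : F'} (hf : f ≠ 0) :
    w.valuation F' f = exp (-(placeOf (k := k) (F := F') w).ord f) := by
  rw [ord_placeOf w hf, neg_neg, WithZero.exp_log ((Valuation.ne_zero_iff _).mpr hf)]

end General

/-- **Riemann–Roch spaces in ideal language.** -/
theorem mem_riemannRochSpace_iff_valuation (W : Divisor K F) (f : F) :
    f ∈ riemannRochSpace W ↔
      (∀ P : HeightOneSpectrum B, P.valuation F f ≤ exp (W (placeOf (k := K) (F := F) P))) ∧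
      (∀ Q : HeightOneSpectrum Binf, Q.valuation F f ≤ exp (W (placeOf (k := K) (F := F) Q))) := by
  rw [mem_riemannRochSpace_iff]
  constructor
  · intro h
    exact ⟨fun P => (valuation_le_exp_iff (k := K) P f _).mpr (h _),
      fun Q => (valuation_le_exp_iff (k := K) Q f _).mpr (h _)⟩
  · rintro ⟨h1, h2⟩ v
    by_cases h : xF K F ∈ v.toValuationSubring
    · obtain ⟨P, rfl⟩ := exists_placeOf_fin_eq v h
      exact (valuation_le_exp_iff (k := K) P f _).mp (h1 P)
    · obtain ⟨Q, rfl⟩ := exists_placeOf_inf_eq v h
      exact (valuation_le_exp_iff (k := K) Q f _).mp (h2 Q)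

section Degree

open scoped Classical in
/-- The finite part of the support of a divisor, as primes of the ring of integers. -/
noncomputable def finSupport (W : Divisor K F) : Finset (HeightOneSpectrum B) :=
  W.support.preimage (fun P => placeOf (k := K) (F := F) P) placeOf_injective.injOn

open scoped Classical in
/-- The infinite part of the support of a divisor, as primes of the ring at infinity. -/
noncomputable def infSupport (W : Divisor K F) : Finset (HeightOneSpectrum Binf) :=
  W.support.preimage (fun Q => placeOf (k := K) (F := F) Q) placeOf_injective.injOn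

theorem mem_finSupport {W : Divisor K F} {P : HeightOneSpectrum B} :
    P ∈ finSupport W ↔ W (placeOf (k := K) (F := F) P) ≠ 0 := by
  classical
  rw [finSupport, Finset.mem_preimage, Finsupp.mem_support_iff]

theorem mem_infSupport {W : Divisor K F} {Q : HeightOneSpectrum Binf} :
    Q ∈ infSupport W ↔ W (placeOf (k := K) (F := F) Q) ≠ 0 := by
  classical
  rw [infSupport, Finset.mem_preimage, Finsupp.mem_support_iff]

/-- **Degree of a divisor in ideal language** (all places have degree one). -/
theorem degree_eq_sum_add_sum (hdeg : ∀ v : Place K F, v.deg = 1) (W : Divisor K F) :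
    Divisor.degree W = ∑ P ∈ finSupport W, W (placeOf (k := K) (F := F) P)
      + ∑ Q ∈ infSupport W, W (placeOf (k := K) (F := F) Q) := by
  classical
  set S₁ : Finset (Place K F) := (finSupport W).map
    ⟨fun P => placeOf (k := K) (F := F) P, placeOf_injective⟩ with hS₁
  set S₂ : Finset (Place K F) := (infSupport W).map
    ⟨fun Q => placeOf (k := K) (F := F) Q, placeOf_injective⟩ with hS₂
  have hdisj : Disjoint S₁ S₂ := by
    rw [Finset.disjoint_left]
    intro v h1 h2
    rw [hS₁, Finset.mem_map] at h1
    rw [hS₂, Finset.mem_map] at h2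
    obtain ⟨P, _, rfl⟩ := h1
    obtain ⟨Q, _, hQ⟩ := h2
    have := xF_mem_placeOf (K := K) (F := F) P
    simp only [Function.Embedding.coeFn_mk] at hQ this
    rw [← hQ] at this
    exact xF_not_mem_placeOf Q this
  have hsub : W.support ⊆ S₁ ∪ S₂ := by
    intro v hv
    rw [Finset.mem_union]
    by_cases h : xF K F ∈ v.toValuationSubring
    · obtain ⟨P, rfl⟩ := exists_placeOf_fin_eq v h
      left
      rw [hS₁, Finset.mem_map]
      exact ⟨P, mem_finSupport.mpr (Finsupp.mem_support_iff.mp hv), rfl⟩
    · obtain ⟨Q, rfl⟩ := exists_placeOf_inf_eq v h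
      right
      rw [hS₂, Finset.mem_map]
      exact ⟨Q, mem_infSupport.mpr (Finsupp.mem_support_iff.mp hv), rfl⟩
  rw [degree_eq_sum_of_support_subset W _ hsub, Finset.sum_union hdisj, hS₁, hS₂,
    Finset.sum_map, Finset.sum_map]
  simp only [Function.Embedding.coeFn_mk, hdeg, Nat.cast_one, mul_one]

theorem finite_support_fin (W : Divisor K F) :
    (Function.support fun P : HeightOneSpectrum B => W (placeOf (k := K) (F := F) P)).Finite :=
  (finSupport W).finite_toSet.subset fun _ hP => Finset.mem_coe.mpr (mem_finSupport.mpr hP)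

theorem finite_support_inf (W : Divisor K F) :
    (Function.support fun Q : HeightOneSpectrum Binf => W (placeOf (k := K) (F := F) Q)).Finite :=
  (infSupport W).finite_toSet.subset fun _ hQ => Finset.mem_coe.mpr (mem_infSupport.mpr hQ)

/-- `finsum` form of the degree formula. -/
theorem degree_eq_finsum_add_finsum (hdeg : ∀ v : Place K F, v.deg = 1) (W : Divisor K F) :
    Divisor.degree W = ∑ᶠ P : HeightOneSpectrum B, W (placeOf (k := K) (F := F) P)
      + ∑ᶠ Q : HeightOneSpectrum Binf, W (placeOf (k := K) (F := F) Q) := by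
  rw [degree_eq_sum_add_sum hdeg W,
    finsum_eq_sum_of_support_subset _ (s := finSupport W)
      (fun _ hP => Finset.mem_coe.mpr (mem_finSupport.mpr hP)),
    finsum_eq_sum_of_support_subset _ (s := infSupport W)
      (fun _ hQ => Finset.mem_coe.mpr (mem_infSupport.mpr hQ))]

end Degree

section Canonical

variable [CharZero K] [IsAlgClosed K]

variable (K F) in
theorem deg_eq_one_TC (v : Place K F) : v.deg = 1 := (coordTC K F).deg_eq_one v

/-- For every prime `P` of the ring of integers there is a value `a = x(P)`. -/
theorem exists_ord_sub_pos (P : HeightOneSpectrum B) :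
    ∃ a : K, 0 < (placeOf (k := K) (F := F) P).ord (xF K F - algebraMap K F a) := by
  rcases (coordTC K F).mem_poles_or_exists_mem_zeros (placeOf (k := K) (F := F) P) with h | ⟨a, h⟩
  · exfalso
    have h1 := (coordTC K F).mem_poles.mp h
    have h2 := PlaceAux.ord_nonneg_of_mem _ (xF_mem_placeOf (K := K) (F := F) P)
    rw [coordTC_x] at h1
    omega
  · exact ⟨a, (coordTC K F).mem_zeros.mp h⟩

theorem ord_xF_neg (Q : HeightOneSpectrum Binf) : (placeOf (k := K) (F := F) Q).ord (xF K F) < 0 := by
  by_contra h
  exact xF_not_mem_placeOf Q ((PlaceAux.mem_iff_ord_nonneg' _ xF_ne_zero).mpr (not_lt.mp h))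

/-- **The divisor of `dx` at a finite place.** -/
theorem ordDifferential_D_xF_fin (P : HeightOneSpectrum B) {a : K}
    (ha : 0 < (placeOf (k := K) (F := F) P).ord (xF K F - algebraMap K F a)) :
    (placeOf (k := K) (F := F) P).ordDifferential (D K F (xF K F))
      = (placeOf (k := K) (F := F) P).ord (xF K F - algebraMap K F a) - 1 :=
  ((coordTC K F).ordDifferential_D_x_of_mem_zeros ((coordTC K F).mem_zeros.mpr ha)).2

/-- **The divisor of `dx` at an infinite place.** -/
theorem ordDifferential_D_xF_inf (Q : HeightOneSpectrum Binf) :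
    (placeOf (k := K) (F := F) Q).ordDifferential (D K F (xF K F))
      = (placeOf (k := K) (F := F) Q).ord (xF K F) - 1 :=
  ((coordTC K F).ordDifferential_D_x_of_mem_poles
    ((coordTC K F).mem_poles.mpr (ord_xF_neg Q))).2

/-- In valuation language: `exp (W P) = (P.valuation (x - a))⁻¹ * exp (-1)`, i.e.
`W P = e_P - 1` with `e_P = -log (P.valuation (x - a))`. -/
theorem ordDifferential_D_xF_fin' (P : HeightOneSpectrum B) {a : K}
    (ha : 0 < (placeOf (k := K) (F := F) P).ord (xF K F - algebraMap K F a)) :
    (placeOf (k := K) (F := F) P).ordDifferential (D K F (xF K F))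
      = -(P.valuation F (xF K F - algebraMap K F a)).log - 1 := by
  have h0 : xF K F - algebraMap K F a ≠ 0 := by
    intro h; rw [h, Place.ord_zero] at ha; exact lt_irrefl _ ha
  rw [ordDifferential_D_xF_fin P ha, ord_placeOf P h0]

theorem ordDifferential_D_xF_inf' (Q : HeightOneSpectrum Binf) :
    (placeOf (k := K) (F := F) Q).ordDifferential (D K F (xF K F))
      = -(Q.valuation F (xF K F)).log - 1 := by
  rw [ordDifferential_D_xF_inf Q, ord_placeOf Q xF_ne_zero]

end Canonical


/-- **From a `Coord` to the typeclass setting**: all instances of the setting of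
`RR_helper3_Pair` / this file, with `xF = c.x`. Usage:
`obtain ⟨i1, i2, i3, i4, i5, i6, i7, hx⟩ := c.exists_typeclass_setting`. -/
theorem Coord.exists_typeclass_setting {k F : Type*} [Field k] [Field F] [Algebra k F]
    [CharZero k] (c : Coord k F) :
    ∃ (_ : Algebra k[X] F) (_ : Algebra (RatFunc k) F) (_ : IsScalarTower k[X] (RatFunc k) F)
      (_ : IsScalarTower k k[X] F) (_ : IsScalarTower k (RatFunc k) F)
      (_ : FiniteDimensional (RatFunc k) F) (_ : Algebra.IsSeparable (RatFunc k) F),
      xF k F = c.x := by
  letI := c.algPoly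
  letI := c.algRat
  haveI := c.tower1
  haveI := c.tower2
  haveI := c.tower3
  haveI : FunctionField k F := c.functionField
  haveI : CharZero (RatFunc k) :=
    charZero_of_injective_algebraMap (algebraMap k (RatFunc k)).injective
  haveI : Algebra.IsSeparable (RatFunc k) F := inferInstance
  exact ⟨c.algPoly, c.algRat, c.tower1, c.tower2, c.tower3, c.functionField, inferInstance,
    (xF_eq_coord k F).trans c.coord_eq⟩

end Fermat.Agent.FF
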