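import Mathlib

/-!
# Fractional ideals of a Dedekind domain and valuations

Membership in a nonzero fractional ideal is detected by the valuations at all primes.
-/

set_option autoImplicit false
set_option linter.style.haveILetI false
set_option linter.unusedSectionVars false

namespace Fermat.Agent.FF.RR

open IsDedekindDomain IsDedekindDomain.HeightOneSpectrum FractionalIdeal nonZeroDivisors WithZero

variable {R : Type*} [CommRing R] [IsDedekindDomain R] {L : Type*} [Field L] [Algebra R L]
  [IsFractionRing R L]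

theorem spanSingleton_ne_zero' {x : L} (hx : x ≠ 0) : spanSingleton R⁰ x ≠ 0 := by
  rwa [ne_eq, spanSingleton_eq_zero_iff]

theorem valuation_eq_exp_neg_count (v : HeightOneSpectrum R) {x : L} (hx : x ≠ 0) :
    v.valuation L x = exp (-(count L v (spanSingleton R⁰ x))) := by
  obtain ⟨⟨n, d⟩, hnd⟩ := IsLocalization.surj R⁰ x
  simp only at hnd
  have hd0 : (d : R) ≠ 0 := nonZeroDivisors.coe_ne_zero d
  have hd0' : algebraMap R L d ≠ 0 := by
    rwa [ne_eq, map_eq_zero_iff _ (IsFractionRing.injective R L)]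
  have hn0 : n ≠ 0 := by
    rintro rfl
    rw [map_zero] at hnd
    exact (mul_ne_zero hx hd0') hnd
  have hx' : x = algebraMap R L n / algebraMap R L d := by
    rw [eq_div_iff hd0', hnd]
  have hI : spanSingleton R⁰ x = spanSingleton R⁰ ((algebraMap R L) d)⁻¹ * ↑(Ideal.span {n}) := by
    rw [coeIdeal_span_singleton, spanSingleton_mul_spanSingleton, hx', div_eq_inv_mul]
  rw [count_well_defined L v (spanSingleton_ne_zero' hx) hI, hx', map_div₀,
    valuation_of_algebraMap, valuation_of_algebraMap, intValuation_if_neg _ hn0,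
    intValuation_if_neg _ hd0, ← exp_sub]
  congr 1
  ring

theorem le_one_of_count_nonneg {I : FractionalIdeal R⁰ L} (hI : I ≠ 0)
    (h : ∀ v : HeightOneSpectrum R, 0 ≤ count L v I) : I ≤ 1 := by
  rw [← finprod_heightOneSpectrum_factorization' L hI]
  refine finprod_induction (fun J : FractionalIdeal R⁰ L => J ≤ 1) le_rfl ?_ ?_
  · intro a b ha hb
    calc a * b ≤ 1 * 1 := mul_le_mul' ha hb
      _ = 1 := one_mul 1
  · intro v
    obtain ⟨m, hm⟩ := Int.eq_ofNat_of_zero_le (h v)
    rw [hm, zpow_natCast, ← coeIdeal_pow]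
    exact coeIdeal_le_one

theorem le_of_count_le {I J : FractionalIdeal R⁰ L} (hI : I ≠ 0) (hJ : J ≠ 0)
    (h : ∀ v : HeightOneSpectrum R, count L v J ≤ count L v I) : I ≤ J := by
  have h1 : I * J⁻¹ ≤ 1 := by
    refine le_one_of_count_nonneg (mul_ne_zero hI (inv_ne_zero hJ)) fun v => ?_
    rw [count_mul L v hI (inv_ne_zero hJ), count_inv]
    linarith [h v]
  calc I = I * J⁻¹ * J := by rw [mul_assoc, inv_mul_cancel₀ hJ, mul_one]
    _ ≤ 1 * J := mul_le_mul' h1 le_rfl
    _ = J := one_mul J

theorem le_iff_count_le {I J : FractionalIdeal R⁰ L} (hI : I ≠ 0) (hJ : J ≠ 0) :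
    I ≤ J ↔ ∀ v : HeightOneSpectrum R, count L v J ≤ count L v I :=
  ⟨fun h v => count_mono L v hI h, le_of_count_le hI hJ⟩

theorem eq_of_count_eq {I J : FractionalIdeal R⁰ L} (hI : I ≠ 0) (hJ : J ≠ 0)
    (h : ∀ v : HeightOneSpectrum R, count L v I = count L v J) : I = J :=
  le_antisymm (le_of_count_le hI hJ fun v => (h v).ge) (le_of_count_le hJ hI fun v => (h v).le)

/-- Membership in a nonzero fractional ideal is detected by valuations. -/
theorem mem_iff_valuation_le {I : FractionalIdeal R⁰ L} (hI : I ≠ 0) {x : L} :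
    x ∈ I ↔ ∀ v : HeightOneSpectrum R, v.valuation L x ≤ exp (-(count L v I)) := by
  rcases eq_or_ne x 0 with rfl | hx
  · simp only [map_zero, _root_.zero_le, implies_true, iff_true]
    exact zero_mem I
  rw [← spanSingleton_le_iff_mem, le_iff_count_le (spanSingleton_ne_zero' hx) hI]
  refine forall_congr' fun v => ?_
  rw [valuation_eq_exp_neg_count v hx, exp_le_exp, neg_le_neg_iff]

/-- The exponents of a fractional ideal, as a finitely supported function. -/
noncomputable def countFinsupp (I : FractionalIdeal R⁰ L) : HeightOneSpectrum R →₀ ℤ :=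
  Finsupp.ofSupportFinite (fun v => count L v I) (by
    have h := finite_factors (K := L) I
    rw [Filter.eventually_cofinite] at h
    exact h)

@[simp]
theorem countFinsupp_apply (I : FractionalIdeal R⁰ L) (v : HeightOneSpectrum R) :
    countFinsupp I v = count L v I := rfl

theorem prod_countFinsupp {I : FractionalIdeal R⁰ L} (hI : I ≠ 0) :
    (countFinsupp I).prod (fun v k => (v.asIdeal : FractionalIdeal R⁰ L) ^ k) = I := by
  have h0 : (countFinsupp I).prod (fun v k => (v.asIdeal : FractionalIdeal R⁰ L) ^ k) ≠ 0 := by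
    rw [Finsupp.prod, Finset.prod_ne_zero_iff]
    intro v _
    exact zpow_ne_zero _ (coeIdeal_ne_zero.mpr v.ne_bot)
  refine eq_of_count_eq h0 hI fun v => ?_
  rw [count_finsuppProd, countFinsupp_apply]

theorem sum_countFinsupp (I : FractionalIdeal R⁰ L) :
    (countFinsupp I).sum (fun _ k => k) = ∑ᶠ v, count L v I := by
  rw [Finsupp.sum, finsum_eq_sum_of_support_subset]
  · rfl
  · intro v hv
    rw [Function.mem_support] at hv
    rw [Finset.mem_coe, Finsupp.mem_support_iff, countFinsupp_apply]
    exact hv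

/-- A function on nonzero fractional ideals which increases by one on division by a prime
is `f 1 - deg`. -/
theorem eq_sub_finsum_count (f : FractionalIdeal R⁰ L → ℤ)
    (hstep : ∀ I : FractionalIdeal R⁰ L, I ≠ 0 → ∀ v : HeightOneSpectrum R,
      f (I * (v.asIdeal : FractionalIdeal R⁰ L)⁻¹) = f I + 1)
    {I : FractionalIdeal R⁰ L} (hI : I ≠ 0) : f I = f 1 - ∑ᶠ v, count L v I := by
  have hv0 : ∀ v : HeightOneSpectrum R, (v.asIdeal : FractionalIdeal R⁰ L) ≠ 0 :=
    fun v => coeIdeal_ne_zero.mpr v.ne_bot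
  have hmul : ∀ I : FractionalIdeal R⁰ L, I ≠ 0 → ∀ v : HeightOneSpectrum R,
      f (I * (v.asIdeal : FractionalIdeal R⁰ L)) = f I - 1 := by
    intro I hI v
    have h := hstep (I * (v.asIdeal : FractionalIdeal R⁰ L)) (mul_ne_zero hI (hv0 v)) v
    rw [mul_assoc, mul_inv_cancel₀ (hv0 v), mul_one] at h
    linarith
  have hz : ∀ (v : HeightOneSpectrum R) (m : ℤ) (I : FractionalIdeal R⁰ L), I ≠ 0 →
      f (I * (v.asIdeal : FractionalIdeal R⁰ L) ^ m) = f I - m := by
    intro v m
    induction m using Int.induction_on with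
    | zero => intro I _; simp
    | succ k ih =>
      intro I hI
      rw [zpow_add_one₀ (hv0 v), ← mul_assoc,
        hmul _ (mul_ne_zero hI (zpow_ne_zero _ (hv0 v))) v, ih I hI]
      ring
    | pred k ih =>
      intro I hI
      rw [zpow_sub_one₀ (hv0 v), ← mul_assoc,
        hstep _ (mul_ne_zero hI (zpow_ne_zero _ (hv0 v))) v, ih I hI]
      ring
  have hn : ∀ (n : HeightOneSpectrum R →₀ ℤ) (I : FractionalIdeal R⁰ L), I ≠ 0 →
      f (I * n.prod (fun v k => (v.asIdeal : FractionalIdeal R⁰ L) ^ k))
        = f I - n.sum (fun _ k => k) := by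
    intro n
    induction n using Finsupp.induction with
    | zero => intro I _; simp
    | single_add v k n' hv hk ih =>
      intro I hI
      rw [Finsupp.prod_add_index' (fun _ => zpow_zero _) (fun v a b => zpow_add₀ (hv0 v) a b),
        Finsupp.prod_single_index (zpow_zero _), ← mul_assoc,
        ih _ (mul_ne_zero hI (zpow_ne_zero _ (hv0 v))), hz v k I hI,
        Finsupp.sum_add_index' (fun _ => rfl) (fun _ _ _ => rfl),
        Finsupp.sum_single_index rfl]
      ring
  have := hn (countFinsupp I) 1 one_ne_zero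
  rw [one_mul, prod_countFinsupp hI, sum_countFinsupp] at this
  exact this

end Fermat.Agent.FF.RR
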