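import Mathlib

/-!
# Dividing a fractional ideal by a prime with residue field `K`

If `P` is a maximal ideal of a Dedekind domain `R` (a `K`-algebra) with `R / P = K`, then for every
nonzero fractional ideal `I` the quotient `I P⁻¹ / I` is one-dimensional over `K`.
-/

set_option autoImplicit false
set_option linter.style.haveILetI false
set_option linter.unusedSectionVars false

namespace Fermat.Agent.FF.RR

open FractionalIdeal nonZeroDivisors Submodule

variable {K : Type*} [Field K] {R : Type*} [CommRing R] [IsDedekindDomain R] {L : Type*} [Field L]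
  [Algebra R L] [IsFractionRing R L] [Algebra K R] [Algebra K L] [IsScalarTower K R L]

/-- The `K`-subspace underlying a fractional ideal. -/
noncomputable def latOf (I : FractionalIdeal R⁰ L) : Submodule K L :=
  (I : Submodule R L).restrictScalars K

@[simp]
theorem mem_latOf {I : FractionalIdeal R⁰ L} {x : L} : x ∈ latOf (K := K) I ↔ x ∈ I := by
  rw [latOf, Submodule.restrictScalars_mem, FractionalIdeal.mem_coe]

theorem exists_latOf_mul_inv (I : FractionalIdeal R⁰ L) (hI : I ≠ 0) (P : Ideal R)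
    (hP : P.IsMaximal) (hP0 : P ≠ ⊥) (hsurj : ∀ b : R, ∃ c : K, b - algebraMap K R c ∈ P) :
    ∃ x : L, x ∉ I ∧
      latOf (K := K) (I * (P : FractionalIdeal R⁰ L)⁻¹) = latOf I ⊔ K ∙ x := by
  set P' : FractionalIdeal R⁰ L := (P : FractionalIdeal R⁰ L) with hP'
  have hP'0 : P' ≠ 0 := coeIdeal_ne_zero.mpr hP0
  have hP'1 : P' ≤ 1 := coeIdeal_le_one
  set I' := I * P'⁻¹ with hI'
  have hI'0 : I' ≠ 0 := mul_ne_zero hI (inv_ne_zero hP'0)
  have hI'P : I' * P' = I := by rw [hI', mul_assoc, inv_mul_cancel₀ hP'0, mul_one]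
  have hle : I ≤ I' := by
    calc I = I' * P' := hI'P.symm
      _ ≤ I' * 1 := mul_le_mul' le_rfl hP'1
      _ = I' := mul_one I'
  have hne : I ≠ I' := by
    intro h
    have h1 : I' * P' = I' * 1 := by rw [hI'P, mul_one, ← h]
    have h2 : P' = 1 := mul_left_cancel₀ hI'0 h1
    rw [hP', coeIdeal_eq_one] at h2
    exact hP.ne_top (by rwa [Ideal.one_eq_top] at h2)
  obtain ⟨x, hxI', hxI⟩ := SetLike.exists_of_lt (lt_of_le_of_ne hle hne)
  refine ⟨x, hxI, ?_⟩
  apply le_antisymm
  · intro y hy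
    rw [mem_latOf] at hy
    -- the fractional ideal `M = I + (x)` lies strictly between
    set M : FractionalIdeal R⁰ L := I + spanSingleton R⁰ x with hM
    have hIM : I ≤ M := le_sup_left
    have hxM : x ∈ M := by
      have : spanSingleton R⁰ x ≤ M := le_sup_right
      exact this (mem_spanSingleton_self R⁰ x)
    have hMI' : M ≤ I' := sup_le hle (spanSingleton_le_iff_mem.mpr hxI')
    have hN1 : M * I'⁻¹ ≤ 1 := by
      calc M * I'⁻¹ ≤ I' * I'⁻¹ := mul_le_mul' hMI' le_rfl
        _ = 1 := mul_inv_cancel₀ hI'0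
    have hNP : P' ≤ M * I'⁻¹ := by
      calc P' = I * I'⁻¹ := by
            rw [← hI'P, mul_comm I' P', mul_assoc, mul_inv_cancel₀ hI'0, mul_one]
        _ ≤ M * I'⁻¹ := mul_le_mul' hIM le_rfl
    obtain ⟨𝔫, h𝔫⟩ := le_one_iff_exists_coeIdeal.mp hN1
    have hP𝔫 : P ≤ 𝔫 := by
      rw [← h𝔫] at hNP
      exact (coeIdeal_le_coeIdeal L).mp hNP
    have hMeq : M = I' := by
      by_cases h𝔫top : 𝔫 = ⊤
      · have h1 : M * I'⁻¹ = 1 := by rw [← h𝔫, h𝔫top, coeIdeal_top]
        calc M = M * I'⁻¹ * I' := by rw [mul_assoc, inv_mul_cancel₀ hI'0, mul_one]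
          _ = I' := by rw [h1, one_mul]
      · exfalso
        have h𝔫P : P = 𝔫 := hP.eq_of_le h𝔫top hP𝔫
        have h1 : M * I'⁻¹ = P' := by rw [← h𝔫, ← h𝔫P]
        have h2 : M = I := by
          calc M = M * I'⁻¹ * I' := by rw [mul_assoc, inv_mul_cancel₀ hI'0, mul_one]
            _ = I := by rw [h1, mul_comm, hI'P]
        exact hxI (h2 ▸ hxM)
    have hyM : y ∈ M := hMeq ▸ hy
    rw [hM, ← FractionalIdeal.mem_coe, FractionalIdeal.coe_add, Submodule.add_eq_sup, Submodule.mem_sup] at hyM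
    obtain ⟨i, hi, z, hz, rfl⟩ := hyM
    rw [FractionalIdeal.mem_coe, mem_spanSingleton] at hz
    obtain ⟨b, rfl⟩ := hz
    obtain ⟨c, hc⟩ := hsurj b
    have hpx : (b - algebraMap K R c) • x ∈ I := by
      rw [← hI'P, mul_comm, Algebra.smul_def]
      exact mul_mem_mul (mem_coeIdeal_of_mem R⁰ hc) hxI'
    have hsplit : i + b • x = (i + (b - algebraMap K R c) • x) + c • x := by
      rw [sub_smul, algebraMap_smul]
      abel
    rw [hsplit]
    refine Submodule.add_mem_sup ?_ (Submodule.smul_mem _ _ (Submodule.mem_span_singleton_self x))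
    rw [mem_latOf, ← FractionalIdeal.mem_coe]
    exact Submodule.add_mem _ hi ((FractionalIdeal.mem_coe).mpr hpx)
  · refine sup_le (fun y hy => ?_) ?_
    · rw [mem_latOf] at hy ⊢
      exact hle hy
    · rw [Submodule.span_singleton_le_iff_mem, mem_latOf]
      exact hxI'

/-- Over an algebraically closed field, residue fields of integral extensions stay trivial. -/
theorem exists_sub_mem_of_isIntegral {K A₀ C : Type*} [Field K] [IsAlgClosed K] [CommRing A₀]
    [CommRing C] [Algebra K A₀] [Algebra A₀ C] [Algebra K C] [IsScalarTower K A₀ C]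
    [Algebra.IsIntegral A₀ C] (P : Ideal C) [P.IsPrime]
    (h : ∀ a : A₀, ∃ c : K, a - algebraMap K A₀ c ∈ P.comap (algebraMap A₀ C)) (b : C) :
    ∃ c : K, b - algebraMap K C c ∈ P := by
  set p := P.comap (algebraMap A₀ C) with hp
  set ψ : K →+* A₀ ⧸ p := (Ideal.Quotient.mk p).comp (algebraMap K A₀) with hψ
  set χ : A₀ ⧸ p →+* C ⧸ P := Ideal.quotientMap P (algebraMap A₀ C) le_rfl with hχ
  have hψs : Function.Surjective ψ := by
    intro a
    obtain ⟨a, rfl⟩ := Ideal.Quotient.mk_surjective a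
    obtain ⟨c, hc⟩ := h a
    refine ⟨c, ?_⟩
    rw [hψ, RingHom.comp_apply]
    exact (Ideal.Quotient.eq.mpr hc).symm
  have hχi : χ.IsIntegral :=
    RingHom.IsIntegral.quotient (algebraMap A₀ C) Algebra.IsIntegral.isIntegral
  have hint : (χ.comp ψ).IsIntegral :=
    RingHom.IsIntegral.trans ψ χ (RingHom.isIntegral_of_surjective ψ hψs) hχi
  obtain ⟨c, hc⟩ := (IsAlgClosed.ringHom_bijective_of_isIntegral _ hint).2 (Ideal.Quotient.mk P b)
  refine ⟨c, ?_⟩
  rw [← Ideal.Quotient.eq, ← hc, hχ, hψ, RingHom.comp_apply, RingHom.comp_apply,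
    Ideal.quotientMap_mk, ← IsScalarTower.algebraMap_apply]

end Fermat.Agent.FF.RR
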