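import Mathlib
import Fermat.Agent.FF.RR_helper3_Pair
import Fermat.Agent.FF.RR_helper3_Step
import Fermat.Agent.FF.RR_helper3_Count
import Fermat.Agent.FF.RR_helper3_LinAlg

/-!
# The Euler characteristic of a pair of fractional ideals

Over an algebraically closed constant field, dividing by a prime raises
`χ(I, J) = dim (I ∩ J) - dim F / (I + J)` by one; hence `χ(I, J) = χ(1, 1) - deg I - deg J`.
-/

set_option autoImplicit false
set_option linter.style.haveILetI false
set_option linter.unusedSectionVars false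

namespace Fermat.Agent.FF.RR

open Polynomial Module nonZeroDivisors IsDedekindDomain FractionalIdeal

section Residue

variable {K : Type*} [Field K] [IsAlgClosed K]

theorem exists_sub_C_mem_of_ne_bot (p : Ideal K[X]) [hp : p.IsPrime] (hp0 : p ≠ ⊥) (a : K[X]) :
    ∃ c : K, a - C c ∈ p := by
  obtain ⟨q, hqp, hq0⟩ := Submodule.exists_mem_ne_zero_of_ne_bot hp0
  have hq := (IsAlgClosed.splits q).eq_prod_roots
  rw [hq] at hqp
  rcases hp.mem_or_mem hqp with h | h
  · exfalso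
    apply hp.ne_top
    rw [Ideal.eq_top_iff_one]
    have hlc : q.leadingCoeff ≠ 0 := leadingCoeff_ne_zero.mpr hq0
    have : C (q.leadingCoeff)⁻¹ * C q.leadingCoeff ∈ p := p.mul_mem_left _ h
    rwa [← C_mul, inv_mul_cancel₀ hlc, C_1] at this
  · obtain ⟨f, hf, hfp⟩ := (hp.multiset_prod_mem_iff_exists_mem _).mp h
    obtain ⟨r, _, rfl⟩ := Multiset.mem_map.mp hf
    refine ⟨a.eval r, ?_⟩
    obtain ⟨g, hg⟩ := X_sub_C_dvd_sub_C_eval (a := r) (p := a)
    rw [hg]
    exact p.mul_mem_right _ hfp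

end Residue

variable {K F : Type*} [Field K] [IsAlgClosed K] [Field F] [Algebra K F] [Algebra K[X] F]
  [Algebra (RatFunc K) F]
  [IsScalarTower K[X] (RatFunc K) F] [IsScalarTower K K[X] F] [IsScalarTower K (RatFunc K) F]
  [FiniteDimensional (RatFunc K) F] [Algebra.IsSeparable (RatFunc K) F]

local notation "B" => FunctionField.ringOfIntegers K F
local notation "Binf" => ringAtInfty K F

instance ringOfIntegers_isScalarTower' : IsScalarTower K K[X] B :=
  inferInstanceAs (IsScalarTower K K[X] (integralClosure K[X] F))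

instance ringOfIntegers_isIntegral : Algebra.IsIntegral K[X] B :=
  inferInstanceAs (Algebra.IsIntegral K[X] (integralClosure K[X] F))

instance ringAtInfty_isScalarTower' : IsScalarTower K (Oinf K) Binf :=
  inferInstanceAs (IsScalarTower K (Oinf K) (integralClosure (Oinf K) F))

instance ringAtInfty_isIntegral : Algebra.IsIntegral (Oinf K) Binf :=
  inferInstanceAs (Algebra.IsIntegral (Oinf K) (integralClosure (Oinf K) F))

theorem exists_sub_mem_fin (P : Ideal B) [hP : P.IsMaximal] (b : B) :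
    ∃ c : K, b - algebraMap K B c ∈ P := by
  refine exists_sub_mem_of_isIntegral (A₀ := K[X]) P (fun a => ?_) b
  haveI : (P.comap (algebraMap K[X] B)).IsMaximal :=
    Ideal.isMaximal_comap_of_isIntegral_of_isMaximal P
  have hne : P.comap (algebraMap K[X] B) ≠ ⊥ :=
    Ring.ne_bot_of_isMaximal_of_not_isField inferInstance (Polynomial.not_isField K)
  exact exists_sub_C_mem_of_ne_bot _ hne a

theorem exists_sub_mem_inf (Q : Ideal Binf) [hQ : Q.IsMaximal] (b : Binf) :
    ∃ c : K, b - algebraMap K Binf c ∈ Q := by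
  refine exists_sub_mem_of_isIntegral (A₀ := Oinf K) Q (fun a => ?_) b
  haveI : (Q.comap (algebraMap (Oinf K) Binf)).IsMaximal :=
    Ideal.isMaximal_comap_of_isIntegral_of_isMaximal Q
  rw [IsLocalRing.eq_maximalIdeal (inferInstance : (Q.comap (algebraMap (Oinf K) Binf)).IsMaximal)]
  obtain ⟨c, hc⟩ := exists_C_sub_isSmall a.2
  refine ⟨c, ?_⟩
  rw [mem_maximalIdeal_iff_isSmall]
  exact hc

/-- The Euler characteristic of a pair of fractional ideals. -/
noncomputable def chi (I : FractionalIdeal B⁰ F) (J : FractionalIdeal Binf⁰ F) : ℤ :=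
  (finrank K ↥(finLat I ⊓ infLat J) : ℤ) - finrank K (F ⧸ (finLat I ⊔ infLat J))

theorem chi_mul_inv_fin {I : FractionalIdeal B⁰ F} (hI : I ≠ 0) {J : FractionalIdeal Binf⁰ F}
    (hJ : J ≠ 0) (P : HeightOneSpectrum B) :
    chi (I * (P.asIdeal : FractionalIdeal B⁰ F)⁻¹) J = chi I J + 1 := by
  obtain ⟨x, hx, hlat⟩ := exists_latOf_mul_inv (K := K) I hI P.asIdeal P.isMaximal P.ne_bot
    (exists_sub_mem_fin P.asIdeal)
  have hP0 : (P.asIdeal : FractionalIdeal B⁰ F) ≠ 0 := coeIdeal_ne_zero.mpr P.ne_bot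
  have hI' : I * (P.asIdeal : FractionalIdeal B⁰ F)⁻¹ ≠ 0 := mul_ne_zero hI (inv_ne_zero hP0)
  obtain ⟨h1, h2⟩ := finite_pair I hI J hJ
  obtain ⟨h3, h4⟩ := finite_pair _ hI' J hJ
  have hx' : x ∉ finLat I := fun h => hx (mem_finLat.mp h)
  have := chi_step (K := K) (I := finLat I)
    (I' := finLat (I * (P.asIdeal : FractionalIdeal B⁰ F)⁻¹)) (J := infLat J) hx' hlat
  rw [chi, chi]
  omega

theorem chi_mul_inv_inf {I : FractionalIdeal B⁰ F} (hI : I ≠ 0) {J : FractionalIdeal Binf⁰ F}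
    (hJ : J ≠ 0) (Q : HeightOneSpectrum Binf) :
    chi I (J * (Q.asIdeal : FractionalIdeal Binf⁰ F)⁻¹) = chi I J + 1 := by
  obtain ⟨x, hx, hlat⟩ := exists_latOf_mul_inv (K := K) J hJ Q.asIdeal Q.isMaximal Q.ne_bot
    (exists_sub_mem_inf Q.asIdeal)
  have hQ0 : (Q.asIdeal : FractionalIdeal Binf⁰ F) ≠ 0 := coeIdeal_ne_zero.mpr Q.ne_bot
  have hJ' : J * (Q.asIdeal : FractionalIdeal Binf⁰ F)⁻¹ ≠ 0 := mul_ne_zero hJ (inv_ne_zero hQ0)
  obtain ⟨h1, h2⟩ := finite_pair I hI J hJ
  obtain ⟨h3, h4⟩ := finite_pair I hI _ hJ'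
  have hx' : x ∉ infLat J := fun h => hx (mem_infLat.mp h)
  rw [inf_comm] at h1 h3
  rw [sup_comm] at h2 h4
  have := chi_step (K := K) (I := infLat J)
    (I' := infLat (J * (Q.asIdeal : FractionalIdeal Binf⁰ F)⁻¹)) (J := finLat I) hx' hlat
  rw [chi, chi, inf_comm (finLat I), sup_comm (finLat I), inf_comm (finLat I),
    sup_comm (finLat I)]
  omega

/-- `χ(I, J) = χ(1, 1) - deg I - deg J`. -/
theorem chi_eq {I : FractionalIdeal B⁰ F} (hI : I ≠ 0) {J : FractionalIdeal Binf⁰ F}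
    (hJ : J ≠ 0) :
    chi I J = chi (1 : FractionalIdeal B⁰ F) (1 : FractionalIdeal Binf⁰ F)
      - ∑ᶠ P : HeightOneSpectrum B, count F P I - ∑ᶠ Q : HeightOneSpectrum Binf, count F Q J := by
  have h1 := eq_sub_finsum_count (fun I' : FractionalIdeal B⁰ F => chi I' J)
    (fun I' hI' P => chi_mul_inv_fin hI' hJ P) hI
  have h2 := eq_sub_finsum_count (fun J' : FractionalIdeal Binf⁰ F =>
    chi (1 : FractionalIdeal B⁰ F) J')
    (fun J' hJ' Q => chi_mul_inv_inf one_ne_zero hJ' Q) hJ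
  rw [h1, h2]
  ring

end Fermat.Agent.FF.RR
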