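import Mathlib
import Fermat.Agent.FF.RR_helper3_Chi

/-!
# Riemann–Roch for the canonical pair

For the canonical pair `W = (𝔇⁻¹, x⁻² 𝔇∞⁻¹)` (trace duals of the two rings) we get
`2 dim L(W) = 2 + deg W`.
-/

set_option autoImplicit false
set_option linter.style.haveILetI false
set_option linter.unusedSectionVars false

namespace Fermat.Agent.FF.RR

open Polynomial Module nonZeroDivisors IsDedekindDomain FractionalIdeal

variable {K F : Type*} [Field K] [IsAlgClosed K] [Field F] [Algebra K F] [Algebra K[X] F]
  [Algebra (RatFunc K) F]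
  [IsScalarTower K[X] (RatFunc K) F] [IsScalarTower K K[X] F] [IsScalarTower K (RatFunc K) F]
  [FiniteDimensional (RatFunc K) F] [Algebra.IsSeparable (RatFunc K) F]

local notation "B" => FunctionField.ringOfIntegers K F
local notation "Binf" => ringAtInfty K F

theorem mem_finLat_one {x : F} :
    x ∈ finLat (1 : FractionalIdeal B⁰ F) ↔ x ∈ B := by
  rw [mem_finLat, FractionalIdeal.mem_one_iff]
  constructor
  · rintro ⟨b, rfl⟩
    exact b.2
  · intro h
    exact ⟨⟨x, h⟩, rfl⟩

theorem mem_infLat_one {x : F} :
    x ∈ infLat (1 : FractionalIdeal Binf⁰ F) ↔ x ∈ Binf := by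
  rw [mem_infLat, FractionalIdeal.mem_one_iff]
  constructor
  · rintro ⟨b, rfl⟩
    exact b.2
  · intro h
    exact ⟨⟨x, h⟩, rfl⟩

/-- The only functions regular everywhere are the constants. -/
theorem finLat_one_inf_infLat_one :
    finLat (1 : FractionalIdeal B⁰ F) ⊓ infLat (1 : FractionalIdeal Binf⁰ F)
      = K ∙ (1 : F) := by
  set S : Subalgebra K F :=
    (Subalgebra.restrictScalars K B) ⊓ (Subalgebra.restrictScalars K Binf) with hS
  have hSL : Subalgebra.toSubmodule S
      = finLat (1 : FractionalIdeal B⁰ F) ⊓ infLat (1 : FractionalIdeal Binf⁰ F) := by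
    ext x
    rw [Subalgebra.mem_toSubmodule, hS, Algebra.mem_inf, Submodule.mem_inf, mem_finLat_one,
      mem_infLat_one, Subalgebra.mem_restrictScalars, Subalgebra.mem_restrictScalars]
  have hfin := (finite_pair (1 : FractionalIdeal B⁰ F) one_ne_zero
    (1 : FractionalIdeal Binf⁰ F) one_ne_zero).1
  have hFG : (Subalgebra.toSubmodule S).FG := by
    rw [hSL]
    exact (Submodule.fg_iff_finiteDimensional _).mpr hfin
  apply le_antisymm
  · intro x hx
    rw [← hSL, Subalgebra.mem_toSubmodule] at hx
    have hint : IsIntegral K x := IsIntegral.of_mem_of_fg S hFG x hx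
    have hdeg : (minpoly K x).degree = 1 :=
      IsAlgClosed.degree_eq_one_of_irreducible K (minpoly.irreducible hint)
    obtain ⟨c, rfl⟩ := minpoly.mem_range_of_degree_eq_one K x hdeg
    rw [Submodule.mem_span_singleton]
    exact ⟨c, by rw [Algebra.smul_def, mul_one]⟩
  · rw [Submodule.span_singleton_le_iff_mem, ← hSL, Subalgebra.mem_toSubmodule]
    exact one_mem S

theorem finrank_one_one :
    finrank K ↥(finLat (1 : FractionalIdeal B⁰ F) ⊓ infLat (1 : FractionalIdeal Binf⁰ F)) = 1 := by
  rw [finLat_one_inf_infLat_one]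
  exact finrank_span_singleton one_ne_zero

theorem dual_twist (m : ℤ) (J : FractionalIdeal Binf⁰ F) :
    dual (Oinf K) (RatFunc K) (twist m J) = twist (-m) (dual (Oinf K) (RatFunc K) J) := by
  rw [dual_eq_mul_inv, dual_eq_mul_inv (Oinf K) (RatFunc K) (I := J), twist, twist, mul_inv,
    spanSingleton_inv, ← zpow_neg, mul_left_comm]

variable (K F) in
/-- The finite part of the canonical pair: the inverse different of the ring of integers. -/
noncomputable def canI : FractionalIdeal B⁰ F := dual K[X] (RatFunc K) 1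

variable (K F) in
/-- The infinite part of the canonical pair: `x⁻²` times the inverse different at infinity. -/
noncomputable def canJ : FractionalIdeal Binf⁰ F := twist (-2) (dual (Oinf K) (RatFunc K) 1)

theorem canI_ne_zero : canI K F ≠ 0 := by
  rw [canI, ne_eq, dual_eq_zero_iff]
  exact one_ne_zero

theorem canJ_ne_zero : canJ K F ≠ 0 := by
  rw [canJ]
  refine twist_ne_zero ?_
  rw [ne_eq, dual_eq_zero_iff]
  exact one_ne_zero

/-- **Riemann–Roch for the canonical pair**: `2 l(W) = 2 + deg W`. -/
theorem two_mul_finrank_canonical :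
    2 * (finrank K ↥(finLat (canI K F) ⊓ infLat (canJ K F)) : ℤ)
      = 2 - ∑ᶠ P : HeightOneSpectrum B, count F P (canI K F)
          - ∑ᶠ Q : HeightOneSpectrum Binf, count F Q (canJ K F) := by
  have h1 : finrank K (F ⧸ (finLat (1 : FractionalIdeal B⁰ F) ⊔
      infLat (1 : FractionalIdeal Binf⁰ F)))
      = finrank K ↥(finLat (canI K F) ⊓ infLat (canJ K F)) :=
    finrank_quotient_pair 1 one_ne_zero 1 one_ne_zero
  have h2 : finrank K (F ⧸ (finLat (canI K F) ⊔ infLat (canJ K F))) = 1 := by
    rw [finrank_quotient_pair _ canI_ne_zero _ canJ_ne_zero, canI, canJ, dual_dual, dual_twist,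
      dual_dual, twist_twist, neg_neg, neg_add_cancel, twist_zero]
    exact finrank_one_one
  have h3 := chi_eq (canI_ne_zero (K := K) (F := F)) (canJ_ne_zero (K := K) (F := F))
  rw [chi, chi, h1, h2, finrank_one_one] at h3
  push_cast at h3
  linarith

end Fermat.Agent.FF.RR
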