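/-
X0N project, package (G) (helper7): places of function fields and Galois groups.
Basic file: the relation "a place of `L` lies over a place of `F`", maximality of places among
valuation subrings, places attached to maximal ideals of the integral closure of a place.
-/
import Mathlib
import Fermat.Prelude.Def_AlgebraicCurve_DivisorClassGroup

set_option autoImplicit false

open AlgebraicCurve IsDedekindDomain

namespace Fermat.Agent.FF.Gal

variable {K : Type*} [Field K]

section LiesOver

variable {F L : Type*} [Field F] [Field L] [Algebra K F] [Algebra K L] [Algebra F L]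

/-- `v` (a place of `L`) lies over `u` (a place of the subfield `F`). -/
def LiesOver (v : Place K L) (u : Place K F) : Prop :=
  v.toValuationSubring.comap (algebraMap F L) = u.toValuationSubring

theorem LiesOver.mem_iff {v : Place K L} {u : Place K F} (h : LiesOver v u) (x : F) :
    algebraMap F L x ∈ v.toValuationSubring ↔ x ∈ u.toValuationSubring := by
  rw [← h]; rfl

theorem LiesOver.unique {v : Place K L} {u u' : Place K F} (h : LiesOver v u)
    (h' : LiesOver v u') : u = u' :=
  Place.ext (h.symm.trans h')

theorem liesOver_iff {v : Place K L} {u : Place K F} :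
    LiesOver v u ↔ ∀ x : F, algebraMap F L x ∈ v.toValuationSubring ↔ x ∈ u.toValuationSubring :=
  ⟨fun h => h.mem_iff, fun h => by
    unfold LiesOver
    ext x
    exact h x⟩

end LiesOver

section Tower

variable {E F L : Type*} [Field E] [Field F] [Field L] [Algebra K E] [Algebra K F] [Algebra K L]
  [Algebra E F] [Algebra E L] [Algebra F L] [IsScalarTower E F L]

theorem LiesOver.trans {v : Place K L} {u : Place K F} {w : Place K E} (h : LiesOver v u)
    (h' : LiesOver u w) : LiesOver v w := by
  rw [liesOver_iff] at *
  intro x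
  rw [IsScalarTower.algebraMap_apply E F L, h, h']

theorem LiesOver.of_tower {v : Place K L} {u : Place K F} {w : Place K E} (h : LiesOver v u)
    (h' : LiesOver v w) : LiesOver u w := by
  rw [liesOver_iff] at *
  intro x
  rw [← h, ← IsScalarTower.algebraMap_apply E F L, h']

end Tower

section Maximal

variable {L : Type*} [Field L] [Algebra K L]

/-- A place is a maximal proper valuation subring. -/
theorem eq_of_le_of_ne_top (v : Place K L) {V : ValuationSubring L}
    (hle : v.toValuationSubring ≤ V) (hV : V ≠ ⊤) : v.toValuationSubring = V :=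
  ValuationSubring.eq_of_le_of_ne_top _ hle hV

theorem Place.eq_of_le {v v' : Place K L}
    (hle : v.toValuationSubring ≤ v'.toValuationSubring) : v = v' :=
  Place.ext (eq_of_le_of_ne_top v hle v'.ne_top')

end Maximal

section Ord

variable {L : Type*} [Field L] [Algebra K L]

theorem ord_nonneg_iff (v : Place K L) {x : L} (hx : x ≠ 0) :
    0 ≤ v.ord x ↔ x ∈ v.toValuationSubring := by
  obtain ⟨π, hπ⟩ := IsDiscreteValuationRing.exists_irreducible v.toValuationSubring
  obtain ⟨u, hu⟩ := v.exists_unit_mul_zpow hx hπ
  have hπL : (π : L) ≠ 0 := fun h => hπ.ne_zero (Subtype.ext h)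
  constructor
  · intro h
    rw [hu]
    obtain ⟨n, hn⟩ := Int.eq_ofNat_of_zero_le h
    rw [hn, zpow_natCast]
    exact mul_mem (u : v.toValuationSubring).2 (pow_mem π.2 n)
  · intro h
    by_contra hneg
    push Not at hneg
    obtain ⟨n, hn⟩ := Int.exists_eq_neg_ofNat hneg.le
    have hn0 : n ≠ 0 := by
      rintro rfl
      simp at hn
      omega
    -- `π ^ n * x = u`
    have h1 : (π : L) ^ n * x = (u : v.toValuationSubring) := by
      rw [hu, hn, zpow_neg, zpow_natCast]
      field_simp
    have h2 : (π ^ n * ⟨x, h⟩ : v.toValuationSubring) = u := Subtype.ext h1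
    have h3 : IsUnit (π ^ n) := isUnit_of_mul_isUnit_left (h2 ▸ u.isUnit)
    exact hπ.not_isUnit ((isUnit_pow_iff hn0).mp h3)

theorem ord_add (v : Place K L) {x y : L} (hx : x ≠ 0) (hy : y ≠ 0) (hxy : x + y ≠ 0) :
    min (v.ord x) (v.ord y) ≤ v.ord (x + y) := by
  wlog h : v.ord x ≤ v.ord y generalizing x y
  · rw [min_comm, add_comm]
    exact this hy hx (by rwa [add_comm]) (le_of_not_ge h)
  rw [min_eq_left h]
  -- `(x + y) / x = 1 + y / x ∈ V`
  have h1 : y / x ∈ v.toValuationSubring := by
    rw [← ord_nonneg_iff v (div_ne_zero hy hx), div_eq_mul_inv, v.ord_mul hy (inv_ne_zero hx),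
      v.ord_inv]
    linarith
  have h2 : (x + y) / x ∈ v.toValuationSubring := by
    have : (x + y) / x = 1 + y / x := by field_simp
    rw [this]
    exact add_mem (one_mem _) h1
  rw [← ord_nonneg_iff v (div_ne_zero hxy hx), div_eq_mul_inv, v.ord_mul hxy (inv_ne_zero hx),
      v.ord_inv] at h2
  linarith

end Ord

end Fermat.Agent.FF.Gal
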