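/-
X0N project, package (G) (helper7): restriction of a place to a subfield.
-/
import Mathlib
import Fermat.Agent.FF.Gal_helper7_Basic
import Fermat.Agent.FF.Gal_helper7_OfOrd

set_option autoImplicit false

open AlgebraicCurve

namespace Fermat.Agent.FF.Gal

variable {K : Type*} [Field K]

section Ord

variable {L : Type*} [Field L] [Algebra K L]

theorem ord_algebraMap (v : Place K L) {a : K} (ha : a ≠ 0) : v.ord (algebraMap K L a) = 0 := by
  have h0 : algebraMap K L a ≠ 0 := (map_ne_zero (algebraMap K L)).mpr ha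
  have h1 : 0 ≤ v.ord (algebraMap K L a) := (ord_nonneg_iff v h0).mpr (v.algebraMap_mem' a)
  have h2 : 0 ≤ v.ord (algebraMap K L a)⁻¹ := by
    rw [ord_nonneg_iff v (inv_ne_zero h0), ← map_inv₀]
    exact v.algebraMap_mem' a⁻¹
  rw [v.ord_inv] at h2
  linarith

theorem exists_ord_eq_one (v : Place K L) : ∃ π : L, π ≠ 0 ∧ v.ord π = 1 := by
  obtain ⟨π, hπ⟩ := IsDiscreteValuationRing.exists_irreducible v.toValuationSubring
  exact ⟨π, fun h => hπ.ne_zero (Subtype.ext h), v.ord_coe_irreducible hπ⟩

/-- the order function of a place is an order function -/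
theorem isOrdFun_ord (v : Place K L) : IsOrdFun K v.ord where
  map_mul x y hx hy := v.ord_mul hx hy
  map_add x y hx hy hxy := ord_add v hx hy hxy
  map_algebraMap a ha := ord_algebraMap v ha
  nontrivial := by
    obtain ⟨π, hπ0, hπ⟩ := exists_ord_eq_one v
    exact ⟨π, hπ0, by rw [hπ]; exact one_ne_zero⟩

theorem place_isOrdFun_ord (v : Place K L) : (isOrdFun_ord v).place = v := by
  apply Place.ext
  ext x
  by_cases hx : x = 0
  · rw [hx]; simp [zero_mem]
  rw [(isOrdFun_ord v).mem_place_iff hx, ord_nonneg_iff v hx]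

/-- Two places with the same order function are equal. -/
theorem Place.ext_ord {v v' : Place K L} (h : ∀ x : L, x ≠ 0 → (0 ≤ v.ord x ↔ 0 ≤ v'.ord x)) :
    v = v' := by
  apply Place.ext
  ext x
  by_cases hx : x = 0
  · rw [hx]; simp [zero_mem]
  rw [← ord_nonneg_iff v hx, ← ord_nonneg_iff v' hx, h x hx]

theorem isUnit_iff_ord_eq_zero (v : Place K L) (y : v.toValuationSubring) (hy : (y : L) ≠ 0) :
    IsUnit y ↔ v.ord (y : L) = 0 := by
  have h1 : 0 ≤ v.ord (y : L) := (ord_nonneg_iff v hy).mpr y.2
  constructor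
  · rintro ⟨u, rfl⟩
    exact v.ord_coe_unit u
  · intro h0
    have hinv : (y : L)⁻¹ ∈ v.toValuationSubring := by
      rw [← ord_nonneg_iff v (inv_ne_zero hy), v.ord_inv, h0, neg_zero]
    refine ⟨⟨y, ⟨_, hinv⟩, Subtype.ext ?_, Subtype.ext ?_⟩, rfl⟩
    · show (y : L) * (y : L)⁻¹ = 1
      exact mul_inv_cancel₀ hy
    · show (y : L)⁻¹ * (y : L) = 1
      exact inv_mul_cancel₀ hy

theorem mem_maximalIdeal_iff (v : Place K L) (y : v.toValuationSubring) :
    y ∈ IsLocalRing.maximalIdeal v.toValuationSubring ↔ (y : L) = 0 ∨ 0 < v.ord (y : L) := by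
  rw [IsLocalRing.mem_maximalIdeal, mem_nonunits_iff]
  by_cases hy : (y : L) = 0
  · have : y = 0 := Subtype.ext hy
    simp [this]
  · rw [isUnit_iff_ord_eq_zero v y hy]
    have h1 : 0 ≤ v.ord (y : L) := (ord_nonneg_iff v hy).mpr y.2
    constructor
    · intro h; right; omega
    · rintro (h | h)
      · exact absurd h hy
      · omega

end Ord

section Restrict

variable {F L : Type*} [Field F] [Field L] [Algebra K F] [Algebra K L] [Algebra F L]
  [IsScalarTower K F L] [Algebra.IsAlgebraic F L]

omit [Algebra K F] [IsScalarTower K F L] in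
/-- The order function of a place of `L` restricted to `F` is nontrivial. -/
theorem exists_ord_algebraMap_ne_zero (v : Place K L) :
    ∃ x : F, x ≠ 0 ∧ v.ord (algebraMap F L x) ≠ 0 := by
  by_contra hcon
  push Not at hcon
  -- then `F` maps into `V`
  have hmem : ∀ x : F, algebraMap F L x ∈ v.toValuationSubring := by
    intro x
    by_cases hx : x = 0
    · rw [hx, map_zero]; exact zero_mem _
    · rw [← ord_nonneg_iff v ((map_ne_zero (algebraMap F L)).mpr hx), hcon x hx]
  let _ : Algebra F v.toValuationSubring :=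
    ((algebraMap F L).codRestrict v.toValuationSubring.toSubring hmem).toAlgebra
  have : IsScalarTower F v.toValuationSubring L := IsScalarTower.of_algebraMap_eq fun x => rfl
  obtain ⟨π, hπ0, hπ⟩ := exists_ord_eq_one v
  have hint : IsIntegral F π⁻¹ := (Algebra.IsAlgebraic.isAlgebraic (R := F) π⁻¹).isIntegral
  have hint' : IsIntegral v.toValuationSubring π⁻¹ := hint.tower_top
  obtain ⟨y, hy⟩ := IsIntegrallyClosed.isIntegral_iff.mp hint'
  have hmem' : π⁻¹ ∈ v.toValuationSubring := by rw [← hy]; exact y.2
  rw [← ord_nonneg_iff v (inv_ne_zero hπ0), v.ord_inv, hπ] at hmem'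
  omega

/-- The restriction to `F` of the order function of a place of `L`. -/
theorem isOrdFun_comp (v : Place K L) : IsOrdFun K (fun x : F => v.ord (algebraMap F L x)) where
  map_mul x y hx hy := by
    show v.ord (algebraMap F L (x * y)) = _
    rw [map_mul]
    exact v.ord_mul ((map_ne_zero _).mpr hx) ((map_ne_zero _).mpr hy)
  map_add x y hx hy hxy := by
    show _ ≤ v.ord (algebraMap F L (x + y))
    rw [map_add]
    refine ord_add v ((map_ne_zero _).mpr hx) ((map_ne_zero _).mpr hy) ?_
    rw [← map_add]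
    exact (map_ne_zero _).mpr hxy
  map_algebraMap a ha := by
    show v.ord (algebraMap F L (algebraMap K F a)) = 0
    rw [← IsScalarTower.algebraMap_apply]
    exact ord_algebraMap v ha
  nontrivial := exists_ord_algebraMap_ne_zero v

variable (F) in
/-- The restriction of a place of `L` to a subfield `F` over which `L` is algebraic. -/
noncomputable def restrict (v : Place K L) : Place K F := (isOrdFun_comp (F := F) v).place

theorem liesOver_restrict (v : Place K L) : LiesOver v (restrict F v) := by
  rw [liesOver_iff]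
  intro x
  by_cases hx : x = 0
  · rw [hx, map_zero]; simp [zero_mem]
  rw [restrict, (isOrdFun_comp (F := F) v).mem_place_iff hx,
    ← ord_nonneg_iff v ((map_ne_zero (algebraMap F L)).mpr hx)]

theorem exists_liesOver (v : Place K L) : ∃ u : Place K F, LiesOver v u :=
  ⟨restrict F v, liesOver_restrict v⟩

theorem LiesOver.eq_restrict {v : Place K L} {u : Place K F} (h : LiesOver v u) :
    u = restrict F v :=
  h.unique (liesOver_restrict v)

/-- The ramification index: `ord_v = e · ord_u` on `F`. -/
theorem LiesOver.exists_ord_eq {v : Place K L} {u : Place K F} (h : LiesOver v u) :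
    ∃ e : ℤ, 0 < e ∧ ∀ x : F, v.ord (algebraMap F L x) = e * u.ord x := by
  obtain ⟨e, π, he, -, -, -, hx⟩ := (isOrdFun_comp (F := F) v).exists_ord_eq
  refine ⟨e, he, fun x => ?_⟩
  by_cases hx0 : x = 0
  · rw [hx0, map_zero]; simp
  rw [h.eq_restrict]
  exact hx x hx0

theorem LiesOver.ord_pos_iff {v : Place K L} {u : Place K F} (h : LiesOver v u) (x : F) :
    0 < v.ord (algebraMap F L x) ↔ 0 < u.ord x := by
  obtain ⟨e, he, hx⟩ := h.exists_ord_eq
  rw [hx x]
  constructor
  · intro h1
    by_contra h2
    push Not at h2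
    nlinarith
  · intro h1
    positivity

theorem LiesOver.ord_neg_iff {v : Place K L} {u : Place K F} (h : LiesOver v u) (x : F) :
    v.ord (algebraMap F L x) < 0 ↔ u.ord x < 0 := by
  obtain ⟨e, he, hx⟩ := h.exists_ord_eq
  rw [hx x]
  constructor
  · intro h1
    by_contra h2
    push Not at h2
    nlinarith
  · intro h1
    nlinarith

end Restrict

end Fermat.Agent.FF.Gal
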