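/-
X0N project, package (G) (helper7): places of `L` over a place `w` of `E` and maximal ideals of
the integral closure of the valuation ring of `w` in `L` (`L / E` finite separable).
-/
import Mathlib
import Fermat.Agent.FF.Gal_helper7_Restrict

set_option autoImplicit false
set_option linter.unusedSectionVars false

open AlgebraicCurve IsDedekindDomain

namespace Fermat.Agent.FF.Gal

variable {K E L : Type*} [Field K] [Field E] [Field L] [Algebra K E] [Algebra K L] [Algebra E L]
  [IsScalarTower K E L]

variable (L) in
/-- the integral closure in `L` of the valuation ring of a place `w` of `E` -/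
abbrev intCl (w : Place K E) : Subalgebra w.toValuationSubring L :=
  integralClosure w.toValuationSubring L

section Instances

variable [FiniteDimensional E L] [Algebra.IsSeparable E L] (w : Place K E)

instance intCl_isDedekindDomain : IsDedekindDomain (intCl L w) :=
  IsIntegralClosure.isDedekindDomain w.toValuationSubring E L (intCl L w)

instance intCl_finite : Module.Finite w.toValuationSubring (intCl L w) :=
  IsIntegralClosure.finite w.toValuationSubring E L (intCl L w)

instance intCl_isFractionRing : IsFractionRing (intCl L w) L :=
  IsIntegralClosure.isFractionRing_of_finite_extension w.toValuationSubring E L (intCl L w)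

end Instances

section Instances2

variable (w : Place K E)

instance intCl_algebra : Algebra K (intCl L w) :=
  ((algebraMap w.toValuationSubring (intCl L w)).comp
    (algebraMap K w.toValuationSubring)).toAlgebra

instance intCl_isScalarTower : IsScalarTower K (intCl L w) L :=
  IsScalarTower.of_algebraMap_eq fun a => by
    show algebraMap K L a = algebraMap E L (algebraMap K E a)
    rw [← IsScalarTower.algebraMap_apply]

instance intCl_isTorsionFree : Module.IsTorsionFree w.toValuationSubring (intCl L w) :=
  Subalgebra.instIsTorsionFree _

end Instances2

end Fermat.Agent.FF.Gal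

namespace Fermat.Agent.FF.Gal

variable {K E L : Type*} [Field K] [Field E] [Field L] [Algebra K E] [Algebra K L] [Algebra E L]
  [IsScalarTower K E L]

section Center

variable {w : Place K E} {v : Place K L}

/-- the integral closure of `w` is contained in every place over `w`. -/
theorem intCl_le (h : LiesOver v w) (x : L) (hx : x ∈ intCl L w) : x ∈ v.toValuationSubring := by
  have hmem : ∀ a : w.toValuationSubring, algebraMap E L (a : E) ∈ v.toValuationSubring :=
    fun a => (h.mem_iff _).mpr a.2
  let _ : Algebra w.toValuationSubring v.toValuationSubring :=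
    ((algebraMap w.toValuationSubring L).codRestrict v.toValuationSubring.toSubring hmem).toAlgebra
  have : IsScalarTower w.toValuationSubring v.toValuationSubring L :=
    IsScalarTower.of_algebraMap_eq fun x => rfl
  have hint : IsIntegral w.toValuationSubring x := hx
  have hint' : IsIntegral v.toValuationSubring x := hint.tower_top
  obtain ⟨y, hy⟩ := IsIntegrallyClosed.isIntegral_iff.mp hint'
  rw [← hy]; exact y.2

/-- the inclusion of the integral closure into the valuation ring of a place over `w` -/
def toPlace (h : LiesOver v w) : intCl L w →+* v.toValuationSubring :=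
  (algebraMap (intCl L w) L).codRestrict v.toValuationSubring.toSubring
    (fun x => intCl_le h x x.2)

@[simp]
theorem coe_toPlace (h : LiesOver v w) (x : intCl L w) : ((toPlace h x : v.toValuationSubring) : L) = x :=
  rfl

/-- The center of a place over `w` on the integral closure. -/
def center (h : LiesOver v w) : Ideal (intCl L w) :=
  (IsLocalRing.maximalIdeal v.toValuationSubring).comap (toPlace h)

instance center_isPrime (h : LiesOver v w) : (center h).IsPrime :=
  Ideal.comap_isPrime _ _

theorem mem_center_iff (h : LiesOver v w) (x : intCl L w) :
    x ∈ center h ↔ (x : L) = 0 ∨ 0 < v.ord (x : L) := by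
  rw [center, Ideal.mem_comap, mem_maximalIdeal_iff]
  rfl

variable [FiniteDimensional E L]

theorem center_under (h : LiesOver v w) :
    (center h).under w.toValuationSubring = IsLocalRing.maximalIdeal w.toValuationSubring := by
  ext a
  rw [Ideal.under_def, Ideal.mem_comap, mem_center_iff, mem_maximalIdeal_iff]
  have h1 : ((algebraMap w.toValuationSubring (intCl L w) a : intCl L w) : L)
      = algebraMap E L (a : E) := rfl
  rw [h1, h.ord_pos_iff, map_eq_zero]

theorem center_ne_bot (h : LiesOver v w) : center h ≠ ⊥ := by
  obtain ⟨π, hπ0, hπ⟩ := exists_ord_eq_one w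
  have hπA : π ∈ w.toValuationSubring := (ord_nonneg_iff w hπ0).mp (by rw [hπ]; exact zero_le_one)
  intro hbot
  have hmem : algebraMap w.toValuationSubring (intCl L w) ⟨π, hπA⟩ ∈ center h := by
    rw [mem_center_iff]
    right
    show 0 < v.ord (algebraMap E L π)
    rw [h.ord_pos_iff, hπ]
    exact zero_lt_one
  rw [hbot, Ideal.mem_bot] at hmem
  have h2 : algebraMap E L π = 0 := congrArg (fun z : intCl L w => (z : L)) hmem
  exact hπ0 ((map_eq_zero _).mp h2)

variable [Algebra.IsSeparable E L]

/-- the center as a maximal ideal -/
def centerSpec (h : LiesOver v w) : HeightOneSpectrum (intCl L w) :=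
  ⟨center h, inferInstance, center_ne_bot h⟩

@[simp]
theorem centerSpec_asIdeal (h : LiesOver v w) : (centerSpec h).asIdeal = center h := rfl

/-- A place over `w` is the localisation of the integral closure at its center. -/
theorem valuationSubring_eq (h : LiesOver v w) :
    v.toValuationSubring = ((centerSpec h).valuation L).valuationSubring := by
  rw [← HeightOneSpectrum.valuationSubringAtPrime_eq_valuationSubring]
  symm
  refine ValuationSubring.eq_of_le_of_ne_top _ ?_ v.ne_top'
  rintro x ⟨a, s, hs, rfl⟩
  have ha : (a : L) ∈ v.toValuationSubring := intCl_le h a a.2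
  have hsV : (s : L) ∈ v.toValuationSubring := intCl_le h s s.2
  have hs' : s ∉ center h := hs
  rw [mem_center_iff, not_or, not_lt] at hs'
  have hs0 : (s : L) ≠ 0 := hs'.1
  have hsinv : (s : L)⁻¹ ∈ v.toValuationSubring := by
    rw [← ord_nonneg_iff v (inv_ne_zero hs0), v.ord_inv]
    linarith [hs'.2]
  exact mul_mem ha hsinv

/-- A place over `w` is determined by its center. -/
theorem eq_of_center_eq {v' : Place K L} (h : LiesOver v w) (h' : LiesOver v' w)
    (hc : center h = center h') : v = v' := by
  apply Place.ext
  rw [valuationSubring_eq h, valuationSubring_eq h']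
  have : centerSpec h = centerSpec h' := HeightOneSpectrum.ext hc
  rw [this]

end Center

end Fermat.Agent.FF.Gal

namespace Fermat.Agent.FF.Gal

variable {K E L : Type*} [Field K] [Field E] [Field L] [Algebra K E] [Algebra K L] [Algebra E L]
  [IsScalarTower K E L] [FiniteDimensional E L] [Algebra.IsSeparable E L]

section PlaceOf

variable (w : Place K E)

/-- The place of `L` attached to a maximal ideal of the integral closure. -/
noncomputable def placeOf (P : HeightOneSpectrum (intCl L w)) : Place K L :=
  Place.ofHeightOneSpectrum (K := K) P

@[simp]
theorem placeOf_toValuationSubring (P : HeightOneSpectrum (intCl L w)) :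
    (placeOf w P).toValuationSubring = (P.valuation L).valuationSubring := rfl

theorem liesOver_placeOf (P : HeightOneSpectrum (intCl L w)) : LiesOver (placeOf w P) w := by
  unfold LiesOver
  symm
  refine ValuationSubring.eq_of_le_of_ne_top _ ?_ ?_
  · intro x hx
    show algebraMap E L x ∈ (P.valuation L).valuationSubring
    rw [Valuation.mem_valuationSubring_iff]
    exact P.valuation_le_one (algebraMap w.toValuationSubring (intCl L w) ⟨x, hx⟩)
  · -- a nonzero element of `w` lies in `P`, so its inverse is not in the valuation ring of `P`
    intro htop
    have hunder : P.asIdeal.comap (algebraMap w.toValuationSubring (intCl L w)) ≠ ⊥ :=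
      mt Ideal.eq_bot_of_comap_eq_bot P.ne_bot
    obtain ⟨a, haP, ha0⟩ := Submodule.exists_mem_ne_zero_of_ne_bot hunder
    rw [Ideal.mem_comap] at haP
    have hlt : P.valuation L (algebraMap (intCl L w) L (algebraMap w.toValuationSubring _ a)) < 1 :=
      (P.valuation_lt_one_iff_mem _).mpr haP
    have haE : (a : E) ≠ 0 := fun h => ha0 (Subtype.ext h)
    have hmem : (a : E)⁻¹ ∈ (placeOf w P).toValuationSubring.comap (algebraMap E L) := by
      rw [htop]; exact ValuationSubring.mem_top _
    rw [ValuationSubring.mem_comap, placeOf_toValuationSubring,
      Valuation.mem_valuationSubring_iff, map_inv₀, map_inv₀] at hmem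
    have h1 : algebraMap (intCl L w) L (algebraMap w.toValuationSubring _ a)
        = algebraMap E L (a : E) := rfl
    rw [h1] at hlt
    have hne : P.valuation L (algebraMap E L (a : E)) ≠ 0 :=
      (Valuation.ne_zero_iff _).mpr ((map_ne_zero _).mpr haE)
    have h2 : 1 < (P.valuation L (algebraMap E L (a : E)))⁻¹ := by
      rw [one_lt_inv₀ (zero_lt_iff.mpr hne)]
      exact hlt
    exact absurd hmem (not_le.mpr h2)

/-- Every place of `E` extends to `L`. -/
theorem exists_liesOver_of_place : ∃ v : Place K L, LiesOver v w := by
  -- the integral closure is not a field, so it has a nonzero maximal ideal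
  have hnf : ¬ IsField (intCl L w) := by
    intro hf
    have hinj : Function.Injective (algebraMap w.toValuationSubring (intCl L w)) :=
      FaithfulSMul.algebraMap_injective _ _
    exact IsDiscreteValuationRing.not_isField w.toValuationSubring
      (isField_of_isIntegral_of_isField hinj hf)
  obtain ⟨M, hM⟩ := Ideal.exists_maximal (intCl L w)
  have hM0 : M ≠ ⊥ := Ring.ne_bot_of_isMaximal_of_not_isField hM hnf
  exact ⟨placeOf w ⟨M, hM.isPrime, hM0⟩, liesOver_placeOf w _⟩

end PlaceOf

end Fermat.Agent.FF.Gal
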