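/-
X0N project, package (G) (helper7): a Galois group acts transitively on the places over a
given place.
-/
import Mathlib
import Fermat.Agent.FF.Gal_helper7_IntCl

set_option autoImplicit false
set_option linter.unusedSectionVars false

open AlgebraicCurve IsDedekindDomain
open scoped Pointwise

namespace Fermat.Agent.FF.Gal

variable {K : Type*} [Field K]

section PlaceAction

variable {L : Type*} [Field L] [Algebra K L]
variable {G : Type*} [Group G] [MulSemiringAction G L] [SMulCommClass G K L]

/-- The action of a group of `K`-automorphisms of `L` on the places of `L`. -/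
@[instance_reducible]
noncomputable def placeMulAction : MulAction G (Place K L) :=
  MulAction.compHom (Place K L) (MulSemiringAction.toAlgAut G K L)

scoped[Fermat.Agent.FF.Gal] attribute [instance] Fermat.Agent.FF.Gal.placeMulAction

theorem smul_place_def (g : G) (v : Place K L) :
    g • v = (MulSemiringAction.toAlgAut G K L g) • v := rfl

theorem ord_smul_place (g : G) (v : Place K L) (x : L) : (g • v).ord (g • x) = v.ord x :=
  Place.ord_smul (MulSemiringAction.toAlgAut G K L g) v x

theorem ord_smul_place' (g : G) (v : Place K L) (x : L) : (g • v).ord x = v.ord (g⁻¹ • x) := by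
  rw [← ord_smul_place g v (g⁻¹ • x), smul_inv_smul]

theorem mem_smul_place_iff (g : G) (v : Place K L) (x : L) :
    x ∈ (g • v).toValuationSubring ↔ g⁻¹ • x ∈ v.toValuationSubring := by
  by_cases hx : x = 0
  · rw [hx, smul_zero]; simp [zero_mem]
  have hx' : g⁻¹ • x ≠ 0 := by
    rwa [Ne, smul_eq_zero_iff_eq]
  rw [← ord_nonneg_iff _ hx, ← ord_nonneg_iff _ hx', ord_smul_place']

end PlaceAction

section Transitive

variable {E L : Type*} [Field E] [Field L] [Algebra K E] [Algebra K L] [Algebra E L]
  [IsScalarTower K E L]
variable {G : Type*} [Group G] [MulSemiringAction G L] [SMulCommClass G K L]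
  [SMulCommClass G E L]

theorem liesOver_smul (g : G) {v : Place K L} {w : Place K E} (h : LiesOver v w) :
    LiesOver (g • v) w := by
  rw [liesOver_iff] at h ⊢
  intro x
  rw [mem_smul_place_iff, smul_algebraMap, h]

instance smulCommClass_valuationSubring (w : Place K E) :
    SMulCommClass G w.toValuationSubring L :=
  ⟨fun g a x => smul_comm g (a : E) x⟩

/-- The action of `G` on the integral closure. -/
noncomputable instance intClAction (w : Place K E) : MulSemiringAction G (intCl L w) where
  smul g x := ⟨g • (x : L),
    (x.2 : IsIntegral w.toValuationSubring (x : L)).map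
      (MulSemiringAction.toAlgHom w.toValuationSubring L g)⟩
  one_smul x := Subtype.ext (one_smul G (x : L))
  mul_smul g h x := Subtype.ext (mul_smul g h (x : L))
  smul_zero g := Subtype.ext (smul_zero g)
  smul_add g x y := Subtype.ext (smul_add g (x : L) (y : L))
  smul_one g := Subtype.ext (smul_one g)
  smul_mul g x y := Subtype.ext (smul_mul' g (x : L) (y : L))

@[simp]
theorem coe_smul_intCl (w : Place K E) (g : G) (x : intCl L w) :
    ((g • x : intCl L w) : L) = g • (x : L) := rfl

instance smulDistribClass_intCl (w : Place K E) : SMulDistribClass G (intCl L w) L :=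
  ⟨fun g b x => by
    show g • ((b : L) * x) = (g • (b : L)) * (g • x)
    exact smul_mul' g (b : L) x⟩

variable [FiniteDimensional E L]

theorem center_smul (g : G) {v : Place K L} {w : Place K E} (h : LiesOver v w) :
    center (liesOver_smul g h) = g • center h := by
  ext x
  rw [Ideal.mem_pointwise_smul_iff_inv_smul_mem, mem_center_iff, mem_center_iff, coe_smul_intCl,
    ord_smul_place', smul_eq_zero_iff_eq]

variable [Algebra.IsSeparable E L] [Finite G] [IsGaloisGroup G E L]

instance isGaloisGroup_intCl (w : Place K E) : IsGaloisGroup G w.toValuationSubring (intCl L w) :=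
  IsGaloisGroup.of_isFractionRing G w.toValuationSubring (intCl L w) E L

/-- **Transitivity**: a Galois group acts transitively on the places over a given place. -/
theorem exists_smul_eq {v v' : Place K L} {w : Place K E} (h : LiesOver v w)
    (h' : LiesOver v' w) : ∃ g : G, g • v = v' := by
  obtain ⟨g, hg⟩ := Algebra.IsInvariant.exists_smul_of_under_eq w.toValuationSubring (intCl L w) G
    (center h) (center h') (by rw [center_under, center_under])
  refine ⟨g, eq_of_center_eq (liesOver_smul g h) h' ?_⟩
  rw [hg, center_smul]

end Transitive

end Fermat.Agent.FF.Gal
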