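/-
X0N project, package (G) (helper7): places of an intermediate field `F = L^H` over a place `w`
of `E = L^G` are in bijection with the double cosets `H \ G / D`, `D` the decomposition group of
a place of `L` over `w`.
-/
import Mathlib
import Fermat.Agent.FF.Gal_helper7_Action

set_option autoImplicit false
set_option linter.unusedSectionVars false

open AlgebraicCurve IsDedekindDomain
open scoped Pointwise

namespace Fermat.Agent.FF.Gal

variable {K E F L : Type*} [Field K] [Field E] [Field F] [Field L]
  [Algebra K E] [Algebra K F] [Algebra K L] [Algebra E F] [Algebra E L] [Algebra F L]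
  [IsScalarTower K E L] [IsScalarTower K F L] [IsScalarTower E F L] [IsScalarTower K E F]
variable {G : Type*} [Group G] [Finite G] [MulSemiringAction G L] [SMulCommClass G K L]
  [IsGaloisGroup G E L]
variable (H : Subgroup G) [IsGaloisGroup H F L]

/-- The action of a subgroup `H` on places (through its own action on `L`) is the restriction of
the action of `G`. -/
theorem subgroup_smul_place (h : H) (v : Place K L) :
    (placeMulAction (G := H) (K := K) (L := L)).toSMul.smul h v = (h : G) • v := by
  apply Place.ext
  ext x
  have h1 := mem_smul_place_iff (K := K) (h : G) v x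
  have h2 := @mem_smul_place_iff K _ L _ _ H _ _ _ h v x
  rw [h1]
  exact h2

include H in
theorem finiteDimensional_top : FiniteDimensional F L := IsGaloisGroup.finiteDimensional H F L

include H in
theorem isSeparable_top : Algebra.IsSeparable F L :=
  have := IsGaloisGroup.isGalois H F L
  inferInstance

variable (F) in
/-- the place of `F` under the translate `g • v₀`. -/
noncomputable def placeUnder {w : Place K E} {v₀ : Place K L} (h₀ : LiesOver v₀ w) (g : G) :
    {u : Place K F // LiesOver u w} :=
  haveI : FiniteDimensional F L := finiteDimensional_top (F := F) H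
  ⟨restrict F (g • v₀), (liesOver_restrict _).of_tower (liesOver_smul g h₀)⟩

variable {H}

theorem placeUnder_surjective {w : Place K E} {v₀ : Place K L} (h₀ : LiesOver v₀ w) :
    Function.Surjective (placeUnder F H h₀) := by
  rintro ⟨u, hu⟩
  have : FiniteDimensional F L := finiteDimensional_top (F := F) H
  have : Algebra.IsSeparable F L := isSeparable_top (F := F) H
  have : FiniteDimensional E L := IsGaloisGroup.finiteDimensional G E L
  have : Algebra.IsSeparable E L := by
    have := IsGaloisGroup.isGalois G E L
    infer_instance
  obtain ⟨v, hv⟩ := exists_liesOver_of_place (L := L) u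
  obtain ⟨g, hg⟩ := exists_smul_eq (G := G) h₀ (hv.trans hu)
  refine ⟨g, Subtype.ext ?_⟩
  show restrict F (g • v₀) = u
  rw [hg]
  exact hv.eq_restrict.symm

theorem placeUnder_eq_iff {w : Place K E} {v₀ : Place K L} (h₀ : LiesOver v₀ w) (g g' : G) :
    placeUnder F H h₀ g = placeUnder F H h₀ g' ↔
      DoubleCoset.mk H (MulAction.stabilizer G v₀) g = DoubleCoset.mk H (MulAction.stabilizer G v₀) g' := by
  have : FiniteDimensional F L := finiteDimensional_top (F := F) H
  have : Algebra.IsSeparable F L := isSeparable_top (F := F) H
  rw [DoubleCoset.eq]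
  constructor
  · intro heq
    have heq' : restrict F (g • v₀) = restrict F (g' • v₀) := congrArg Subtype.val heq
    have h1 : LiesOver (g • v₀) (restrict F (g • v₀)) := liesOver_restrict _
    have h2 : LiesOver (g' • v₀) (restrict F (g • v₀)) := heq' ▸ liesOver_restrict _
    obtain ⟨h, hh⟩ := exists_smul_eq (G := H) h1 h2
    have hh' : (h : G) • (g • v₀) = g' • v₀ := (subgroup_smul_place H h _).symm.trans hh
    refine ⟨h, h.2, g⁻¹ * (h : G)⁻¹ * g', ?_, by group⟩
    rw [MulAction.mem_stabilizer_iff, mul_smul, mul_smul, ← hh', inv_smul_smul, inv_smul_smul]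
  · rintro ⟨h, hh, k, hk, rfl⟩
    apply Subtype.ext
    show restrict F (g • v₀) = restrict F ((h * g * k) • v₀)
    rw [MulAction.mem_stabilizer_iff] at hk
    rw [mul_smul, hk, mul_smul]
    have h1 : LiesOver (g • v₀) (restrict F (g • v₀)) := liesOver_restrict _
    have h2 : LiesOver (h • (g • v₀)) (restrict F (g • v₀)) := by
      have h3 := liesOver_smul (G := H) ⟨h, hh⟩ h1
      have h4 : (placeMulAction (G := H) (K := K) (L := L)).toSMul.smul ⟨h, hh⟩ (g • v₀)
          = h • (g • v₀) := subgroup_smul_place H ⟨h, hh⟩ _
      exact Eq.mp (congrArg (fun v => LiesOver v (restrict F (g • v₀))) h4) h3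
    exact h2.eq_restrict

/-- **Counting places**: the places of `F = L^H` over a place `w` of `E = L^G` are in bijection
with the double cosets `H \ G / D`, where `D` is the stabiliser of a place `v₀` of `L` over `w`. -/
theorem card_places_over {w : Place K E} {v₀ : Place K L} (h₀ : LiesOver v₀ w) :
    Nat.card {u : Place K F // LiesOver u w}
      = Nat.card (DoubleCoset.Quotient (H : Set G) (MulAction.stabilizer G v₀ : Set G)) := by
  let φ : DoubleCoset.Quotient (H : Set G) (MulAction.stabilizer G v₀ : Set G) →
      {u : Place K F // LiesOver u w} :=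
    Quotient.lift (placeUnder F H h₀) (fun g g' hgg' => by
      rw [placeUnder_eq_iff]
      exact Quotient.sound hgg')
  have hφ : Function.Bijective φ := by
    constructor
    · intro a b
      induction a using Quotient.inductionOn with | _ g =>
      induction b using Quotient.inductionOn with | _ g' =>
      intro hab
      exact (placeUnder_eq_iff h₀ g g').mp hab
    · intro u
      obtain ⟨g, hg⟩ := placeUnder_surjective (H := H) h₀ u
      exact ⟨Quotient.mk _ g, hg⟩
  exact (Nat.card_congr (Equiv.ofBijective φ hφ)).symm

end Fermat.Agent.FF.Gal
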