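/-
X0N project, package (G) (helper7): the order of the decomposition group of a place of `L`
over a place `w` of `E = L^G` with residue field `K` is the ramification index.
-/
import Mathlib
import Fermat.Agent.FF.Gal_helper7_Count

set_option autoImplicit false
set_option linter.unusedSectionVars false

open AlgebraicCurve IsDedekindDomain
open scoped Pointwise

namespace Fermat.Agent.FF.Gal

variable {K E L : Type*} [Field K] [Field E] [Field L]
  [Algebra K E] [Algebra K L] [Algebra E L] [IsScalarTower K E L]

section Valuation

variable [FiniteDimensional E L] [Algebra.IsSeparable E L]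
variable {w : Place K E} {v : Place K L} (h : LiesOver v w)

/-- The normalised order of a place over `w` is given by the adic valuation of its center. -/
theorem ord_eq_neg_log_valuation {x : L} (hx : x ≠ 0) :
    v.ord x = -(WithZero.log ((centerSpec h).valuation L x)) := by
  have hK : ∀ a : K, algebraMap K L a ∈ ((centerSpec h).valuation L).valuationSubring := by
    intro a
    rw [← valuationSubring_eq h]
    exact v.algebraMap_mem' a
  have hν := isOrdFun_valuation (K := K) (centerSpec h) hK
  have hpl : hν.place = v := by
    apply Place.ext
    ext y
    by_cases hy : y = 0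
    · rw [hy]; simp [zero_mem]
    rw [hν.mem_place_iff hy, valuationSubring_eq h, Valuation.mem_valuationSubring_iff]
    have hy' := (Valuation.ne_zero_iff ((centerSpec h).valuation L)).mpr hy
    rw [neg_nonneg, WithZero.log_le_iff_le_exp hy', WithZero.exp_zero]
  have h1 : ∃ y : L, y ≠ 0 ∧ -(WithZero.log ((centerSpec h).valuation L y)) = 1 := by
    obtain ⟨π, hπ⟩ := (centerSpec h).valuation_exists_uniformizer L
    refine ⟨π, ?_, ?_⟩
    · intro h0
      rw [h0, map_zero] at hπ
      exact WithZero.zero_ne_coe hπ
    · rw [hπ]; simp
  have := hν.place_ord_eq h1 hx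
  rw [hpl] at this
  exact this

instance center_liesOver : (center h).LiesOver (IsLocalRing.maximalIdeal w.toValuationSubring) :=
  ⟨(center_under h).symm⟩

instance center_isMaximal : (center h).IsMaximal :=
  (centerSpec h).isMaximal

/-- The ramification index of the center is the order of a uniformiser of `w`. -/
theorem ramificationIdx_center {ϖ : w.toValuationSubring} (hϖ : Irreducible ϖ) :
    ((center h).ramificationIdx w.toValuationSubring : ℤ) = v.ord (algebraMap E L (ϖ : E)) := by
  have hb0 : algebraMap w.toValuationSubring (intCl L w) ϖ ≠ 0 := by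
    rw [Ne, FaithfulSMul.algebraMap_eq_zero_iff]
    exact hϖ.ne_zero
  have hmap : (IsLocalRing.maximalIdeal w.toValuationSubring).map
      (algebraMap w.toValuationSubring (intCl L w))
      = Ideal.span {algebraMap w.toValuationSubring (intCl L w) ϖ} := by
    rw [hϖ.maximalIdeal_eq, Ideal.map_span, Set.image_singleton]
  have hp0 : (IsLocalRing.maximalIdeal w.toValuationSubring).map
      (algebraMap w.toValuationSubring (intCl L w)) ≠ ⊥ := by
    rw [hmap, Ne, Ideal.span_singleton_eq_bot]
    exact hb0
  rw [Ideal.IsDedekindDomain.ramificationIdx_eq_multiplicity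
    (IsLocalRing.maximalIdeal w.toValuationSubring) (center h) hp0, hmap]
  have hL0 : algebraMap E L (ϖ : E) ≠ 0 := by
    rw [Ne, map_eq_zero]
    exact fun h0 => hϖ.ne_zero (Subtype.ext h0)
  rw [ord_eq_neg_log_valuation h hL0]
  have h1 : algebraMap E L (ϖ : E)
      = algebraMap (intCl L w) L (algebraMap w.toValuationSubring (intCl L w) ϖ) := rfl
  rw [h1, HeightOneSpectrum.valuation_of_algebraMap,
    HeightOneSpectrum.intValuation_eq_exp_neg_multiplicity _ hb0, WithZero.log_exp, neg_neg]
  rfl

/-- If the residue field of `v` is `K`, the inertia degree of the center is `1`. -/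
theorem inertiaDeg_center
    (hres : ∀ x : L, x ∈ v.toValuationSubring →
      ∃ c : K, x = algebraMap K L c ∨ 0 < v.ord (x - algebraMap K L c)) :
    (center h).inertiaDeg w.toValuationSubring = 1 := by
  rw [Ideal.inertiaDeg_eq_of_isMaximal (IsLocalRing.maximalIdeal w.toValuationSubring) (center h)]
  have hinj : Function.Injective (algebraMap
      (w.toValuationSubring ⧸ IsLocalRing.maximalIdeal w.toValuationSubring)
      (intCl L w ⧸ center h)) := FaithfulSMul.algebraMap_injective _ _
  have hsurj : Function.Surjective (algebraMap
      (w.toValuationSubring ⧸ IsLocalRing.maximalIdeal w.toValuationSubring)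
      (intCl L w ⧸ center h)) := by
    intro y
    obtain ⟨b, rfl⟩ := Ideal.Quotient.mk_surjective y
    obtain ⟨c, hc⟩ := hres (b : L) (intCl_le h b b.2)
    refine ⟨Ideal.Quotient.mk _ (algebraMap K w.toValuationSubring c), ?_⟩
    rw [Ideal.Quotient.algebraMap_mk_of_liesOver, Ideal.Quotient.eq, ← neg_mem_iff, neg_sub,
      mem_center_iff]
    have hcoe : ((b - algebraMap w.toValuationSubring (intCl L w)
        (algebraMap K w.toValuationSubring c) : intCl L w) : L) = (b : L) - algebraMap K L c := by
      show (b : L) - algebraMap E L (algebraMap K E c) = _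
      rw [← IsScalarTower.algebraMap_apply]
    rw [hcoe]
    rcases hc with hc | hc
    · left; rw [hc, sub_self]
    · right; exact hc
  have e := LinearEquiv.ofBijective (Algebra.linearMap
      (w.toValuationSubring ⧸ IsLocalRing.maximalIdeal w.toValuationSubring)
      (intCl L w ⧸ center h)) ⟨hinj, hsurj⟩
  rw [← e.finrank_eq, Module.finrank_self]

end Valuation

section Main

variable {G : Type*} [Group G] [Finite G] [MulSemiringAction G L] [SMulCommClass G K L]
  [IsGaloisGroup G E L]

section Aux

variable [SMulCommClass G E L] [FiniteDimensional E L] [Algebra.IsSeparable E L]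
variable {w : Place K E} {v : Place K L} (h : LiesOver v w)

set_option synthInstance.maxHeartbeats 400000 in
theorem stabilizer_eq_stabilizer_center :
    MulAction.stabilizer G v = MulAction.stabilizer G (center h) := by
  ext g
  rw [MulAction.mem_stabilizer_iff, MulAction.mem_stabilizer_iff]
  constructor
  · intro hg
    rw [← center_smul g h]
    ext x
    rw [mem_center_iff, mem_center_iff, hg]
  · intro hg
    exact eq_of_center_eq (liesOver_smul g h) h (by rw [center_smul g h, hg])

instance charZero_residueField [CharZero K] :
    CharZero (IsLocalRing.maximalIdeal w.toValuationSubring).ResidueField :=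
  charZero_of_injective_ringHom
    (((algebraMap w.toValuationSubring _).comp (algebraMap K w.toValuationSubring)).injective)

set_option synthInstance.maxHeartbeats 400000 in
theorem card_stabilizer_center [CharZero K] :
    Nat.card (MulAction.stabilizer G (center h)) =
      (center h).ramificationIdx w.toValuationSubring
        * (center h).inertiaDeg w.toValuationSubring := by
  rw [Ideal.card_stabilizer_eq (G := G) (IsLocalRing.maximalIdeal w.toValuationSubring) (center h),
    Ideal.ramificationIdxIn_eq_ramificationIdx (IsLocalRing.maximalIdeal w.toValuationSubring)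
      (center h) G,
    Ideal.inertiaDegIn_eq_inertiaDeg (IsLocalRing.maximalIdeal w.toValuationSubring)
      (center h) G]

end Aux

/-- **The decomposition group**: if `w` is a place of `E = L^G`, `v` a place of `L` over `w` with
residue field `K`, and `π` a uniformiser of `w`, then the stabiliser of `v` in `G` has order
`ord_v π` (the ramification index). -/
theorem card_stabilizer [CharZero K] {w : Place K E} {v : Place K L} (h : LiesOver v w)
    (hres : ∀ x : L, x ∈ v.toValuationSubring →
      ∃ c : K, x = algebraMap K L c ∨ 0 < v.ord (x - algebraMap K L c))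
    {π : E} (hπ : w.ord π = 1) :
    (Nat.card (MulAction.stabilizer G v) : ℤ) = v.ord (algebraMap E L π) := by
  have : FiniteDimensional E L := IsGaloisGroup.finiteDimensional G E L
  have : Algebra.IsSeparable E L := by
    have := IsGaloisGroup.isGalois G E L
    infer_instance
  obtain ⟨ϖ, hϖ⟩ := IsDiscreteValuationRing.exists_irreducible w.toValuationSubring
  rw [stabilizer_eq_stabilizer_center h, card_stabilizer_center h, inertiaDeg_center h hres,
    mul_one, ramificationIdx_center h hϖ]
  obtain ⟨e, he, hord⟩ := h.exists_ord_eq
  rw [hord, hord, hπ, w.ord_coe_irreducible hϖ]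

end Main

end Fermat.Agent.FF.Gal
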