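import Mathlib
import Fermat.Agent.FF.RR_helper3_Count

/-!
# The exponent of the different at a tamely ramified prime (residue characteristic zero)
-/

set_option autoImplicit false
set_option linter.style.haveILetI false
set_option linter.unusedSectionVars false
set_option linter.overlappingInstances false

namespace Fermat.Agent.FF.RR

open IsDedekindDomain IsDedekindDomain.HeightOneSpectrum FractionalIdeal nonZeroDivisors Module

attribute [local instance] FractionRing.liftAlgebra FractionRing.isScalarTower_liftAlgebra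

section NotDvd

variable (A : Type*) {B : Type*} [CommRing A] [CommRing B] [Algebra A B] [IsDomain A]
  [IsDedekindDomain A] [IsDedekindDomain B] [Module.IsTorsionFree A B] [Module.Finite A B]
  [Algebra.IsSeparable (FractionRing A) (FractionRing B)]

/-- If `p B = 𝔞 Q` with `𝔞`, `Q` coprime, `𝔞` proper and the residue field of `p` has
characteristic zero, then `𝔞` does not divide the different. -/
theorem not_dvd_differentIdeal_of_isCoprime_of_charZero
    {p : Ideal A} [p.IsMaximal] [CharZero (A ⧸ p)] (𝔞 Q : Ideal B) (h𝔞 : 𝔞 ≠ ⊤)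
    (hPQ : IsCoprime 𝔞 Q) (hP : 𝔞 * Q = Ideal.map (algebraMap A B) p) :
    ¬ 𝔞 ∣ differentIdeal A B := by
  letI : Field (A ⧸ p) := Ideal.Quotient.field p
  let _ : Algebra (A ⧸ p) (B ⧸ 𝔞) := Ideal.Quotient.algebraQuotientOfLEComap (by
      rw [← Ideal.map_le_iff_le_comap, ← hP]
      exact Ideal.mul_le_left)
  let _ : Algebra (A ⧸ p) (B ⧸ Q) := Ideal.Quotient.algebraQuotientOfLEComap (by
      rw [← Ideal.map_le_iff_le_comap, ← hP]
      exact Ideal.mul_le_right)
  have : IsScalarTower A (A ⧸ p) (B ⧸ 𝔞) := .of_algebraMap_eq' rfl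
  have : IsScalarTower A (A ⧸ p) (B ⧸ Q) := .of_algebraMap_eq' rfl
  have : Module.Finite (A ⧸ p) (B ⧸ 𝔞) :=
    Module.Finite.of_restrictScalars_finite A (A ⧸ p) (B ⧸ 𝔞)
  have : Module.Finite (A ⧸ p) (B ⧸ Q) :=
    Module.Finite.of_restrictScalars_finite A (A ⧸ p) (B ⧸ Q)
  have : Nontrivial (B ⧸ 𝔞) := Ideal.Quotient.nontrivial_iff.mpr h𝔞
  let e : (B ⧸ p.map (algebraMap A B)) ≃ₐ[A ⧸ p] ((B ⧸ 𝔞) × B ⧸ Q) :=
    { __ := (Ideal.quotEquivOfEq hP.symm).trans (Ideal.quotientMulEquivQuotientProd 𝔞 Q hPQ),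
      commutes' := Quotient.ind fun _ ↦ rfl }
  obtain ⟨y, hy⟩ := Ideal.Quotient.mk_surjective (e.symm (1, 0))
  refine not_dvd_differentIdeal_of_intTrace_not_mem A 𝔞 Q hP y ?_ ?_
  · have := congr((e $hy).2)
    simp at this
    simpa [e, Ideal.Quotient.eq_zero_iff_mem] using this
  · rw [← Ideal.Quotient.eq_zero_iff_mem, ← Algebra.trace_quotient_eq_of_isDedekindDomain,
      hy, Algebra.trace_eq_of_algEquiv, Algebra.trace_prod_apply]
    have h1 : Algebra.trace (A ⧸ p) (B ⧸ 𝔞) 1 = (finrank (A ⧸ p) (B ⧸ 𝔞) : A ⧸ p) := by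
      rw [← map_one (algebraMap (A ⧸ p) (B ⧸ 𝔞)), Algebra.trace_algebraMap, nsmul_eq_mul, mul_one]
    simp only [map_zero, add_zero]
    rw [h1]
    exact Nat.cast_ne_zero.mpr (finrank_pos (R := A ⧸ p) (M := B ⧸ 𝔞)).ne'

end NotDvd

section PowDvd

variable {R : Type*} [CommRing R] [IsDedekindDomain R] (L : Type*) [Field L] [Algebra R L]
  [IsFractionRing R L]

theorem pow_dvd_iff_le_count (P : HeightOneSpectrum R) {𝔞 : Ideal R} (h𝔞 : 𝔞 ≠ ⊥) (n : ℕ) :
    P.asIdeal ^ n ∣ 𝔞 ↔ (n : ℤ) ≤ count L P (𝔞 : FractionalIdeal R⁰ L) := by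
  have hP0 : (P.asIdeal : FractionalIdeal R⁰ L) ≠ 0 := coeIdeal_ne_zero.mpr P.ne_bot
  rw [Ideal.dvd_iff_le, ← coeIdeal_le_coeIdeal L,
    le_iff_count_le (coeIdeal_ne_zero.mpr h𝔞) (coeIdeal_ne_zero.mpr (pow_ne_zero n P.ne_bot))]
  constructor
  · intro h
    have := h P
    rwa [coeIdeal_pow, count_pow, count_self, mul_one] at this
  · intro h v
    rw [coeIdeal_pow, count_pow]
    by_cases hv : P = v
    · subst hv
      rwa [count_self, mul_one]
    · rw [count_maximal_coprime L v hv, mul_zero]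
      exact count_coe_nonneg L v 𝔞

end PowDvd

section Tame

variable (A K : Type*) {L : Type*} {B : Type*} [CommRing A] [Field K] [CommRing B] [Field L]
  [Algebra A K] [Algebra B L] [Algebra A B] [Algebra K L] [Algebra A L]
  [IsScalarTower A K L] [IsScalarTower A B L] [IsDomain A] [IsFractionRing A K]
  [FiniteDimensional K L] [Algebra.IsSeparable K L] [IsIntegralClosure B A L]
  [IsFractionRing B L] [IsDedekindDomain A] [IsDedekindDomain B]
  [Module.IsTorsionFree A B] [Module.Finite A B]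

include K L in
theorem isSeparable_fractionRing : Algebra.IsSeparable (FractionRing A) (FractionRing B) := by
  refine Algebra.IsSeparable.of_equiv_equiv (FractionRing.algEquiv A K).symm.toRingEquiv
    (FractionRing.algEquiv B L).symm.toRingEquiv ?_
  ext _
  exact IsFractionRing.algEquiv_commutes (FractionRing.algEquiv A K).symm
    (FractionRing.algEquiv B L).symm _

/-- **Tame different exponent**: in residue characteristic zero, the exponent of `P` in the
inverse different is `1 - e`. -/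
theorem count_dual_one {p : Ideal A} [p.IsMaximal] (hp0 : p ≠ ⊥) [CharZero (A ⧸ p)]
    (P : HeightOneSpectrum B) (hPp : p.map (algebraMap A B) ≤ P.asIdeal) :
    count L P (dual A K (1 : FractionalIdeal B⁰ L))
      = 1 - count L P ((p.map (algebraMap A B) : Ideal B) : FractionalIdeal B⁰ L) := by
  classical
  haveI : Algebra.IsSeparable (FractionRing A) (FractionRing B) := isSeparable_fractionRing A K (L := L)
  set 𝔭 : Ideal B := p.map (algebraMap A B) with h𝔭
  have h𝔭0 : 𝔭 ≠ ⊥ := by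
    rw [h𝔭, ne_eq, Ideal.map_eq_bot_iff_of_injective (FaithfulSMul.algebraMap_injective A B)]
    exact hp0
  have h𝔭0' : (𝔭 : FractionalIdeal B⁰ L) ≠ 0 := coeIdeal_ne_zero.mpr h𝔭0
  have hP0 : (P.asIdeal : FractionalIdeal B⁰ L) ≠ 0 := coeIdeal_ne_zero.mpr P.ne_bot
  set 𝔇 : Ideal B := differentIdeal A B with h𝔇
  have h𝔇0 : 𝔇 ≠ ⊥ := differentIdeal_ne_bot
  have hdual : count L P (dual A K (1 : FractionalIdeal B⁰ L))
      = - count L P (𝔇 : FractionalIdeal B⁰ L) := by
    rw [h𝔇, coeIdeal_differentIdeal A K L B, count_inv, neg_neg]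
  -- the ramification index
  have he1 : (1 : ℤ) ≤ count L P (𝔭 : FractionalIdeal B⁰ L) := by
    have := (pow_dvd_iff_le_count L P h𝔭0 1).mp (by rw [pow_one, Ideal.dvd_iff_le]; exact hPp)
    simpa using this
  obtain ⟨e, he⟩ := Int.eq_ofNat_of_zero_le (le_trans zero_le_one he1)
  have he0 : e ≠ 0 := by
    rintro rfl
    rw [he] at he1
    norm_num at he1
  -- lower bound
  have hlow : ((e - 1 : ℕ) : ℤ) ≤ count L P (𝔇 : FractionalIdeal B⁰ L) := by
    rw [← pow_dvd_iff_le_count L P h𝔇0]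
    refine pow_sub_one_dvd_differentIdeal_aux A K L P.asIdeal he0 hp0 ?_
    rw [pow_dvd_iff_le_count L P h𝔭0, he]
  -- upper bound
  have hupp : ¬ ((e : ℕ) : ℤ) ≤ count L P (𝔇 : FractionalIdeal B⁰ L) := by
    rw [← pow_dvd_iff_le_count L P h𝔇0]
    -- the cofactor `Q`
    have hQ'0 : (𝔭 : FractionalIdeal B⁰ L) * ((P.asIdeal : FractionalIdeal B⁰ L) ^ e)⁻¹ ≠ 0 :=
      mul_ne_zero h𝔭0' (inv_ne_zero (pow_ne_zero _ hP0))
    have hcount : ∀ v : HeightOneSpectrum B, count L v
        ((𝔭 : FractionalIdeal B⁰ L) * ((P.asIdeal : FractionalIdeal B⁰ L) ^ e)⁻¹)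
        = if v = P then 0 else count L v (𝔭 : FractionalIdeal B⁰ L) := by
      intro v
      rw [count_mul L v h𝔭0' (inv_ne_zero (pow_ne_zero _ hP0)), count_inv, count_pow]
      split_ifs with hv
      · subst hv
        rw [count_self, mul_one, he]
        ring
      · rw [count_maximal_coprime L v (Ne.symm hv), mul_zero, neg_zero, add_zero]
    have hQ'1 : (𝔭 : FractionalIdeal B⁰ L) * ((P.asIdeal : FractionalIdeal B⁰ L) ^ e)⁻¹ ≤ 1 := by
      refine le_one_of_count_nonneg hQ'0 fun v => ?_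
      rw [hcount v]
      split_ifs
      · exact le_rfl
      · exact count_coe_nonneg L v 𝔭
    obtain ⟨Q, hQ⟩ := le_one_iff_exists_coeIdeal.mp hQ'1
    have hPQ : P.asIdeal ^ e * Q = 𝔭 := by
      apply coeIdeal_injective (K := L)
      show ((P.asIdeal ^ e * Q : Ideal B) : FractionalIdeal B⁰ L) = (𝔭 : FractionalIdeal B⁰ L)
      rw [coeIdeal_mul, hQ, coeIdeal_pow, mul_comm, mul_assoc,
        inv_mul_cancel₀ (pow_ne_zero _ hP0), mul_one]
    have hQ0 : Q ≠ ⊥ := by
      rintro rfl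
      rw [Ideal.mul_bot] at hPQ
      exact h𝔭0 hPQ.symm
    have hQP : ¬ Q ≤ P.asIdeal := by
      intro hle
      have h1 := (pow_dvd_iff_le_count L P hQ0 1).mp (by rw [pow_one, Ideal.dvd_iff_le]; exact hle)
      rw [hQ, hcount P, if_pos rfl] at h1
      norm_num at h1
    have hcop : IsCoprime (P.asIdeal ^ e) Q := by
      refine IsCoprime.pow_left ?_
      rw [Ideal.isCoprime_iff_sup_eq]
      exact P.isMaximal.1.2 _ (lt_of_le_of_ne le_sup_left fun h => hQP (h ▸ le_sup_right))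
    have hne : P.asIdeal ^ e ≠ ⊤ := by
      intro h
      have : P.asIdeal ^ e ≤ P.asIdeal := Ideal.pow_le_self he0
      rw [h, top_le_iff] at this
      exact P.isPrime.ne_top this
    exact not_dvd_differentIdeal_of_isCoprime_of_charZero A (P.asIdeal ^ e) Q hne hcop hPQ
  rw [hdual, he]
  have : (((e - 1 : ℕ) : ℤ)) = (e : ℤ) - 1 := by
    rw [Nat.cast_sub (Nat.one_le_iff_ne_zero.mpr he0)]
    simp
  omega

end Tame

end Fermat.Agent.FF.RR
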