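import Mathlib
import Fermat.Agent.FF.RR_helper3_Main
import Fermat.Agent.FF.RR_helper3_Different

/-!
# The exponents of the canonical pair (characteristic zero)
-/

set_option autoImplicit false
set_option linter.style.haveILetI false
set_option linter.unusedSectionVars false

namespace Fermat.Agent.FF.RR

open Polynomial Module nonZeroDivisors IsDedekindDomain FractionalIdeal

variable {K F : Type*} [Field K] [IsAlgClosed K] [CharZero K] [Field F] [Algebra K F]
  [Algebra K[X] F] [Algebra (RatFunc K) F]
  [IsScalarTower K[X] (RatFunc K) F] [IsScalarTower K K[X] F] [IsScalarTower K (RatFunc K) F]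
  [FiniteDimensional (RatFunc K) F] [Algebra.IsSeparable (RatFunc K) F]

local notation "B" => FunctionField.ringOfIntegers K F
local notation "Binf" => ringAtInfty K F

instance ringOfIntegers_isTorsionFree : Module.IsTorsionFree K[X] B :=
  Module.isTorsionFree_iff_algebraMap_injective.mpr
    (FunctionField.ringOfIntegers.algebraMap_injective K F)

theorem algebraMap_Oinf_injective : Function.Injective (algebraMap (Oinf K) Binf) := by
  have h : Function.Injective (algebraMap (Oinf K) F) := by
    rw [IsScalarTower.algebraMap_eq (Oinf K) (RatFunc K) F]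
    exact (algebraMap (RatFunc K) F).injective.comp (IsFractionRing.injective (Oinf K) (RatFunc K))
  rw [IsScalarTower.algebraMap_eq (Oinf K) Binf F, RingHom.coe_comp] at h
  exact Function.Injective.of_comp h

instance ringAtInfty_isTorsionFree : Module.IsTorsionFree (Oinf K) Binf :=
  Module.isTorsionFree_iff_algebraMap_injective.mpr algebraMap_Oinf_injective

instance ringAtInfty_finite : Module.Finite (Oinf K) Binf :=
  IsIntegralClosure.finite (Oinf K) (RatFunc K) F Binf

theorem algebraMap_X_sub_C (a : K) :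
    algebraMap K[X] F (X - C a) = xF K F - algebraMap K F a := by
  rw [map_sub, xF, IsScalarTower.algebraMap_apply K[X] (RatFunc K) F X, RatFunc.algebraMap_X,
    ← Polynomial.algebraMap_eq, ← IsScalarTower.algebraMap_apply K K[X] F]

theorem exists_X_sub_C_mem (P : HeightOneSpectrum B) :
    ∃ a : K, algebraMap K[X] B (X - C a) ∈ P.asIdeal := by
  haveI : (P.asIdeal.comap (algebraMap K[X] B)).IsMaximal :=
    Ideal.isMaximal_comap_of_isIntegral_of_isMaximal P.asIdeal
  have hne : P.asIdeal.comap (algebraMap K[X] B) ≠ ⊥ :=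
    Ring.ne_bot_of_isMaximal_of_not_isField inferInstance (Polynomial.not_isField K)
  obtain ⟨a, ha⟩ := exists_sub_C_mem_of_ne_bot _ hne X
  exact ⟨a, ha⟩

theorem count_canI (P : HeightOneSpectrum B) {a : K}
    (ha : algebraMap K[X] B (X - C a) ∈ P.asIdeal) :
    count F P (canI K F) = 1 - count F P (spanSingleton B⁰ (xF K F - algebraMap K F a)) := by
  set p : Ideal K[X] := Ideal.span {X - C a} with hp
  haveI hpm : p.IsMaximal := PrincipalIdealRing.isMaximal_of_irreducible (irreducible_X_sub_C a)
  have hp0 : p ≠ ⊥ := by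
    rw [hp, ne_eq, Ideal.span_singleton_eq_bot]
    exact X_sub_C_ne_zero a
  haveI : CharZero (K[X] ⧸ p) :=
    charZero_of_injective_ringHom ((Ideal.Quotient.mk p).comp (C : K →+* K[X])).injective
  have hmap : p.map (algebraMap K[X] B) = Ideal.span {algebraMap K[X] B (X - C a)} := by
    rw [hp, Ideal.map_span, Set.image_singleton]
  have hPp : p.map (algebraMap K[X] B) ≤ P.asIdeal := by
    rw [hmap, Ideal.span_le, Set.singleton_subset_iff]
    exact ha
  have := count_dual_one K[X] (RatFunc K) (L := F) hp0 P hPp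
  rw [canI, this, hmap, coeIdeal_span_singleton, ← IsScalarTower.algebraMap_apply,
    algebraMap_X_sub_C]

variable (K) in
/-- The uniformizer `X⁻¹` of `Oinf K`. -/
noncomputable def piInf : Oinf K :=
  ⟨(RatFunc.X : RatFunc K)⁻¹, by
    rw [← zpow_neg_one]
    exact X_zpow_mem_Oinf (by norm_num)⟩

theorem piInf_ne_zero : piInf K ≠ 0 := by
  intro h
  have := congrArg (Subtype.val) h
  simp only [piInf, ZeroMemClass.coe_zero, inv_eq_zero] at this
  exact RatFunc.X_ne_zero this

theorem maximalIdeal_Oinf : IsLocalRing.maximalIdeal (Oinf K) = Ideal.span {piInf K} := by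
  apply le_antisymm
  · intro f hf
    rw [mem_maximalIdeal_iff_isSmall, isSmall_iff_X_mul_mem] at hf
    rw [Ideal.mem_span_singleton']
    refine ⟨⟨_, hf⟩, ?_⟩
    apply Subtype.ext
    show RatFunc.X * (f : RatFunc K) * (RatFunc.X : RatFunc K)⁻¹ = (f : RatFunc K)
    rw [mul_comm, ← mul_assoc, inv_mul_cancel₀ RatFunc.X_ne_zero, one_mul]
  · rw [Ideal.span_le, Set.singleton_subset_iff, SetLike.mem_coe, mem_maximalIdeal_iff_isSmall,
      isSmall_iff_X_mul_mem]
    show RatFunc.X * (RatFunc.X : RatFunc K)⁻¹ ∈ Oinf K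
    rw [mul_inv_cancel₀ RatFunc.X_ne_zero]
    exact one_mem _

theorem algebraMap_piInf : algebraMap (Oinf K) F (piInf K) = (xF K F)⁻¹ := by
  rw [IsScalarTower.algebraMap_apply (Oinf K) (RatFunc K) F, xF, ← map_inv₀]
  rfl

theorem count_dual_one_inf (Q : HeightOneSpectrum Binf) :
    count F Q (dual (Oinf K) (RatFunc K) (1 : FractionalIdeal Binf⁰ F))
      = 1 + count F Q (spanSingleton Binf⁰ (xF K F)) := by
  set p : Ideal (Oinf K) := IsLocalRing.maximalIdeal (Oinf K) with hp
  have hp0 : p ≠ ⊥ := by
    rw [hp, maximalIdeal_Oinf, ne_eq, Ideal.span_singleton_eq_bot]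
    exact piInf_ne_zero
  haveI : CharZero (Oinf K ⧸ p) :=
    charZero_of_injective_ringHom ((Ideal.Quotient.mk p).comp (algebraMap K (Oinf K))).injective
  have hmap : p.map (algebraMap (Oinf K) Binf)
      = Ideal.span {algebraMap (Oinf K) Binf (piInf K)} := by
    rw [hp, maximalIdeal_Oinf, Ideal.map_span, Set.image_singleton]
  have hPp : p.map (algebraMap (Oinf K) Binf) ≤ Q.asIdeal := by
    rw [Ideal.map_le_iff_le_comap]
    haveI : (Q.asIdeal.comap (algebraMap (Oinf K) Binf)).IsMaximal :=
      Ideal.isMaximal_comap_of_isIntegral_of_isMaximal Q.asIdeal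
    rw [IsLocalRing.eq_maximalIdeal
      (inferInstance : (Q.asIdeal.comap (algebraMap (Oinf K) Binf)).IsMaximal)]
  have := count_dual_one (Oinf K) (RatFunc K) (L := F) hp0 Q hPp
  rw [this, hmap, coeIdeal_span_singleton, ← IsScalarTower.algebraMap_apply, algebraMap_piInf,
    ← spanSingleton_inv, count_inv]
  ring

theorem count_canJ (Q : HeightOneSpectrum Binf) :
    count F Q (canJ K F) = 1 - count F Q (spanSingleton Binf⁰ (xF K F)) := by
  have hx : spanSingleton Binf⁰ (xF K F) ≠ 0 := spanSingleton_ne_zero' xF_ne_zero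
  have h2 : spanSingleton Binf⁰ (xF K F ^ (-2 : ℤ)) = ((spanSingleton Binf⁰ (xF K F)) ^ 2)⁻¹ := by
    rw [zpow_neg, zpow_ofNat, ← spanSingleton_inv, spanSingleton_pow]
  rw [canJ, twist, count_mul F Q (spanSingleton_ne_zero' (zpow_ne_zero _ xF_ne_zero))
    (by rw [ne_eq, dual_eq_zero_iff]; exact one_ne_zero), count_dual_one_inf, h2, count_inv,
    count_pow]
  push_cast
  ring

/-- Membership in the canonical Riemann–Roch space, in terms of valuations. -/
theorem mem_canonical_iff {f : F} :
    f ∈ finLat (canI K F) ⊓ infLat (canJ K F) ↔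
      (∀ P : HeightOneSpectrum B,
        P.valuation F f ≤ WithZero.exp (-(count F P (canI K F)))) ∧
      (∀ Q : HeightOneSpectrum Binf,
        Q.valuation F f ≤ WithZero.exp (-(count F Q (canJ K F)))) := by
  rw [Submodule.mem_inf, mem_finLat, mem_infLat, mem_iff_valuation_le canI_ne_zero,
    mem_iff_valuation_le canJ_ne_zero]

/-- The exponent of a principal fractional ideal is minus the logarithm of the valuation. -/
theorem count_spanSingleton_eq_neg_log {R : Type*} [CommRing R] [IsDedekindDomain R] {L : Type*}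
    [Field L] [Algebra R L] [IsFractionRing R L] (v : HeightOneSpectrum R) {x : L} (hx : x ≠ 0) :
    count L v (spanSingleton R⁰ x) = -WithZero.log (v.valuation L x) := by
  rw [valuation_eq_exp_neg_count v hx, WithZero.log_exp, neg_neg]

end Fermat.Agent.FF.RR
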