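import Mathlib
import Fermat.Agent.FF.RR_helper3_Canon
import Fermat.Agent.FF.PlaceDict

/-!
# Riemann–Roch for the canonical divisor `div(dx)` of a function field

For an algebraically closed field `k` of characteristic zero, a function field `F / k` with a
coordinate `c : Coord k F` and the divisor `W = div(dx)`:
`L(W)` is finite-dimensional and `2 dim L(W) = deg W + 2`.
-/

set_option autoImplicit false
set_option linter.style.haveILetI false
set_option linter.unusedSectionVars false

namespace Fermat.Agent.FF.RR

open Polynomial Module nonZeroDivisors IsDedekindDomain FractionalIdeal AlgebraicCurve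
  KaehlerDifferential

section TC

variable {K F : Type*} [Field K] [IsAlgClosed K] [CharZero K] [Field F] [Algebra K F]
  [Algebra K[X] F] [Algebra (RatFunc K) F]
  [IsScalarTower K[X] (RatFunc K) F] [IsScalarTower K K[X] F] [IsScalarTower K (RatFunc K) F]
  [FiniteDimensional (RatFunc K) F] [Algebra.IsSeparable (RatFunc K) F]

local notation "B" => FunctionField.ringOfIntegers K F
local notation "Binf" => ringAtInfty K F

theorem ord_placeOf_eq_count {R : Type*} [CommRing R] [IsDedekindDomain R] [Algebra R F]
    [IsFractionRing R F] [Algebra K R] [IsScalarTower K R F] (w : HeightOneSpectrum R) {f : F}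
    (hf : f ≠ 0) :
    (placeOf (k := K) (F := F) w).ord f = count F w (spanSingleton R⁰ f) := by
  rw [ord_placeOf w hf, count_spanSingleton_eq_neg_log w hf]

theorem ordDifferential_placeOf_fin (P : HeightOneSpectrum B) :
    (placeOf (k := K) (F := F) P).ordDifferential (D K F (xF K F))
      = -count F P (canI K F) := by
  obtain ⟨a, ha⟩ := exists_ord_sub_pos (K := K) (F := F) P
  have h0 : xF K F - algebraMap K F a ≠ 0 := by
    intro h
    rw [h, Place.ord_zero] at ha
    exact lt_irrefl _ ha
  have hr : algebraMap B F (algebraMap K[X] B (X - C a)) = xF K F - algebraMap K F a := by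
    rw [← IsScalarTower.algebraMap_apply, algebraMap_X_sub_C]
  have hr0 : algebraMap K[X] B (X - C a) ≠ 0 := by
    intro h
    rw [h, map_zero] at hr
    exact h0 hr.symm
  have hmem : algebraMap K[X] B (X - C a) ∈ P.asIdeal := by
    rw [← ord_placeOf_algebraMap_pos_iff (k := K) (F := F) P _ hr0, hr]
    exact ha
  rw [ordDifferential_D_xF_fin P ha, count_canI P hmem, ord_placeOf_eq_count P h0]
  ring

theorem ordDifferential_placeOf_inf (Q : HeightOneSpectrum Binf) :
    (placeOf (k := K) (F := F) Q).ordDifferential (D K F (xF K F))
      = -count F Q (canJ K F) := by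
  rw [ordDifferential_D_xF_inf Q, count_canJ Q, ord_placeOf_eq_count Q xF_ne_zero]
  ring

/-- Riemann–Roch for `div(dx)` in the typeclass setting. -/
theorem rr_canonical_TC (W : Divisor K F)
    (hW : ∀ v : Place K F, W v = v.ordDifferential (D K F (xF K F))) :
    Module.Finite K ↥(riemannRochSpace W) ∧
      2 * (finrank K ↥(riemannRochSpace W) : ℤ) = Divisor.degree W + 2 := by
  have hfin : ∀ P : HeightOneSpectrum B,
      W (placeOf (k := K) (F := F) P) = -count F P (canI K F) :=
    fun P => (hW _).trans (ordDifferential_placeOf_fin P)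
  have hinf : ∀ Q : HeightOneSpectrum Binf,
      W (placeOf (k := K) (F := F) Q) = -count F Q (canJ K F) :=
    fun Q => (hW _).trans (ordDifferential_placeOf_inf Q)
  have hL : riemannRochSpace W = finLat (canI K F) ⊓ infLat (canJ K F) := by
    ext f
    rw [mem_riemannRochSpace_iff_valuation, mem_canonical_iff]
    simp only [hfin, hinf]
  have hdeg : Divisor.degree W
      = -∑ᶠ P : HeightOneSpectrum B, count F P (canI K F)
        - ∑ᶠ Q : HeightOneSpectrum Binf, count F Q (canJ K F) := by
    rw [degree_eq_finsum_add_finsum (deg_eq_one_TC K F) W]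
    simp only [hfin, hinf]
    rw [finsum_neg_distrib, finsum_neg_distrib]
    ring
  rw [hL]
  refine ⟨(finite_pair _ canI_ne_zero _ canJ_ne_zero).1, ?_⟩
  rw [two_mul_finrank_canonical, hdeg]
  ring

end TC

end Fermat.Agent.FF.RR

namespace Fermat.Agent.FF

open AlgebraicCurve KaehlerDifferential Module

/-- **Riemann–Roch for the canonical divisor**: for `W = div(dx)` on a function field over an
algebraically closed field of characteristic zero, `L(W)` is finite-dimensional and
`2 dim L(W) = deg W + 2`. -/
theorem Coord.two_mul_finrank_riemannRochSpace_D_x {k F : Type*} [Field k] [Field F] [Algebra k F]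
    [CharZero k] [IsAlgClosed k] (c : Coord k F) (W : Divisor k F)
    (hW : ∀ v : Place k F, W v = v.ordDifferential (D k F c.x)) :
    Module.Finite k ↥(riemannRochSpace W) ∧
      2 * (finrank k ↥(riemannRochSpace W) : ℤ) = Divisor.degree W + 2 := by
  obtain ⟨i1, i2, i3, i4, i5, i6, i7, hx⟩ := c.exists_typeclass_setting
  exact RR.rr_canonical_TC W (by rw [hx]; exact hW)

end Fermat.Agent.FF
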