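import Mathlib
import Fermat.Agent.FF.PlaceDict
import Fermat.Agent.FF.RR_helper3_Main

/-!
# Riemann–Roch for `div(dx)` in the Prelude's language

Assembly of helper3's Riemann–Roch for the canonical pair with the place dictionary:
`2 * dim L(W) = deg W + 2` for the divisor `W` of `dx`, modulo the computation of the different
(`count P canI = -ord_P(dx)`, `count Q canJ = -ord_Q(dx)`).
-/

set_option autoImplicit false
set_option linter.unusedSectionVars false
set_option linter.style.haveILetI false

open Polynomial AlgebraicCurve IsDedekindDomain WithZero IntermediateField KaehlerDifferential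
open Module nonZeroDivisors FractionalIdeal

namespace Fermat.Agent.FF

open RR

variable {K F : Type*} [Field K] [Field F] [Algebra K F] [Algebra K[X] F] [Algebra (RatFunc K) F]
  [IsScalarTower K[X] (RatFunc K) F] [IsScalarTower K K[X] F] [IsScalarTower K (RatFunc K) F]
  [FiniteDimensional (RatFunc K) F] [Algebra.IsSeparable (RatFunc K) F]

local notation "B" => FunctionField.ringOfIntegers K F
local notation "Binf" => ringAtInfty K F

section General

variable {k F' : Type*} [Field k] [Field F'] [Algebra k F']
variable {R : Type*} [CommRing R] [IsDedekindDomain R] [Algebra R F'] [IsFractionRing R F']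
  [Algebra k R] [IsScalarTower k R F']

/-- The exponent of a prime in a principal fractional ideal is the order at the place. -/
theorem count_spanSingleton_eq_ord (w : HeightOneSpectrum R) {x : F'} (hx : x ≠ 0) :
    count F' w (spanSingleton R⁰ x) = (placeOf (k := k) (F := F') w).ord x := by
  have h1 := valuation_eq_exp_neg_count w hx
  have h2 := valuation_eq_exp_neg_ord (k := k) w hx
  rw [h1, exp_inj] at h2
  omega

end General

section Canonical

variable [CharZero K] [IsAlgClosed K]

/-- `ord_P(dx) = count P (x - a) - 1`. -/
theorem ordDifferential_eq_count_fin (P : HeightOneSpectrum B) {a : K}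
    (ha : 0 < (placeOf (k := K) (F := F) P).ord (xF K F - algebraMap K F a)) :
    (placeOf (k := K) (F := F) P).ordDifferential (D K F (xF K F))
      = count F P (spanSingleton B⁰ (xF K F - algebraMap K F a)) - 1 := by
  have h0 : xF K F - algebraMap K F a ≠ 0 := by
    intro h; rw [h, Place.ord_zero] at ha; exact lt_irrefl _ ha
  rw [ordDifferential_D_xF_fin P ha, count_spanSingleton_eq_ord (k := K) P h0]

/-- `ord_Q(dx) = count Q x - 1`. -/
theorem ordDifferential_eq_count_inf (Q : HeightOneSpectrum Binf) :
    (placeOf (k := K) (F := F) Q).ordDifferential (D K F (xF K F))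
      = count F Q (spanSingleton Binf⁰ (xF K F)) - 1 := by
  rw [ordDifferential_D_xF_inf Q, count_spanSingleton_eq_ord (k := K) Q xF_ne_zero]

set_option maxHeartbeats 1600000 in
/-- **Riemann–Roch for `W = div(dx)`**, modulo the computation of the different. -/
theorem two_mul_finrank_riemannRochSpace_of_count
    (hfin : ∀ P : HeightOneSpectrum B, count F P (canI K F)
      = -(placeOf (k := K) (F := F) P).ordDifferential (D K F (xF K F)))
    (hinf : ∀ Q : HeightOneSpectrum Binf, count F Q (canJ K F)
      = -(placeOf (k := K) (F := F) Q).ordDifferential (D K F (xF K F)))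
    (W : Divisor K F) (hW : ∀ v : Place K F, W v = v.ordDifferential (D K F (xF K F))) :
    Module.Finite K ↥(riemannRochSpace W) ∧
      2 * (finrank K ↥(riemannRochSpace W) : ℤ) = Divisor.degree W + 2 := by
  have heq : riemannRochSpace W = finLat (canI K F) ⊓ infLat (canJ K F) := by
    ext f
    have e1 : f ∈ finLat (canI K F) ↔ ∀ P : HeightOneSpectrum B,
        P.valuation F f ≤ exp (W (placeOf (k := K) (F := F) P)) := by
      rw [mem_finLat]
      refine (mem_iff_valuation_le canI_ne_zero).trans (forall_congr' fun P => ?_)
      rw [hfin P, neg_neg, hW]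
    have e2 : f ∈ infLat (canJ K F) ↔ ∀ Q : HeightOneSpectrum Binf,
        Q.valuation F f ≤ exp (W (placeOf (k := K) (F := F) Q)) := by
      rw [mem_infLat]
      refine (mem_iff_valuation_le canJ_ne_zero).trans (forall_congr' fun Q => ?_)
      rw [hinf Q, neg_neg, hW]
    rw [Submodule.mem_inf, e1, e2]
    exact mem_riemannRochSpace_iff_valuation W f
  have hfinite := (finite_pair (canI K F) canI_ne_zero (canJ K F) canJ_ne_zero).1
  rw [heq]
  refine ⟨hfinite, ?_⟩
  rw [two_mul_finrank_canonical, degree_eq_finsum_add_finsum (deg_eq_one_TC K F) W]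
  have h1 : ∑ᶠ P : HeightOneSpectrum B, W (placeOf (k := K) (F := F) P)
      = -∑ᶠ P : HeightOneSpectrum B, count F P (canI K F) := by
    rw [← finsum_neg_distrib]
    refine finsum_congr fun P => ?_
    rw [hfin P, neg_neg, hW]
  have h2 : ∑ᶠ Q : HeightOneSpectrum Binf, W (placeOf (k := K) (F := F) Q)
      = -∑ᶠ Q : HeightOneSpectrum Binf, count F Q (canJ K F) := by
    rw [← finsum_neg_distrib]
    refine finsum_congr fun Q => ?_
    rw [hinf Q, neg_neg, hW]
  rw [h1, h2]
  ring

variable (K F) in
/-- The computation of the (tame) different, in the shape delivered by `RR_helper3`: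
`count P 𝔇⁻¹ = 1 - e_P`, `count Q (x⁻² 𝔇∞⁻¹) = 1 - count Q x = e_Q + 1`. -/
def DifferentFormula : Prop :=
  (∀ (P : HeightOneSpectrum B) (a : K),
      0 < (placeOf (k := K) (F := F) P).ord (xF K F - algebraMap K F a) →
      count F P (canI K F) = 1 - count F P (spanSingleton B⁰ (xF K F - algebraMap K F a))) ∧
  (∀ Q : HeightOneSpectrum Binf,
      count F Q (canJ K F) = 1 - count F Q (spanSingleton Binf⁰ (xF K F)))

/-- **Riemann–Roch for `W = div(dx)`** in the typeclass setting, given the different formula. -/
theorem two_mul_finrank_riemannRochSpace_TC (h : DifferentFormula K F)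
    (W : Divisor K F) (hW : ∀ v : Place K F, W v = v.ordDifferential (D K F (xF K F))) :
    Module.Finite K ↥(riemannRochSpace W) ∧
      2 * (finrank K ↥(riemannRochSpace W) : ℤ) = Divisor.degree W + 2 := by
  refine two_mul_finrank_riemannRochSpace_of_count (fun P => ?_) (fun Q => ?_) W hW
  · obtain ⟨a, ha⟩ := exists_ord_sub_pos P
    rw [h.1 P a ha, ordDifferential_eq_count_fin P ha]; ring
  · rw [h.2 Q, ordDifferential_eq_count_inf Q]; ring

end Canonical

/-- **Riemann–Roch for `W = div(dx)`** for a function field with a coordinate, given the different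
formula in every typeclass setting. -/
theorem Coord.two_mul_finrank_riemannRochSpace_of_differentFormula {k F : Type*} [Field k]
    [Field F] [Algebra k F] [CharZero k] [IsAlgClosed k] (c : Coord k F)
    (hB : ∀ (_ : Algebra k[X] F) (_ : Algebra (RatFunc k) F)
      (_ : IsScalarTower k[X] (RatFunc k) F) (_ : IsScalarTower k k[X] F)
      (_ : IsScalarTower k (RatFunc k) F) (_ : FiniteDimensional (RatFunc k) F)
      (_ : Algebra.IsSeparable (RatFunc k) F), DifferentFormula k F)
    (W : Divisor k F) (hW : ∀ v : Place k F, W v = v.ordDifferential (D k F c.x)) :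
    Module.Finite k ↥(riemannRochSpace W) ∧
      2 * (finrank k ↥(riemannRochSpace W) : ℤ) = Divisor.degree W + 2 := by
  obtain ⟨i1, i2, i3, i4, i5, i6, i7, hx⟩ := c.exists_typeclass_setting
  exact two_mul_finrank_riemannRochSpace_TC (hB i1 i2 i3 i4 i5 i6 i7) W (by rw [hx]; exact hW)

end Fermat.Agent.FF
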