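import Mathlib

/-!
# Valuation-defined lattices in the fraction field of a Dedekind domain

For a Dedekind domain `R` with fraction field `F` and `E : HeightOneSpectrum R → ℤ` we consider
`valSubmodule E = {h | ∀ w, w.valuation h ≤ exp (E w)}` (the `R`-module `L(E)` of functions with
poles bounded by `E`), prove the exact-order approximation theorem, and that `valSubmodule E` is
finitely generated when `E` has finite support.
-/

set_option autoImplicit false
set_option linter.style.haveILetI false

open IsDedekindDomain WithZero

namespace Fermat.Agent.FF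

variable {R : Type*} [CommRing R] [IsDedekindDomain R] {F : Type*} [Field F] [Algebra R F]
  [IsFractionRing R F]

/-- The `R`-submodule of `F` of elements with `w`-adic valuation at most `exp (E w)` for all `w`. -/
def valSubmodule (E : HeightOneSpectrum R → ℤ) : Submodule R F where
  carrier := {h | ∀ w : HeightOneSpectrum R, w.valuation F h ≤ exp (E w)}
  add_mem' := by
    intro a b ha hb w
    exact (Valuation.map_add _ a b).trans (max_le (ha w) (hb w))
  zero_mem' := by
    intro w
    rw [Valuation.map_zero]; exact zero_le
  smul_mem' := by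
    intro r h hh w
    rw [Algebra.smul_def, Valuation.map_mul]
    calc w.valuation F (algebraMap R F r) * w.valuation F h
        ≤ 1 * exp (E w) := mul_le_mul' (w.valuation_le_one r) (hh w)
      _ = exp (E w) := one_mul _

theorem mem_valSubmodule {E : HeightOneSpectrum R → ℤ} {h : F} :
    h ∈ valSubmodule E ↔ ∀ w : HeightOneSpectrum R, w.valuation F h ≤ exp (E w) := Iff.rfl

theorem valSubmodule_mono {E E' : HeightOneSpectrum R → ℤ} (h : ∀ w, E w ≤ E' w) :
    valSubmodule (F := F) E ≤ valSubmodule E' := by
  intro x hx w
  exact (hx w).trans (exp_le_exp.mpr (h w))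

/-- The order of vanishing as a natural number. -/
noncomputable def ordNat (w : HeightOneSpectrum R) (d : R) : ℕ := (-(w.intValuation d).log).toNat

theorem intValuation_eq_exp_ordNat (w : HeightOneSpectrum R) {d : R} (hd : d ≠ 0) :
    w.intValuation d = exp (-(ordNat w d : ℤ)) := by
  have hne : w.intValuation d ≠ 0 := w.intValuation_ne_zero d hd
  have hle : (w.intValuation d).log ≤ 0 := by
    have h1 : w.intValuation d ≤ 1 := w.intValuation_le_one d
    have := (WithZero.log_le_log hne one_ne_zero).mpr h1
    simpa using this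
  rw [ordNat, Int.toNat_of_nonneg (by omega), neg_neg, WithZero.exp_log hne]

/-- **Exact-order approximation, integral case.** -/
theorem exists_intValuation_eq (S : Finset (HeightOneSpectrum R)) (n : HeightOneSpectrum R → ℕ) :
    ∃ b : R, b ≠ 0 ∧ ∀ w ∈ S, w.intValuation b = exp (-(n w : ℤ)) := by
  classical
  by_cases hS : S = ∅
  · exact ⟨1, one_ne_zero, by simp [hS]⟩
  have hunif : ∀ w : HeightOneSpectrum R, ∃ π : R, w.intValuation π = exp (-1 : ℤ) :=
    fun w => w.intValuation_exists_uniformizer
  choose π hπ using hunif
  obtain ⟨y, hy⟩ := IsDedekindDomain.exists_forall_sub_mem_ideal (s := S)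
    (fun w => w.asIdeal) (fun w => n w + 1) (fun w _ => w.prime)
    (fun w _ w' _ hne h => hne (HeightOneSpectrum.ext h)) (fun w => π w.1 ^ n w.1)
  have hval : ∀ w ∈ S, w.intValuation y = exp (-(n w : ℤ)) := by
    intro w hw
    have h1 : w.intValuation (y - π w ^ n w) ≤ exp (-((n w + 1 : ℕ) : ℤ)) :=
      (w.intValuation_le_pow_iff_mem _ _).mpr (hy w hw)
    have h2 : w.intValuation (π w ^ n w) = exp (-(n w : ℤ)) := by
      rw [map_pow, hπ, ← exp_nsmul]; simp
    have h3 : w.intValuation (y - π w ^ n w) < w.intValuation (π w ^ n w) := by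
      rw [h2]
      refine lt_of_le_of_lt h1 (exp_lt_exp.mpr ?_)
      push_cast; omega
    rw [Valuation.map_eq_of_sub_lt _ h3, h2]
  refine ⟨y, ?_, hval⟩
  rintro rfl
  obtain ⟨w, hw⟩ := Finset.nonempty_iff_ne_empty.mpr hS
  have := hval w hw
  rw [map_zero] at this
  exact exp_ne_zero this.symm

/-- **Exact-order approximation.** Given finitely many primes with prescribed integer orders there
is a nonzero element of `F` with exactly these orders, and regular elsewhere. -/
theorem exists_valuation_eq (S : Finset (HeightOneSpectrum R)) (n : HeightOneSpectrum R → ℤ) :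
    ∃ h : F, h ≠ 0 ∧ (∀ w ∈ S, w.valuation F h = exp (-(n w))) ∧
      ∀ w, w ∉ S → w.valuation F h ≤ 1 := by
  classical
  -- denominator
  obtain ⟨d, hd0, hd⟩ := exists_intValuation_eq S (fun w => (-(n w)).toNat)
  -- the primes dividing `d`
  have hfin : {w : HeightOneSpectrum R | w.asIdeal ∣ Ideal.span {d}}.Finite :=
    Ideal.finite_factors (by rwa [ne_eq, Ideal.zero_eq_bot, Ideal.span_singleton_eq_bot])
  set S' : Finset (HeightOneSpectrum R) := S ∪ hfin.toFinset with hS'
  obtain ⟨b, hb0, hb⟩ := exists_intValuation_eq S'
    (fun w => if w ∈ S then (n w).toNat else ordNat w d)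
  have hdF : algebraMap R F d ≠ 0 := by
    simpa using (IsFractionRing.injective R F).ne hd0
  have hbF : algebraMap R F b ≠ 0 := by
    simpa using (IsFractionRing.injective R F).ne hb0
  refine ⟨algebraMap R F b / algebraMap R F d, div_ne_zero hbF hdF, ?_, ?_⟩
  · intro w hw
    rw [map_div₀, HeightOneSpectrum.valuation_of_algebraMap, HeightOneSpectrum.valuation_of_algebraMap,
      hd w hw, hb w (Finset.mem_union_left _ hw), if_pos hw, ← exp_sub]
    congr 1
    rcases le_total 0 (n w) with h | h
    · rw [Int.toNat_of_nonneg h, Int.toNat_of_nonpos (by omega)]; simp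
    · rw [Int.toNat_of_nonpos h, Int.toNat_of_nonneg (by omega)]; simp
  · intro w hw
    rw [map_div₀, HeightOneSpectrum.valuation_of_algebraMap, HeightOneSpectrum.valuation_of_algebraMap]
    by_cases hw' : w ∈ S'
    · rw [hb w hw', if_neg hw, intValuation_eq_exp_ordNat w hd0, ← exp_sub]
      simp
    · -- `w` does not divide `d`
      have hnd : ¬ w.asIdeal ∣ Ideal.span {d} := by
        intro hdiv
        apply hw'
        rw [hS', Finset.mem_union]
        right
        exact hfin.mem_toFinset.mpr hdiv
      have hd1 : w.intValuation d = 1 := by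
        by_contra hne
        have hlt : w.intValuation d < 1 := lt_of_le_of_ne (w.intValuation_le_one d) hne
        rw [w.intValuation_lt_one_iff_mem] at hlt
        apply hnd
        rw [Ideal.dvd_iff_le, Ideal.span_le, Set.singleton_subset_iff]
        exact hlt
      rw [hd1, div_one]
      exact w.intValuation_le_one b


open scoped nonZeroDivisors

/-- `valSubmodule E` is a fractional ideal when `E` has finite support. -/
theorem isFractional_valSubmodule (E : HeightOneSpectrum R →₀ ℤ) :
    IsFractional R⁰ (valSubmodule (F := F) E) := by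
  classical
  obtain ⟨d, hd0, hd⟩ := exists_intValuation_eq E.support (fun w => (E w).toNat)
  refine ⟨d, mem_nonZeroDivisors_of_ne_zero hd0, fun b hb => ?_⟩
  have : d • b ∈ (algebraMap R F).range := by
    apply HeightOneSpectrum.mem_integers_of_valuation_le_one
    intro w
    rw [Algebra.smul_def, Valuation.map_mul, HeightOneSpectrum.valuation_of_algebraMap]
    by_cases hw : w ∈ E.support
    · rw [hd w hw]
      calc exp (-((E w).toNat : ℤ)) * w.valuation F b
          ≤ exp (-((E w).toNat : ℤ)) * exp (E w) := mul_le_mul' le_rfl (hb w)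
        _ = exp (-((E w).toNat : ℤ) + E w) := (exp_add _ _).symm
        _ ≤ exp 0 := exp_le_exp.mpr (by have := Int.self_le_toNat (E w); omega)
        _ = 1 := exp_zero
    · have hE0 : E w = 0 := by simpa using hw
      have h1 := hb w
      rw [hE0, exp_zero] at h1
      calc w.intValuation d * w.valuation F b ≤ 1 * 1 :=
            mul_le_mul' (w.intValuation_le_one d) h1
        _ = 1 := one_mul _
  obtain ⟨r, hr⟩ := this
  exact ⟨r, hr⟩

/-- `valSubmodule E` is a finitely generated `R`-module when `E` has finite support. -/
theorem finite_valSubmodule (E : HeightOneSpectrum R →₀ ℤ) :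
    Module.Finite R (valSubmodule (F := F) E) := by
  have h : IsNoetherian R (valSubmodule (F := F) E) :=
    FractionalIdeal.isNoetherian (⟨valSubmodule (F := F) E, isFractional_valSubmodule E⟩ :
      FractionalIdeal R⁰ F)
  exact Module.IsNoetherian.finite R _

/-- `valSubmodule E` contains a nonzero multiple of `R`. -/
theorem exists_smul_mem_valSubmodule (E : HeightOneSpectrum R →₀ ℤ) :
    ∃ d : R, d ≠ 0 ∧ ∀ r : R, algebraMap R F (d * r) ∈ valSubmodule (F := F) E := by
  classical
  obtain ⟨d, hd0, hd⟩ := exists_intValuation_eq E.support (fun w => (-(E w)).toNat)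
  refine ⟨d, hd0, fun r w => ?_⟩
  rw [HeightOneSpectrum.valuation_of_algebraMap, map_mul]
  by_cases hw : w ∈ E.support
  · rw [hd w hw]
    calc exp (-((-(E w)).toNat : ℤ)) * w.intValuation r
        ≤ exp (-((-(E w)).toNat : ℤ)) * 1 := mul_le_mul' le_rfl (w.intValuation_le_one r)
      _ = exp (-((-(E w)).toNat : ℤ)) := mul_one _
      _ ≤ exp (E w) := exp_le_exp.mpr (by have := Int.self_le_toNat (-(E w)); omega)
  · have hE0 : E w = 0 := by simpa using hw
    rw [hE0, exp_zero]
    calc w.intValuation d * w.intValuation r ≤ 1 * 1 :=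
          mul_le_mul' (w.intValuation_le_one d) (w.intValuation_le_one r)
      _ = 1 := one_mul _


open Module

/-- **Lattices over a PID have bases.** A finitely generated `A`-submodule `M` of a field `F`
(`A` a PID with fraction field `KA ⊆ F`) which spans `F` over `KA` is the `A`-span of a `KA`-basis
of `F`. -/
theorem exists_basis_of_lattice {A : Type*} [CommRing A] [IsDomain A] [IsPrincipalIdealRing A]
    {KA : Type*} [Field KA] [Algebra A KA] [IsFractionRing A KA]
    {F : Type*} [Field F] [Algebra A F] [Algebra KA F] [IsScalarTower A KA F]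
    (M : Submodule A F) [Module.Finite A M] (hspan : ∀ y : F, ∃ a : A, a ≠ 0 ∧ a • y ∈ M) :
    ∃ (n : ℕ) (u : Basis (Fin n) KA F),
      ∀ x : F, x ∈ M ↔ ∀ j, u.repr x j ∈ (algebraMap A KA).range := by
  classical
  have hinj : Function.Injective (algebraMap A F) := by
    rw [IsScalarTower.algebraMap_eq A KA F]
    exact (algebraMap KA F).injective.comp (IsFractionRing.injective A KA)
  haveI : Module.IsTorsionFree A F := Module.isTorsionFree_iff_algebraMap_injective.mpr hinj
  haveI : Module.Free A M := Module.free_of_finite_type_torsion_free'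
  let b₀ := Module.Free.chooseBasis A M
  let n := Fintype.card (Module.Free.ChooseBasisIndex A M)
  let b : Basis (Fin n) A M := b₀.reindex (Fintype.equivFin _)
  set u₀ : Fin n → F := fun j => (b j : F) with hu₀
  have hliA : LinearIndependent A u₀ :=
    b.linearIndependent.map' M.subtype (Submodule.ker_subtype M)
  have hli : LinearIndependent KA u₀ := (LinearIndependent.iff_fractionRing A KA).mp hliA
  have hsp : ⊤ ≤ Submodule.span KA (Set.range u₀) := by
    intro y _
    obtain ⟨a, ha0, hay⟩ := hspan y
    have haK : algebraMap A KA a ≠ 0 := by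
      simpa using (IsFractionRing.injective A KA).ne ha0
    -- expand `a • y` in the basis `b`
    have hsum : a • y = ∑ j, (b.repr ⟨a • y, hay⟩ j) • u₀ j := by
      have := b.sum_repr ⟨a • y, hay⟩
      have h2 := congrArg (M.subtype) this
      rw [map_sum] at h2
      simp only [map_smul, Submodule.subtype_apply] at h2
      exact h2.symm
    have hy : y = (algebraMap A KA a)⁻¹ • (a • y) := by
      rw [← algebraMap_smul KA a y, smul_smul, inv_mul_cancel₀ haK, one_smul]
    rw [hy, hsum]
    refine Submodule.smul_mem _ _ (Submodule.sum_mem _ fun j _ => ?_)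
    rw [← algebraMap_smul KA (b.repr ⟨a • y, hay⟩ j) (u₀ j)]
    exact Submodule.smul_mem _ _ (Submodule.subset_span ⟨j, rfl⟩)
  let u : Basis (Fin n) KA F := Basis.mk hli hsp
  have hu : ∀ j, u j = u₀ j := fun j => by rw [Basis.mk_apply]
  refine ⟨n, u, fun x => ⟨fun hx j => ?_, fun hx => ?_⟩⟩
  · -- coordinates of an element of `M`
    obtain ⟨c, hc⟩ : ∃ c : Fin n → A, c = fun i => b.repr ⟨x, hx⟩ i := ⟨_, rfl⟩
    have hsum : x = ∑ i, (c i) • u₀ i := by
      have := b.sum_repr ⟨x, hx⟩
      have h2 := congrArg (M.subtype) this
      rw [map_sum] at h2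
      simp only [map_smul, Submodule.subtype_apply] at h2
      rw [hc]
      exact h2.symm
    have hsum' : x = ∑ i, (algebraMap A KA (c i)) • u i := by
      conv_lhs => rw [hsum]
      refine Finset.sum_congr rfl fun i _ => ?_
      rw [hu, algebraMap_smul]
    refine ⟨c j, ?_⟩
    rw [hsum', map_sum, Finset.sum_apply']
    simp only [map_smul, Basis.repr_self, Finsupp.smul_apply, Finsupp.single_apply, smul_eq_mul,
      mul_ite, mul_one, mul_zero, Finset.sum_ite_eq', Finset.mem_univ, if_true]
  · choose a ha using hx
    have hsum : x = ∑ i, (a i) • u₀ i := by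
      conv_lhs => rw [← u.sum_repr x]
      refine Finset.sum_congr rfl fun i _ => ?_
      rw [← ha i, hu, algebraMap_smul]
    rw [hsum]
    exact Submodule.sum_mem _ fun i _ => Submodule.smul_mem _ _ (b i).2


section OverPID

variable {A : Type*} [CommRing A] [IsDomain A] [Algebra A R] [Algebra A F] [IsScalarTower A R F]
  [Module.Finite A R]

/-- Every element of `F` has a nonzero `A`-multiple in `valSubmodule E`. -/
theorem exists_smul_mem_valSubmodule_of_finite (E : HeightOneSpectrum R →₀ ℤ) (y : F) :
    ∃ a : A, a ≠ 0 ∧ a • y ∈ valSubmodule (F := F) E := by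
  obtain ⟨d, hd0, hd⟩ := exists_smul_mem_valSubmodule (F := F) E
  obtain ⟨r, s, hs, rfl⟩ := IsFractionRing.div_surjective (A := R) y
  have hs0 : s ≠ 0 := nonZeroDivisors.ne_zero hs
  haveI : Algebra.IsIntegral A R := Algebra.IsIntegral.of_finite A R
  have halg : IsAlgebraic A (s * d) := (Algebra.IsIntegral.isIntegral (R := A) (s * d)).isAlgebraic
  obtain ⟨a, ha0, r', hr'⟩ := halg.exists_nonzero_dvd
    (mem_nonZeroDivisors_of_ne_zero (mul_ne_zero hs0 hd0))
  refine ⟨a, ha0, ?_⟩
  have hsF : algebraMap R F s ≠ 0 := by
    simpa using (IsFractionRing.injective R F).ne hs0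
  have : a • (algebraMap R F r / algebraMap R F s) = algebraMap R F (d * (r' * r)) := by
    rw [← algebraMap_smul R a, Algebra.smul_def, hr']
    simp only [map_mul]
    field_simp
  rw [this]
  exact hd _

/-- `valSubmodule E` as an `A`-module is finitely generated. -/
theorem finite_restrictScalars_valSubmodule (E : HeightOneSpectrum R →₀ ℤ) :
    Module.Finite A ((valSubmodule (F := F) E).restrictScalars A) := by
  haveI := finite_valSubmodule (F := F) E
  have h : Module.Finite A (valSubmodule (F := F) E) :=
    Module.Finite.trans R (valSubmodule (F := F) E)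
  exact h

end OverPID

/-- **The lattice theorem.** `A` a PID with fraction field `KA`, `R` a Dedekind domain finite over
`A` with fraction field `F ⊇ KA`: `valSubmodule E` is the `A`-span of a `KA`-basis of `F`. -/
theorem exists_basis_valSubmodule {A : Type*} [CommRing A] [IsDomain A] [IsPrincipalIdealRing A]
    [Algebra A R] [Algebra A F] [IsScalarTower A R F] [Module.Finite A R]
    {KA : Type*} [Field KA] [Algebra A KA] [IsFractionRing A KA] [Algebra KA F]
    [IsScalarTower A KA F] (E : HeightOneSpectrum R →₀ ℤ) :
    ∃ (n : ℕ) (u : Basis (Fin n) KA F),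
      ∀ x : F, x ∈ valSubmodule (F := F) E ↔ ∀ j, u.repr x j ∈ (algebraMap A KA).range := by
  haveI := finite_restrictScalars_valSubmodule (A := A) (F := F) E
  exact exists_basis_of_lattice ((valSubmodule (F := F) E).restrictScalars A)
    (fun y => exists_smul_mem_valSubmodule_of_finite E y)

end Fermat.Agent.FF
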